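/-
S25lib / Polar / Rig (helper9).
**(RIG)**: `Γ(C ×ₖ T, O) = Γ(T, O)` for a proper integral `k`-scheme `C` (`k` algebraically closed)
and an ARBITRARY `k`-scheme `T` - via Mathlib's flat base change of sections
(`isIso_pushoutSection_of_isQuasiSeparated_of_flat_right`) on the affine opens of `T` and
`TopCat.Sheaf.isIso_iff_isIso_basis`.

* `isIso_app_snd_of_isAffineOpen`, `isIso_app_snd`, `isIso_appTop_snd` : under `IsIso c.appTop`;
* `isIso_appTop_of_isAlgClosed` : `Γ(C, O) = k`;
* `rig`, `rig_app` : the bijectivity statements.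
-/
import Mathlib

set_option autoImplicit false

universe u

open AlgebraicGeometry CategoryTheory CategoryTheory.Limits TopologicalSpace

namespace Fermat.Agent.S25lib.Polar

variable {k : Type u} [Field k] {C T : Scheme.{u}}
  (c : C ⟶ Spec (CommRingCat.of k)) (t : T ⟶ Spec (CommRingCat.of k))

instance : Subsingleton ↥(Spec (CommRingCat.of k)) :=
  inferInstanceAs (Subsingleton (PrimeSpectrum k))

/-- flat base change of global sections along `T → Spec k`, over an affine open of `T` -/
theorem isIso_app_snd_of_isAffineOpen [CompactSpace C] [QuasiSeparatedSpace C]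
    (hc : IsIso c.appTop) {T' : T.Opens} (hT' : IsAffineOpen T') :
    IsIso ((pullback.snd c t).app T') := by
  have H : IsPullback (pullback.fst c t) (pullback.snd c t) c t := IsPullback.of_hasPullback c t
  have hUST : T' ≤ t ⁻¹ᵁ (⊤ : (Spec (CommRingCat.of k)).Opens) := le_top
  have hUSX : (⊤ : C.Opens) ≤ c ⁻¹ᵁ (⊤ : (Spec (CommRingCat.of k)).Opens) := le_top
  have hUY : (pullback.snd c t) ⁻¹ᵁ T' =
      (pullback.fst c t) ⁻¹ᵁ (⊤ : C.Opens) ⊓ (pullback.snd c t) ⁻¹ᵁ T' := by simp
  have h1 := isIso_pushoutSection_of_isQuasiSeparated_of_flat_right H hUST hUSX hUY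
    (isAffineOpen_top _) hT' isCompact_univ isQuasiSeparated_univ
  have h2 : IsIso (c.appLE ⊤ ⊤ hUSX) := by
    have : c.appLE ⊤ ⊤ hUSX = c.appTop := Scheme.Hom.appLE_eq_app c
    rw [this]
    exact hc
  have h3 : (pullback.snd c t).app T' =
      pushout.inr (c.appLE ⊤ ⊤ hUSX) (t.appLE ⊤ T' hUST) ≫ pushoutSection H hUST hUSX hUY := by
    rw [pushout.inr_desc]
    exact Scheme.Hom.app_eq_appLE _
  rw [h3]
  infer_instance

/-- **flat base change of sections along `T → Spec k`**, `T` arbitrary: if `Γ(C, O) = k` then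
`Γ(T, U) → Γ(C ×ₖ T, pr₂⁻¹ U)` is an isomorphism for every open `U` of `T`. -/
theorem isIso_app_snd [CompactSpace C] [QuasiSeparatedSpace C] (hc : IsIso c.appTop)
    (U : T.Opens) : IsIso ((pullback.snd c t).app U) := by
  let iY := pullback.snd c t
  let G : TopCat.Sheaf CommRingCat T.toTopCat :=
    (TopCat.Sheaf.pushforward CommRingCat iY.base).obj (pullback c t).sheaf
  let φ : T.sheaf ⟶ G := ⟨iY.c⟩
  have hφ : IsIso φ := by
    refine TopCat.Sheaf.isIso_iff_isIso_basis (B := fun U : T.affineOpens => U.1)
      (by rw [Subtype.range_coe]; exact T.isBasis_affineOpens) fun U => ?_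
    exact isIso_app_snd_of_isAffineOpen c t hc U.2
  have : IsIso ((TopCat.Sheaf.forget CommRingCat T.toTopCat).map φ) := inferInstance
  exact (NatTrans.isIso_iff_isIso_app _).mp this (Opposite.op U)

theorem isIso_appTop_snd [CompactSpace C] [QuasiSeparatedSpace C] (hc : IsIso c.appTop) :
    IsIso (pullback.snd c t).appTop :=
  isIso_app_snd c t hc ⊤

/-- global functions on an integral, universally closed `k`-scheme of finite type are constant
(`k` algebraically closed) -/
theorem isIso_appTop_of_isAlgClosed [IsAlgClosed k] [IsIntegral C] [UniversallyClosed c]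
    [LocallyOfFiniteType c] : IsIso c.appTop := by
  let F : CommRingCat.of k ⟶ Γ(C, ⊤) := (Scheme.ΓSpecIso (CommRingCat.of k)).inv ≫ c.appTop
  have hfin : F.hom.Finite := by
    have h1 := finite_appTop_of_universallyClosed k c
    have h2 : ((Scheme.ΓSpecIso (CommRingCat.of k)).inv).hom.Finite :=
      RingHom.Finite.of_surjective _
        (ConcreteCategory.bijective_of_isIso (Scheme.ΓSpecIso (CommRingCat.of k)).inv).2
    exact h1.comp h2
  have hbij : Function.Bijective F.hom := by
    algebraize [F.hom]
    have : Algebra.IsIntegral k Γ(C, ⊤) := Algebra.IsIntegral.of_finite k Γ(C, ⊤)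
    exact IsAlgClosed.algebraMap_bijective_of_isIntegral
  have hF : IsIso F := (ConcreteCategory.isIso_iff_bijective F).mpr hbij
  have : c.appTop = (Scheme.ΓSpecIso (CommRingCat.of k)).hom ≫ F := by
    simp [F]
  rw [this]
  infer_instance

/-- **(RIG)**: for a proper integral curve (indeed any integral, universally closed, finite-type
`k`-scheme, quasi-separated) over an algebraically closed field and ANY `k`-scheme `T`:
`Γ(T, O) → Γ(C ×ₖ T, O)` is bijective. -/
theorem rig [IsAlgClosed k] [IsIntegral C] [UniversallyClosed c] [LocallyOfFiniteType c]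
    [CompactSpace C] [QuasiSeparatedSpace C] :
    Function.Bijective (pullback.snd c t).appTop :=
  have := isIso_appTop_snd c t (isIso_appTop_of_isAlgClosed c)
  ConcreteCategory.bijective_of_isIso _

/-- (RIG) over every open `U` of `T` -/
theorem rig_app [IsAlgClosed k] [IsIntegral C] [UniversallyClosed c] [LocallyOfFiniteType c]
    [CompactSpace C] [QuasiSeparatedSpace C] (U : T.Opens) :
    Function.Bijective ((pullback.snd c t).app U) :=
  have := isIso_app_snd c t (isIso_appTop_of_isAlgClosed c) U
  ConcreteCategory.bijective_of_isIso _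

end Fermat.Agent.S25lib.Polar
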