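/-
S25lib / Polar / Dict (helper9).
**The divisor of an invertible module on an integral scheme whose points are generic or DVR points**
(a regular curve), through SECTIONS (`Mod.IsGen`), no stalks of modules:

* `GenericGen M` : a generator `s₀` of `M` over a non-empty open `U₀`;
* `coordFF G hV σ ∈ K(Y)` : the coordinate of a section `σ ∈ Γ(M, V)` with respect to `s₀`
  (additive, `O`-semilinear, compatible with restriction, injective);
* `divAt G hM P ∈ ℤ` : the multiplicity of the divisor of `M` (relative to `s₀`) at a DVR point `P`;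
  `ordAt_coordFF_gen` : it is computed by ANY local generator;
* **`exists_coordFF_eq_iff`** : `f ∈ K(Y)` is the coordinate of a section over `V` iff `f = 0` or
  `ord_P f ≥ - divAt P` for all DVR points `P ∈ V`: `Γ(M, V) = Γ(V, O(D))` inside `K(Y)`.
-/
import Mathlib
import Fermat.Agent.S25lib.Mod.SheafGlue
import Fermat.Agent.S25lib.Mod.End
import Fermat.Agent.S26lib.Aff.Sections

set_option autoImplicit false

noncomputable section

universe u

open AlgebraicGeometry CategoryTheory TopologicalSpace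

namespace Fermat.Agent.S25lib.Polar

open Fermat.Agent.S26lib Fermat.Agent.S26lib.Weil Fermat.Agent.S26lib.Aff Fermat.Agent.S25lib.Mod

variable {Y : Scheme.{u}} [IsIntegral Y] (M : Y.Modules)

/-- a generator of `M` over a non-empty open set -/
structure GenericGen where
  U₀ : Y.Opens
  mem : genericPoint Y ∈ U₀
  s₀ : Γ(M, U₀)
  gen : IsGen M U₀ s₀

variable {M}

namespace GenericGen

variable (G : GenericGen M)

/-- the coordinate of a section with respect to the generic generator -/
def coordFF {V : Y.Opens} (hV : genericPoint Y ∈ V) (σ : Γ(M, V)) : Y.functionField :=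
  germFF (V ⊓ G.U₀) (show genericPoint Y ∈ V ⊓ G.U₀ from ⟨hV, G.mem⟩)
    (G.gen.coord inf_le_right (Mod.res M inf_le_left σ))

/-- **local computation** of the coordinate -/
theorem coordFF_eq_of_res {V W : Y.Opens} (hV : genericPoint Y ∈ V) (σ : Γ(M, V))
    (hWV : W ≤ V) (hWU : W ≤ G.U₀) (hW : genericPoint Y ∈ W) (r : Γ(Y, W))
    (h : Mod.res M hWV σ = r • Mod.res M hWU G.s₀) :
    G.coordFF hV σ = germFF W hW r := by
  unfold coordFF
  set c := G.gen.coord inf_le_right (Mod.res M inf_le_left σ) with hc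
  have hcs : c • Mod.res M inf_le_right G.s₀ = Mod.res M inf_le_left σ :=
    G.gen.coord_smul inf_le_right _
  have hW' : W ≤ V ⊓ G.U₀ := le_inf hWV hWU
  have h1 := congrArg (Mod.res M hW') hcs
  rw [Mod.res_smul, Mod.res_res, Mod.res_res, h] at h1
  have h2 : resO hW' c = r := (G.gen W hWU).1 h1
  rw [← h2]
  exact (germFF_res hW' hW c).symm

theorem coordFF_res {V V' : Y.Opens} (hV : genericPoint Y ∈ V) (hV' : genericPoint Y ∈ V')
    (h : V' ≤ V) (σ : Γ(M, V)) : G.coordFF hV' (Mod.res M h σ) = G.coordFF hV σ := by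
  have hW : genericPoint Y ∈ V' ⊓ G.U₀ := ⟨hV', G.mem⟩
  rw [G.coordFF_eq_of_res hV σ (inf_le_left.trans h) inf_le_right hW
    (G.gen.coord inf_le_right (Mod.res M inf_le_left (Mod.res M h σ)))]
  · rfl
  · rw [G.gen.coord_smul, Mod.res_res]

theorem coordFF_zero {V : Y.Opens} (hV : genericPoint Y ∈ V) : G.coordFF hV (0 : Γ(M, V)) = 0 := by
  have hW : genericPoint Y ∈ V ⊓ G.U₀ := ⟨hV, G.mem⟩
  rw [G.coordFF_eq_of_res hV 0 inf_le_left inf_le_right hW 0, map_zero]
  rw [Mod.res_zero, zero_smul]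

theorem coordFF_add {V : Y.Opens} (hV : genericPoint Y ∈ V) (σ τ : Γ(M, V)) :
    G.coordFF hV (σ + τ) = G.coordFF hV σ + G.coordFF hV τ := by
  have hW : genericPoint Y ∈ V ⊓ G.U₀ := ⟨hV, G.mem⟩
  rw [G.coordFF_eq_of_res hV (σ + τ) inf_le_left inf_le_right hW
    (G.gen.coord inf_le_right (Mod.res M inf_le_left σ) +
      G.gen.coord inf_le_right (Mod.res M inf_le_left τ)), map_add]
  · rfl
  · rw [Mod.res_add, add_smul, G.gen.coord_smul, G.gen.coord_smul]

theorem coordFF_smul {V : Y.Opens} (hV : genericPoint Y ∈ V) (r : Γ(Y, V)) (σ : Γ(M, V)) :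
    G.coordFF hV (r • σ) = germFF V hV r * G.coordFF hV σ := by
  have hW : genericPoint Y ∈ V ⊓ G.U₀ := ⟨hV, G.mem⟩
  rw [G.coordFF_eq_of_res hV (r • σ) inf_le_left inf_le_right hW
    (resO inf_le_left r * G.gen.coord inf_le_right (Mod.res M inf_le_left σ)), map_mul]
  · congr 1
    exact germFF_res inf_le_left hW r
  · rw [Mod.res_smul, mul_smul, G.gen.coord_smul]

/-- the coordinate of the generic generator is `1` -/
theorem coordFF_s₀ : G.coordFF G.mem G.s₀ = 1 := by
  rw [G.coordFF_eq_of_res G.mem G.s₀ le_rfl le_rfl G.mem 1, map_one]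
  rw [one_smul]

/-- restriction of functions to a non-empty open subset is injective -/
theorem resO_injective {V W : Y.Opens} (h : W ≤ V) (hW : genericPoint Y ∈ W) :
    Function.Injective (resO h : Γ(Y, V) → Γ(Y, W)) := by
  intro r r' hrr
  apply germFF_injective V (h hW)
  have := congrArg (germFF W hW) hrr
  unfold resO at this
  rwa [germFF_res h hW, germFF_res h hW] at this

/-- sections of a locally generated module on an integral scheme are determined by their
coordinate -/
theorem coordFF_injective (hM : LocGen M) {V : Y.Opens} (hV : genericPoint Y ∈ V)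
    {σ τ : Γ(M, V)} (h : G.coordFF hV σ = G.coordFF hV τ) : σ = τ := by
  have hW : genericPoint Y ∈ V ⊓ G.U₀ := ⟨hV, G.mem⟩
  -- the two sections agree on `V ⊓ U₀`
  have h0 : Mod.res M (inf_le_left : V ⊓ G.U₀ ≤ V) σ = Mod.res M inf_le_left τ := by
    rw [← G.gen.coord_smul inf_le_right (Mod.res M inf_le_left σ),
      ← G.gen.coord_smul inf_le_right (Mod.res M inf_le_left τ)]
    congr 1
    exact germFF_injective _ hW h
  choose U hxU s hs using hM
  refine Mod.eq_of_res_eq M (fun x : V => V ⊓ U x.1) V (fun _ => inf_le_left)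
    (fun x hx => Opens.mem_iSup.2 ⟨⟨x, hx⟩, hx, hxU x⟩) σ τ fun x => ?_
  -- on `V ⊓ U x` use the generator `s x`
  have hW' : genericPoint Y ∈ V ⊓ U x.1 ⊓ G.U₀ := ⟨⟨hV, genericPoint_mem (hxU x.1)⟩, G.mem⟩
  rw [← (hs x.1).coord_smul inf_le_right (Mod.res M inf_le_left σ),
    ← (hs x.1).coord_smul inf_le_right (Mod.res M inf_le_left τ)]
  congr 1
  apply resO_injective (inf_le_left : V ⊓ U x.1 ⊓ G.U₀ ≤ V ⊓ U x.1) hW'
  apply ((hs x.1) (V ⊓ U x.1 ⊓ G.U₀) (inf_le_left.trans inf_le_right)).1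
  show resO _ _ • Mod.res M _ (s x.1) = resO _ _ • Mod.res M _ (s x.1)
  have e1 := congrArg (Mod.res M (inf_le_left : V ⊓ U x.1 ⊓ G.U₀ ≤ V ⊓ U x.1))
    ((hs x.1).coord_smul inf_le_right (Mod.res M inf_le_left σ))
  have e2 := congrArg (Mod.res M (inf_le_left : V ⊓ U x.1 ⊓ G.U₀ ≤ V ⊓ U x.1))
    ((hs x.1).coord_smul inf_le_right (Mod.res M inf_le_left τ))
  rw [Mod.res_smul, Mod.res_res, Mod.res_res] at e1 e2
  rw [e1, e2]
  have e3 := congrArg (Mod.res M (le_inf (inf_le_left.trans inf_le_left) inf_le_right :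
    V ⊓ U x.1 ⊓ G.U₀ ≤ V ⊓ G.U₀)) h0
  rwa [Mod.res_res, Mod.res_res] at e3

/-- the coordinate of a local generator is non-zero -/
theorem coordFF_gen_ne_zero {U : Y.Opens} {s : Γ(M, U)} (hs : IsGen M U s)
    (hU : genericPoint Y ∈ U) : G.coordFF hU s ≠ 0 := by
  have hW : genericPoint Y ∈ U ⊓ G.U₀ := ⟨hU, G.mem⟩
  intro h0
  have h1 : G.coordFF hW (Mod.res M inf_le_right G.s₀) = 1 := by
    rw [G.coordFF_res G.mem hW, G.coordFF_s₀]
  rw [← hs.coord_smul inf_le_left (Mod.res M inf_le_right G.s₀), G.coordFF_smul,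
    G.coordFF_res hU hW, h0, mul_zero] at h1
  exact zero_ne_one h1

section LN

variable [IsLocallyNoetherian Y]

/-- the coordinates of two local generators have the same order at every common DVR point -/
theorem ordAt_coordFF_gen_eq {U U' : Y.Opens} {s : Γ(M, U)} {s' : Γ(M, U')} (hs : IsGen M U s)
    (hs' : IsGen M U' s') (P : PrimeDiv Y) (hP : P.1 ∈ U) (hP' : P.1 ∈ U') :
    ordAt P (G.coordFF (genericPoint_mem hP) s) = ordAt P (G.coordFF (genericPoint_mem hP') s') := by
  have hPW : P.1 ∈ U ⊓ U' := ⟨hP, hP'⟩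
  have hW : genericPoint Y ∈ U ⊓ U' := genericPoint_mem hPW
  set r := hs'.coord inf_le_right (Mod.res M (inf_le_left : U ⊓ U' ≤ U) s) with hr
  set r' := hs.coord inf_le_left (Mod.res M (inf_le_right : U ⊓ U' ≤ U') s') with hr'
  have e1 : r • Mod.res M inf_le_right s' = Mod.res M inf_le_left s := hs'.coord_smul _ _
  have e2 : r' • Mod.res M inf_le_left s = Mod.res M inf_le_right s' := hs.coord_smul _ _
  have hrr : r * r' = 1 := by
    apply (hs' (U ⊓ U') inf_le_right).1
    show (r * r') • Mod.res M _ s' = (1 : Γ(Y, U ⊓ U')) • Mod.res M _ s'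
    rw [mul_comm, mul_smul, e1, e2, one_smul]
  have hu : IsUnit r := IsUnit.of_mul_eq_one _ hrr
  have h1 : G.coordFF (genericPoint_mem hP) s =
      germFF (U ⊓ U') hW r * G.coordFF (genericPoint_mem hP') s' := by
    rw [← G.coordFF_res (genericPoint_mem hP) hW inf_le_left s, ← e1, G.coordFF_smul,
      G.coordFF_res (genericPoint_mem hP') hW]
  have hne : germFF (U ⊓ U') hW r ≠ 0 := by
    intro h0
    have := congrArg (germFF (U ⊓ U') hW) hrr
    rw [map_mul, h0, zero_mul, map_one] at this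
    exact zero_ne_one this
  have h0 : ordAt P (germFF (U ⊓ U') hW r) = 0 :=
    @ordAt_germ_of_isUnit _ _ _ P (U ⊓ U') ⟨⟨P.1, hPW⟩⟩ r hu hPW
  rw [h1, ordAt_mul P hne (G.coordFF_gen_ne_zero hs' (genericPoint_mem hP')), h0, zero_add]

/-- the multiplicity at `P` of the divisor of `M` relative to the generic generator -/
def divAt (hM : LocGen M) (P : PrimeDiv Y) : ℤ :=
  - ordAt P (G.coordFF (genericPoint_mem (hM P.1).choose_spec.1) (hM P.1).choose_spec.2.choose)

/-- the divisor is computed by any local generator -/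
theorem ordAt_coordFF_gen (hM : LocGen M) {U : Y.Opens} {s : Γ(M, U)} (hs : IsGen M U s)
    (P : PrimeDiv Y) (hP : P.1 ∈ U) :
    ordAt P (G.coordFF (genericPoint_mem hP) s) = - G.divAt hM P := by
  unfold divAt
  rw [neg_neg]
  exact G.ordAt_coordFF_gen_eq hs (hM P.1).choose_spec.2.choose_spec P hP (hM P.1).choose_spec.1

/-- the divisor vanishes on the domain of the generic generator -/
theorem divAt_eq_zero (hM : LocGen M) (P : PrimeDiv Y) (hP : P.1 ∈ G.U₀) : G.divAt hM P = 0 := by
  have := G.ordAt_coordFF_gen hM G.gen P hP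
  rw [G.coordFF_s₀] at this
  have h1 : ordAt P (1 : Y.functionField) = 0 := by
    have := ordAt_mul P (one_ne_zero (α := Y.functionField)) one_ne_zero
    rw [mul_one] at this
    omega
  omega

/-- the coordinate of a section has at `P` a pole of order at most `divAt P` -/
theorem le_ordAt_coordFF (hM : LocGen M) {V : Y.Opens} (hV : genericPoint Y ∈ V) (σ : Γ(M, V))
    (hσ : G.coordFF hV σ ≠ 0) (P : PrimeDiv Y) (hP : P.1 ∈ V) :
    - G.divAt hM P ≤ ordAt P (G.coordFF hV σ) := by
  obtain ⟨U, hPU, s, hs⟩ := hM P.1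
  have hPW : P.1 ∈ V ⊓ U := ⟨hP, hPU⟩
  have hW : genericPoint Y ∈ V ⊓ U := genericPoint_mem hPW
  set c := hs.coord inf_le_right (Mod.res M (inf_le_left : V ⊓ U ≤ V) σ) with hc
  have e1 : c • Mod.res M inf_le_right s = Mod.res M inf_le_left σ := hs.coord_smul _ _
  have h1 : G.coordFF hV σ = germFF (V ⊓ U) hW c * G.coordFF (genericPoint_mem hPU) s := by
    rw [← G.coordFF_res hV hW inf_le_left σ, ← e1, G.coordFF_smul,
      G.coordFF_res (genericPoint_mem hPU) hW]
  have hne : germFF (V ⊓ U) hW c ≠ 0 := by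
    intro h0
    rw [h1, h0, zero_mul] at hσ
    exact hσ rfl
  rw [h1, ordAt_mul P hne (G.coordFF_gen_ne_zero hs (genericPoint_mem hPU)),
    G.ordAt_coordFF_gen hM hs P hPU]
  have := ordAt_germFF_nonneg (V ⊓ U) hW c P hPW
  omega

/-- **sections of `M` over `V` are the rational functions with poles bounded by the divisor of
`M` on `V`**: `Γ(M, V) = Γ(V, O(D))` inside the function field -/
theorem exists_coordFF_eq_iff (hM : LocGen M)
    (hreg : ∀ y : Y, y = genericPoint Y ∨ IsDiscreteValuationRing (Y.presheaf.stalk y))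
    {V : Y.Opens} (hV : genericPoint Y ∈ V) (f : Y.functionField) :
    (∃ σ : Γ(M, V), G.coordFF hV σ = f) ↔
      f = 0 ∨ ∀ P : PrimeDiv Y, P.1 ∈ V → - G.divAt hM P ≤ ordAt P f := by
  constructor
  · rintro ⟨σ, rfl⟩
    by_cases h0 : G.coordFF hV σ = 0
    · exact Or.inl h0
    · exact Or.inr fun P hP => G.le_ordAt_coordFF hM hV σ h0 P hP
  · rintro (rfl | hf)
    · exact ⟨0, G.coordFF_zero hV⟩
    by_cases hf0 : f = 0
    · exact ⟨0, by rw [hf0]; exact G.coordFF_zero hV⟩
    have hM' := hM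
    choose U hxU s hs using hM'
    have hW : ∀ x : V, genericPoint Y ∈ V ⊓ U x.1 := fun x => ⟨hV, genericPoint_mem (hxU x.1)⟩
    -- the local coefficients
    have hloc : ∀ x : V, ∃ c : Γ(Y, V ⊓ U x.1),
        germFF (V ⊓ U x.1) (hW x) c = f / G.coordFF (genericPoint_mem (hxU x.1)) (s x.1) := by
      intro x
      have hg0 : G.coordFF (genericPoint_mem (hxU x.1)) (s x.1) ≠ 0 :=
        G.coordFF_gen_ne_zero (hs x.1) _
      apply exists_section_of_forall_mem_range
      intro z hz
      rcases hreg z with rfl | hzP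
      · exact ⟨_, Quad.toFF_generic Y _⟩
      · set P : PrimeDiv Y := ⟨z, hzP⟩ with hP
        have hne : f / G.coordFF (genericPoint_mem (hxU x.1)) (s x.1) ≠ 0 := div_ne_zero hf0 hg0
        show _ ∈ Set.range (Quad.toFF Y P.1)
        rw [← ordAt_nonneg_iff P hne]
        have h1 := ordAt_mul P hne hg0
        rw [div_mul_cancel₀ _ hg0] at h1
        have h2 := G.ordAt_coordFF_gen hM (hs x.1) P hz.2
        have h3 := hf P hz.1
        omega
    choose c hc using hloc
    have hcoord : ∀ x : V, G.coordFF (hW x) (c x • Mod.res M inf_le_right (s x.1)) = f := by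
      intro x
      rw [G.coordFF_smul, hc, G.coordFF_res (genericPoint_mem (hxU x.1))]
      exact div_mul_cancel₀ _ (G.coordFF_gen_ne_zero (hs x.1) _)
    obtain ⟨σ, hσ, -⟩ := Mod.exists_unique_glue M (fun x : V => V ⊓ U x.1) V
      (fun _ => inf_le_left) (fun x hx => Opens.mem_iSup.2 ⟨⟨x, hx⟩, hx, hxU x⟩)
      (fun x => c x • Mod.res M inf_le_right (s x.1)) (fun x y => by
        have hW' : genericPoint Y ∈ (V ⊓ U x.1) ⊓ (V ⊓ U y.1) := ⟨hW x, hW y⟩
        apply G.coordFF_injective hM hW'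
        rw [G.coordFF_res (hW x) hW', G.coordFF_res (hW y) hW', hcoord, hcoord])
    refine ⟨σ, ?_⟩
    rw [← G.coordFF_res hV (hW ⟨genericPoint Y, hV⟩) inf_le_left σ]
    have := hσ ⟨genericPoint Y, hV⟩
    rw [this]
    exact hcoord ⟨genericPoint Y, hV⟩

end LN

section N

variable [IsNoetherian Y]

/-- the divisor of a locally generated module on a noetherian scheme has finite support -/
theorem finite_divAt_ne_zero (hM : LocGen M) : {P : PrimeDiv Y | G.divAt hM P ≠ 0}.Finite := by
  have hM' := hM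
  choose U hxU s hs using hM'
  obtain ⟨t, ht⟩ := isCompact_univ.elim_finite_subcover (fun x : Y => (U x : Set Y))
    (fun x => (U x).isOpen) (fun x _ => Set.mem_iUnion.2 ⟨x, hxU x⟩)
  have hfin : (⋃ x ∈ t, {P : PrimeDiv Y |
      ordAt P (G.coordFF (genericPoint_mem (hxU x)) (s x)) ≠ 0}).Finite :=
    Set.Finite.biUnion t.finite_toSet fun x _ =>
      finite_ordAt_ne_zero _ (G.coordFF_gen_ne_zero (hs x) _)
  refine hfin.subset fun P hP => ?_
  obtain ⟨x, hx, hPx⟩ := Set.mem_iUnion₂.1 (ht (Set.mem_univ P.1))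
  refine Set.mem_iUnion₂.2 ⟨x, hx, ?_⟩
  show ordAt P _ ≠ 0
  rw [G.ordAt_coordFF_gen hM (hs x) P hPx]
  intro h0
  exact hP (by omega)

/-- **the divisor of a locally generated module** (relative to the generic generator) -/
def div (hM : LocGen M) : PrimeDiv Y →₀ ℤ :=
  Finsupp.ofSupportFinite (G.divAt hM) (G.finite_divAt_ne_zero hM)

@[simp]
theorem div_apply (hM : LocGen M) (P : PrimeDiv Y) : G.div hM P = G.divAt hM P := rfl

end N

end GenericGen

/-- **functions over `V` are the rational functions without poles on `V`** -/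
theorem exists_germFF_eq_iff {Y : Scheme.{u}} [IsIntegral Y] [IsLocallyNoetherian Y]
    (hreg : ∀ y : Y, y = genericPoint Y ∨ IsDiscreteValuationRing (Y.presheaf.stalk y))
    {V : Y.Opens} (hV : genericPoint Y ∈ V) (f : Y.functionField) :
    (∃ r : Γ(Y, V), germFF V hV r = f) ↔
      f = 0 ∨ ∀ P : PrimeDiv Y, P.1 ∈ V → 0 ≤ ordAt P f := by
  constructor
  · rintro ⟨r, rfl⟩
    exact Or.inr fun P hP => ordAt_germFF_nonneg V hV r P hP
  · rintro (rfl | hf)
    · exact ⟨0, map_zero _⟩
    by_cases hf0 : f = 0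
    · exact ⟨0, by rw [hf0, map_zero]⟩
    apply exists_section_of_forall_mem_range
    intro z hz
    rcases hreg z with rfl | hzP
    · exact ⟨_, Quad.toFF_generic Y _⟩
    · set P : PrimeDiv Y := ⟨z, hzP⟩ with hP
      show _ ∈ Set.range (Quad.toFF Y P.1)
      rw [← ordAt_nonneg_iff P hf0]
      exact hf P hz

/-- off a non-empty open subset of a noetherian integral scheme there are only finitely many prime
divisors -/
theorem finite_primeDiv_not_mem {Y : Scheme.{u}} [IsIntegral Y] [IsNoetherian Y] (V : Y.Opens)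
    (hV : genericPoint Y ∈ V) : {P : PrimeDiv Y | P.1 ∉ V}.Finite := by
  obtain ⟨S, hSfin, hSclosed, hSirr, hZ⟩ :=
    NoetherianSpace.exists_finite_set_isClosed_irreducible (s := (V : Set Y)ᶜ)
      V.isOpen.isClosed_compl
  let T : Set Y := ⋃ t ∈ S, {y : Y | IsGenericPoint y t}
  have hTfin : T.Finite := by
    refine Set.Finite.biUnion hSfin fun t _ => Set.Subsingleton.finite ?_
    intro y hy y' hy'
    exact hy.eq hy'
  have hsub : {P : PrimeDiv Y | P.1 ∉ V} ⊆ (fun P : PrimeDiv Y => P.1) ⁻¹' T := by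
    intro P hPV
    have hPZ : P.1 ∈ (V : Set Y)ᶜ := hPV
    rw [hZ] at hPZ
    obtain ⟨t, ht, hPt⟩ := hPZ
    obtain ⟨ζ, hζ⟩ := QuasiSober.sober (hSirr t ht) (hSclosed t ht)
    have hζP : ζ ⤳ P.1 := hζ.specializes hPt
    have hζt : ζ ∈ t := hζ.mem
    have hζZ : ζ ∈ (V : Set Y)ᶜ := by
      rw [hZ]
      exact ⟨t, ht, hζt⟩
    have hζη : ζ ≠ genericPoint Y := by
      rintro rfl
      exact hζZ hV
    have hζeq : ζ = P.1 := by
      by_contra hne
      have h1 : P.1 < ζ := by
        refine lt_iff_le_not_ge.mpr ⟨hζP, fun h => hne ?_⟩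
        exact (Specializes.antisymm hζP h).eq
      have h2 : ζ < (⊤ : Y) := by
        refine lt_iff_le_not_ge.mpr ⟨le_top, fun h => hζη ?_⟩
        exact (Specializes.antisymm (show ζ ⤳ genericPoint Y from h)
          (genericPoint_specializes ζ)).eq
      have h3 := Order.coheight_add_one_le h1
      have h4 := Order.coheight_add_one_le h2
      rw [coheight_primeDiv P] at h3
      have h5 : (1 : ℕ∞) ≤ Order.coheight ζ := le_trans (by simp) h4
      have h6 : (2 : ℕ∞) ≤ Order.coheight ζ + 1 := by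
        calc (2 : ℕ∞) = 1 + 1 := by norm_num
          _ ≤ Order.coheight ζ + 1 := by gcongr
      exact absurd (le_trans h6 h3) (by norm_num)
    simp only [Set.mem_preimage, T, Set.mem_iUnion, Set.mem_ofPred_eq, exists_prop]
    exact ⟨t, ht, hζeq ▸ hζ⟩
  refine (hTfin.preimage ?_).subset hsub
  intro P _ Q _ h
  exact Subtype.ext h

end Fermat.Agent.S25lib.Polar
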