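/-
S25lib / Polar / GenPos (helper9).
General position on a curve of genus `γ` (function-field form, `CechRR` language) with the extra
points taken from a prescribed INFINITE set `PP` of places (in the application: the places of
`K(C_K)` coming from the `k`-points of `C`):

* `finite_bad` / `exists_place_rr_eq_bot` : if `L(D) = 0` and `deg D ≤ γ - 2`, then `L(D + P) = 0`
  for all but finitely many places `P`;
* `exists_genPos` : if `L(D) = 0` and `deg D + n = γ - 1` there are `n` distinct places
  `P₁, …, Pₙ ∈ PP` outside a given finite set with `L(D + P₁ + ⋯ + Pₙ) = 0`;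
* `exists_genPos_cech` : for such a divisor the two-chart Čech differential of `O(D + ∑ Pᵢ)` is
  BIJECTIVE (`H⁰ = 0 = H¹`), for every two-chart cover.
Only Riemann's theorem is used (no canonical divisor, no duality).
-/
import Fermat.Agent.S26lib.CechRR.NonSpecial

set_option autoImplicit false

noncomputable section

namespace Fermat.Agent.S25lib.Polar

open AlgebraicCurve Fermat.Agent.S18lib Fermat.Agent.S18lib.Cech Fermat.Agent.S26lib.CechRR

variable {K F : Type*} [Field K] [Field F] [Algebra K F]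

section Curve

variable {γ : ℕ} (hF : IsCurveOfGenus K F γ)
include hF

/-- if `L(D) = 0`, every finite set `Q` of places with `L(D + P) ≠ 0` for all `P ∈ Q` satisfies
`|Q| ≤ ℓ(D + ∑_Q P)` -/
theorem card_le_finrank_add_ind {D : Divisor K F} (hl : riemannRochSpace D = ⊥)
    (Q : Finset (Place K F))
    (hQ : ∀ P ∈ Q, riemannRochSpace (D + Finsupp.single P 1) ≠ ⊥) :
    Q.card ≤ Module.finrank K (riemannRochSpace (D + ind Q)) := by
  classical
  have := hF.finiteDimensional
  induction Q using Finset.induction_on with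
  | empty => simp
  | insert P Q hPQ ih =>
    have ih' := ih fun P' hP' => hQ P' (Finset.mem_insert_of_mem hP')
    have hP := hQ P (Finset.mem_insert_self P Q)
    -- a function with a pole at `P` exactly
    obtain ⟨f, hf, hf0⟩ := (Submodule.ne_bot_iff _).mp hP
    have hfD : f ∉ riemannRochSpace D := by
      rw [hl, Submodule.mem_bot]
      exact hf0
    obtain ⟨-, hord⟩ := ord_eq_of_mem_of_not_mem hf hfD
    rw [ind_insert hPQ, ← add_assoc]
    have hlt' : riemannRochSpace (D + ind Q) <
        riemannRochSpace (D + ind Q + Finsupp.single P 1) := by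
      refine lt_of_le_of_ne (rr_mono fun v => ?_) fun heq => ?_
      · rw [Finsupp.add_apply (D + ind Q), Finsupp.single_apply]
        split_ifs <;> omega
      · have hmem : f ∈ riemannRochSpace (D + ind Q + Finsupp.single P 1) := by
          refine rr_mono (fun v => ?_) hf
          have := ind_nonneg Q v
          simp only [Finsupp.add_apply]
          omega
        rw [← heq, mem_rr_of_ne hf0] at hmem
        have := hmem P
        rw [Finsupp.add_apply, ind_apply_of_not_mem hPQ, hord] at this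
        omega
    have := Submodule.finrank_lt_finrank_of_lt hlt'
    rw [Finset.card_insert_of_notMem hPQ]
    omega

/-- if `L(D) = 0` and `deg D ≤ γ - 2`, a finite set of places `P` with `L(D + P) ≠ 0` has fewer
than `2γ - 1 - deg D` elements. -/
theorem card_bad_lt {D : Divisor K F} (hl : riemannRochSpace D = ⊥)
    (hdeg : Divisor.degree D + 2 ≤ γ) (Q : Finset (Place K F))
    (hQ : ∀ P ∈ Q, riemannRochSpace (D + Finsupp.single P 1) ≠ ⊥) :
    (Q.card : ℤ) < 2 * γ - 1 - Divisor.degree D := by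
  classical
  by_contra hcon
  push Not at hcon
  set m : ℕ := (2 * (γ : ℤ) - 1 - Divisor.degree D).toNat with hm
  have hm' : (m : ℤ) = 2 * γ - 1 - Divisor.degree D := Int.toNat_of_nonneg (by omega)
  obtain ⟨Q', hQ'Q, hcard⟩ := Finset.exists_subset_card_eq (s := Q) (n := m)
    (by exact_mod_cast hm'.le.trans hcon)
  have hge := card_le_finrank_add_ind hF hl Q' fun P hP => hQ P (hQ'Q hP)
  have hdeg' : Divisor.degree (D + ind Q') = 2 * γ - 1 := by
    rw [map_add, degree_ind hF.deg_eq_one, hcard, hm']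
    ring
  have heq := hF.riemann_eq (D + ind Q') (by rw [hdeg']; omega)
  rw [hdeg'] at heq
  have : (m : ℤ) ≤ Module.finrank K (riemannRochSpace (D + ind Q')) := by
    rw [← hcard]; exact_mod_cast hge
  omega

/-- **the bad set is finite**: if `L(D) = 0` and `deg D ≤ γ - 2`, then `L(D + P) = 0` for all but
finitely many places `P`. -/
theorem finite_bad {D : Divisor K F} (hl : riemannRochSpace D = ⊥)
    (hdeg : Divisor.degree D + 2 ≤ γ) :
    {P : Place K F | riemannRochSpace (D + Finsupp.single P 1) ≠ ⊥}.Finite := by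
  classical
  by_contra hinf
  obtain ⟨Q, hQsub, hQcard⟩ := (Set.not_finite.mp hinf).exists_subset_card_eq
    (2 * (γ : ℤ) - 1 - Divisor.degree D).toNat
  have := card_bad_lt hF hl hdeg Q fun P hP => hQsub hP
  rw [hQcard, Int.toNat_of_nonneg (by omega)] at this
  exact lt_irrefl _ this

/-- the inductive step: `L(D) = 0`, `deg D ≤ γ - 2`, `PP` an infinite set of places, `T` finite:
there is `P ∈ PP ∖ T` with `L(D + P) = 0` -/
theorem exists_place_rr_eq_bot {D : Divisor K F} (hl : riemannRochSpace D = ⊥)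
    (hdeg : Divisor.degree D + 2 ≤ γ) {PP : Set (Place K F)} (hPinf : PP.Infinite)
    (T : Finset (Place K F)) :
    ∃ P ∈ PP, P ∉ T ∧ riemannRochSpace (D + Finsupp.single P 1) = ⊥ := by
  classical
  have hfin : ({P : Place K F | riemannRochSpace (D + Finsupp.single P 1) ≠ ⊥} ∪ T).Finite :=
    (finite_bad hF hl hdeg).union T.finite_toSet
  obtain ⟨P, hPmem, hP⟩ := (hPinf.sdiff hfin).nonempty
  refine ⟨P, hPmem, fun hPT => hP (Or.inr hPT), ?_⟩
  by_contra hne
  exact hP (Or.inl hne)

/-- **general position**: if `L(D) = 0` and `deg D + n = γ - 1`, there are `n` distinct places in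
the infinite set `PP`, outside the finite set `T`, with `L(D + P₁ + ⋯ + Pₙ) = 0`. -/
theorem exists_genPos {PP : Set (Place K F)} (hPinf : PP.Infinite) (T : Finset (Place K F))
    (n : ℕ) {D : Divisor K F} (hl : riemannRochSpace D = ⊥)
    (hdeg : Divisor.degree D + n + 1 = γ) :
    ∃ Q : Finset (Place K F), (↑Q ⊆ PP) ∧ Disjoint Q T ∧ Q.card = n ∧
      riemannRochSpace (D + ind Q) = ⊥ := by
  classical
  induction n generalizing D T with
  | zero =>
    refine ⟨∅, by simp, Finset.disjoint_empty_left T, rfl, ?_⟩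
    have : ind (∅ : Finset (Place K F)) = 0 := by rw [ind, Finset.sum_empty]
    rw [this, add_zero, hl]
  | succ n ih =>
    obtain ⟨P, hPmem, hPT, hP⟩ := exists_place_rr_eq_bot hF hl (by push_cast at hdeg; omega) hPinf T
    have hdeg' : Divisor.degree (D + Finsupp.single P 1) + n + 1 = γ := by
      rw [map_add, Divisor.degree_single, hF.deg_eq_one P]
      push_cast at hdeg ⊢
      omega
    obtain ⟨Q, hQmem, hQT, hQcard, hQ⟩ := ih (insert P T) hP hdeg'
    have hPQ : P ∉ Q := fun h =>
      Finset.disjoint_left.mp hQT h (Finset.mem_insert_self P T)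
    refine ⟨insert P Q, ?_, ?_, ?_, ?_⟩
    · intro x hx
      rcases Finset.mem_insert.mp (Finset.mem_coe.mp hx) with rfl | hx
      · exact hPmem
      · exact hQmem hx
    · rw [Finset.disjoint_insert_left]
      exact ⟨hPT, hQT.mono_right (Finset.subset_insert P T)⟩
    · rw [Finset.card_insert_of_notMem hPQ, hQcard]
    · rw [ind_insert hPQ, ← add_assoc, add_right_comm]
      exact hQ

/-- **Čech form**: for a divisor `E` of degree `γ - 1` with `L(E) = 0` the two-chart Čech
differential `Γ(U₁, O(E)) ⊕ Γ(U₂, O(E)) → Γ(U₁ ∩ U₂, O(E))` is bijective, for every cover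
`Uᵢ = C ∖ Sᵢ` (`S₁`, `S₂` finite, non-empty, disjoint). -/
theorem cech_bijective_of_rr_eq_bot {S₁ S₂ : Finset (Place K F)} (hdisj : Disjoint S₁ S₂)
    (h₁ : S₁.Nonempty) (h₂ : S₂.Nonempty) {E : Divisor K F} (hl : riemannRochSpace E = ⊥)
    (hdeg : Divisor.degree E + 1 = γ) :
    lamOff (S₁ : Set (Place K F)) E ⊓ lamOff (S₂ : Set (Place K F)) E = ⊥ ∧
      lamOff ((S₁ : Set (Place K F)) ∪ S₂) E =
        lamOff (S₁ : Set (Place K F)) E ⊔ lamOff (S₂ : Set (Place K F)) E := by
  refine ⟨?_, lamOff_union_eq_sup hF hdisj h₁ h₂ ?_⟩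
  · rw [lamOff_inf_of_disjoint (by exact_mod_cast hdisj) E, hl]
  · rw [hl, finrank_bot]
    push_cast
    omega

/-- **the Čech differential is bijective exactly for the divisors of degree `γ - 1` without
sections** -/
theorem cech_bijective_iff {S₁ S₂ : Finset (Place K F)} (hdisj : Disjoint S₁ S₂)
    (h₁ : S₁.Nonempty) (h₂ : S₂.Nonempty) (E : Divisor K F) :
    (lamOff (S₁ : Set (Place K F)) E ⊓ lamOff (S₂ : Set (Place K F)) E = ⊥ ∧
      lamOff ((S₁ : Set (Place K F)) ∪ S₂) E =
        lamOff (S₁ : Set (Place K F)) E ⊔ lamOff (S₂ : Set (Place K F)) E) ↔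
    (riemannRochSpace E = ⊥ ∧ Divisor.degree E + 1 = γ) := by
  constructor
  · rintro ⟨hinf, hsup⟩
    have hl : riemannRochSpace E = ⊥ := by
      have := lamOff_inf_of_disjoint (S₁ := (S₁ : Set (Place K F))) (S₂ := (S₂ : Set (Place K F)))
        (by exact_mod_cast hdisj) E
      rw [← this, hinf]
    refine ⟨hl, ?_⟩
    obtain ⟨-, hrank⟩ := finrank_h1 hF hdisj h₁ h₂ E
    have htop : (lamOff (S₁ : Set (Place K F)) E ⊔ lamOff (S₂ : Set (Place K F)) E).comap
        (lamOff ((S₁ : Set (Place K F)) ∪ S₂) E).subtype = ⊤ := by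
      rw [← hsup, Submodule.comap_subtype_self]
    rw [htop, hl, finrank_bot] at hrank
    have h0 : Module.finrank K (lamOff ((S₁ : Set (Place K F)) ∪ S₂) E ⧸
        (⊤ : Submodule K (lamOff ((S₁ : Set (Place K F)) ∪ S₂) E))) = 0 := by
      have : Subsingleton (lamOff ((S₁ : Set (Place K F)) ∪ S₂) E ⧸
        (⊤ : Submodule K (lamOff ((S₁ : Set (Place K F)) ∪ S₂) E))) :=
        Submodule.Quotient.subsingleton_iff.2 rfl
      exact Module.finrank_zero_of_subsingleton
    rw [h0] at hrank
    push_cast at hrank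
    omega
  · rintro ⟨hl, hdeg⟩
    exact cech_bijective_of_rr_eq_bot hF hdisj h₁ h₂ hl hdeg

/-- for a divisor of degree `γ - 1`, `H¹ = 0` implies `H⁰ = 0` -/
theorem rr_eq_bot_of_cech_surjective {S₁ S₂ : Finset (Place K F)} (hdisj : Disjoint S₁ S₂)
    (h₁ : S₁.Nonempty) (h₂ : S₂.Nonempty) {E : Divisor K F} (hdeg : Divisor.degree E + 1 = γ)
    (hsup : lamOff ((S₁ : Set (Place K F)) ∪ S₂) E =
        lamOff (S₁ : Set (Place K F)) E ⊔ lamOff (S₂ : Set (Place K F)) E) :
    riemannRochSpace E = ⊥ := by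
  obtain ⟨-, hrank⟩ := finrank_h1 hF hdisj h₁ h₂ E
  have htop : (lamOff (S₁ : Set (Place K F)) E ⊔ lamOff (S₂ : Set (Place K F)) E).comap
      (lamOff ((S₁ : Set (Place K F)) ∪ S₂) E).subtype = ⊤ := by
    rw [← hsup, Submodule.comap_subtype_self]
  rw [htop] at hrank
  have h0 : Module.finrank K (lamOff ((S₁ : Set (Place K F)) ∪ S₂) E ⧸
      (⊤ : Submodule K (lamOff ((S₁ : Set (Place K F)) ∪ S₂) E))) = 0 := by
    have : Subsingleton (lamOff ((S₁ : Set (Place K F)) ∪ S₂) E ⧸
      (⊤ : Submodule K (lamOff ((S₁ : Set (Place K F)) ∪ S₂) E))) :=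
      Submodule.Quotient.subsingleton_iff.2 rfl
    exact Module.finrank_zero_of_subsingleton
  rw [h0] at hrank
  have hfin := hF.finiteDimensional E
  have hz : Module.finrank K (riemannRochSpace E) = 0 := by
    push_cast at hrank
    omega
  exact Submodule.finrank_eq_zero.1 hz

/-- **general position, Čech form**: `D` of degree `-1 ≤ deg D ≤ γ - 1` with `L(D) = 0`; then there
are `γ - 1 - deg D` distinct places `Pᵢ ∈ PP ∖ T` such that the two-chart Čech differential of
`O(D + ∑ Pᵢ)` is bijective. -/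
theorem exists_genPos_cech {PP : Set (Place K F)} (hPinf : PP.Infinite) (T : Finset (Place K F))
    (n : ℕ) {D : Divisor K F} (hl : riemannRochSpace D = ⊥)
    (hdeg : Divisor.degree D + n + 1 = γ)
    {S₁ S₂ : Finset (Place K F)} (hdisj : Disjoint S₁ S₂) (h₁ : S₁.Nonempty) (h₂ : S₂.Nonempty) :
    ∃ Q : Finset (Place K F), (↑Q ⊆ PP) ∧ Disjoint Q T ∧ Q.card = n ∧
      riemannRochSpace (D + ind Q) = ⊥ ∧
      lamOff (S₁ : Set (Place K F)) (D + ind Q) ⊓ lamOff (S₂ : Set (Place K F)) (D + ind Q) = ⊥ ∧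
      lamOff ((S₁ : Set (Place K F)) ∪ S₂) (D + ind Q) =
        lamOff (S₁ : Set (Place K F)) (D + ind Q) ⊔ lamOff (S₂ : Set (Place K F)) (D + ind Q) := by
  obtain ⟨Q, hQmem, hQT, hQcard, hQ⟩ := exists_genPos hF hPinf T n hl hdeg
  have hdegQ : Divisor.degree (D + ind Q) + 1 = γ := by
    rw [map_add, degree_ind hF.deg_eq_one, hQcard]
    omega
  exact ⟨Q, hQmem, hQT, hQcard, hQ, cech_bijective_of_rr_eq_bot hF hdisj h₁ h₂ hQ hdegQ⟩

/-- a divisor of negative degree has `L = 0` -/
theorem rr_eq_bot_of_degree_neg {D : Divisor K F} (hD : Divisor.degree D < 0) :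
    riemannRochSpace D = ⊥ := by
  rw [eq_bot_iff]
  intro f hf
  rw [Submodule.mem_bot]
  exact eq_zero_of_mem_rr_of_degree_neg hF hD hf

/-- **general position for a degree-zero class** (the COVER input of Project L): `D` a divisor of
degree `0`, `e` a place; there are `γ` distinct places `P₁, …, P_γ ∈ PP`, outside the finite set
`T`, such that `E := D + P₁ + ⋯ + P_γ - e` has `L(E) = 0` and bijective two-chart Čech differential
(`H⁰(O(E)) = 0 = H¹(O(E))`). -/
theorem exists_genPos_degree_zero {PP : Set (Place K F)} (hPinf : PP.Infinite)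
    (T : Finset (Place K F)) {D : Divisor K F} (hdeg : Divisor.degree D = 0) (e : Place K F)
    {S₁ S₂ : Finset (Place K F)} (hdisj : Disjoint S₁ S₂) (h₁ : S₁.Nonempty) (h₂ : S₂.Nonempty) :
    ∃ Q : Finset (Place K F), (↑Q ⊆ PP) ∧ Disjoint Q T ∧ Q.card = γ ∧
      riemannRochSpace (D - Finsupp.single e 1 + ind Q) = ⊥ ∧
      lamOff (S₁ : Set (Place K F)) (D - Finsupp.single e 1 + ind Q) ⊓
        lamOff (S₂ : Set (Place K F)) (D - Finsupp.single e 1 + ind Q) = ⊥ ∧
      lamOff ((S₁ : Set (Place K F)) ∪ S₂) (D - Finsupp.single e 1 + ind Q) =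
        lamOff (S₁ : Set (Place K F)) (D - Finsupp.single e 1 + ind Q) ⊔
          lamOff (S₂ : Set (Place K F)) (D - Finsupp.single e 1 + ind Q) := by
  have hd : Divisor.degree (D - Finsupp.single e 1) = -1 := by
    rw [map_sub, hdeg, Divisor.degree_single, hF.deg_eq_one e]
    simp
  exact exists_genPos_cech hF hPinf T γ (rr_eq_bot_of_degree_neg hF (by rw [hd]; omega))
    (by rw [hd]; ring) hdisj h₁ h₂

/-! ### simultaneous general position for a finite family of divisors (GP2) -/

/-- the inductive step for a finite family -/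
theorem exists_place_rr_eq_bot_family {ι : Type*} [Finite ι] {D : ι → Divisor K F}
    (hl : ∀ i, riemannRochSpace (D i) = ⊥) (hdeg : ∀ i, Divisor.degree (D i) + 2 ≤ γ)
    {PP : Set (Place K F)} (hPinf : PP.Infinite) (T : Finset (Place K F)) :
    ∃ P ∈ PP, P ∉ T ∧ ∀ i, riemannRochSpace (D i + Finsupp.single P 1) = ⊥ := by
  classical
  have hfin : ((⋃ i, {P : Place K F | riemannRochSpace (D i + Finsupp.single P 1) ≠ ⊥}) ∪
      (T : Set (Place K F))).Finite :=
    (Set.finite_iUnion fun i => finite_bad hF (hl i) (hdeg i)).union T.finite_toSet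
  obtain ⟨P, hPmem, hP⟩ := (hPinf.sdiff hfin).nonempty
  refine ⟨P, hPmem, fun hPT => hP (Or.inr hPT), fun i => ?_⟩
  by_contra hne
  exact hP (Or.inl (Set.mem_iUnion.2 ⟨i, hne⟩))

/-- **simultaneous general position**: finitely many divisors `D i` with `L(D i) = 0` and
`deg D i + n = γ - 1`; there are `n` distinct places `P₁, …, Pₙ ∈ PP` outside `T` with
`L(D i + P₁ + ⋯ + Pₙ) = 0` for ALL `i`. -/
theorem exists_genPos_family {ι : Type*} [Finite ι] {PP : Set (Place K F)} (hPinf : PP.Infinite)
    (T : Finset (Place K F)) (n : ℕ) {D : ι → Divisor K F}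
    (hl : ∀ i, riemannRochSpace (D i) = ⊥) (hdeg : ∀ i, Divisor.degree (D i) + n + 1 = γ) :
    ∃ Q : Finset (Place K F), (↑Q ⊆ PP) ∧ Disjoint Q T ∧ Q.card = n ∧
      ∀ i, riemannRochSpace (D i + ind Q) = ⊥ := by
  classical
  induction n generalizing D T with
  | zero =>
    refine ⟨∅, by simp, Finset.disjoint_empty_left T, rfl, fun i => ?_⟩
    have : ind (∅ : Finset (Place K F)) = 0 := by rw [ind, Finset.sum_empty]
    rw [this, add_zero, hl]
  | succ n ih =>
    obtain ⟨P, hPmem, hPT, hP⟩ := exists_place_rr_eq_bot_family hF hl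
      (fun i => by have := hdeg i; push_cast at this; omega) hPinf T
    have hdeg' : ∀ i, Divisor.degree (D i + Finsupp.single P 1) + n + 1 = γ := by
      intro i
      have := hdeg i
      rw [map_add, Divisor.degree_single, hF.deg_eq_one P]
      push_cast at this ⊢
      omega
    obtain ⟨Q, hQmem, hQT, hQcard, hQ⟩ := ih (insert P T) hP hdeg'
    have hPQ : P ∉ Q := fun h =>
      Finset.disjoint_left.mp hQT h (Finset.mem_insert_self P T)
    refine ⟨insert P Q, ?_, ?_, ?_, fun i => ?_⟩
    · intro x hx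
      rcases Finset.mem_insert.mp (Finset.mem_coe.mp hx) with rfl | hx
      · exact hPmem
      · exact hQmem hx
    · rw [Finset.disjoint_insert_left]
      exact ⟨hPT, hQT.mono_right (Finset.subset_insert P T)⟩
    · rw [Finset.card_insert_of_notMem hPQ, hQcard]
    · rw [ind_insert hPQ, ← add_assoc, add_right_comm]
      exact hQ i

/-- **simultaneous general position for degree-zero classes** ((GP2) of Project L): finitely many
divisors `D i` of degree `0`, `e` a place; there are `γ` distinct places `P₁, …, P_γ ∈ PP` outside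
`T` such that ALL the `E i := D i + P₁ + ⋯ + P_γ - e` have `L(E i) = 0` and bijective two-chart Čech
differential. -/
theorem exists_genPos_degree_zero_family {ι : Type*} [Finite ι] {PP : Set (Place K F)}
    (hPinf : PP.Infinite) (T : Finset (Place K F)) {D : ι → Divisor K F}
    (hdeg : ∀ i, Divisor.degree (D i) = 0) (e : Place K F)
    {S₁ S₂ : Finset (Place K F)} (hdisj : Disjoint S₁ S₂) (h₁ : S₁.Nonempty) (h₂ : S₂.Nonempty) :
    ∃ Q : Finset (Place K F), (↑Q ⊆ PP) ∧ Disjoint Q T ∧ Q.card = γ ∧ ∀ i,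
      riemannRochSpace (D i - Finsupp.single e 1 + ind Q) = ⊥ ∧
      lamOff (S₁ : Set (Place K F)) (D i - Finsupp.single e 1 + ind Q) ⊓
        lamOff (S₂ : Set (Place K F)) (D i - Finsupp.single e 1 + ind Q) = ⊥ ∧
      lamOff ((S₁ : Set (Place K F)) ∪ S₂) (D i - Finsupp.single e 1 + ind Q) =
        lamOff (S₁ : Set (Place K F)) (D i - Finsupp.single e 1 + ind Q) ⊔
          lamOff (S₂ : Set (Place K F)) (D i - Finsupp.single e 1 + ind Q) := by
  have hd : ∀ i, Divisor.degree (D i - Finsupp.single e 1) = -1 := by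
    intro i
    rw [map_sub, hdeg i, Divisor.degree_single, hF.deg_eq_one e]
    simp
  obtain ⟨Q, hQmem, hQT, hQcard, hQ⟩ := exists_genPos_family hF hPinf T γ
    (D := fun i => D i - Finsupp.single e 1)
    (fun i => rr_eq_bot_of_degree_neg hF (by rw [hd i]; omega)) (fun i => by rw [hd i]; ring)
  refine ⟨Q, hQmem, hQT, hQcard, fun i => ⟨hQ i, ?_⟩⟩
  have hdegQ : Divisor.degree (D i - Finsupp.single e 1 + ind Q) + 1 = γ := by
    rw [map_add, degree_ind hF.deg_eq_one, hQcard, hd i]
    omega
  exact cech_bijective_of_rr_eq_bot hF hdisj h₁ h₂ (hQ i) hdegQ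

end Curve

end Fermat.Agent.S25lib.Polar
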