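/-
S25lib / Polar / Genus (helper9).
The Riemann–Roch numbers of the two-chart Čech complex (function-field form, `CechRR` language):
for a cover `Uᵢ = C ∖ Sᵢ` (`S₁`, `S₂` finite, non-empty, disjoint sets of places) and a divisor `E`

* `cech_ker` : `Γ(U₁, O(E)) ∩ Γ(U₂, O(E)) = L(E)`; for `E = 0` these are the constants;
* `finrank_cech_h1_zero` : `dim H¹(C, O) = γ` (so the genus of `IsCurveOfGenus` IS the dimension
  of the cokernel of `pp : A → PP`);
* `cech_euler` : `dim H⁰(O(E)) - dim H¹(O(E)) = deg E + 1 - γ`;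
* `cech_h1_eq_zero_of_degree` : `H¹(O(E)) = 0` as soon as `deg E ≥ 2γ - 1`.
-/
import Fermat.Agent.S26lib.CechRR.NonSpecial

set_option autoImplicit false

noncomputable section

namespace Fermat.Agent.S25lib.Polar

open AlgebraicCurve Fermat.Agent.S18lib Fermat.Agent.S18lib.Cech Fermat.Agent.S26lib.CechRR

variable {K F : Type*} [Field K] [Field F] [Algebra K F]

/-- the Čech `H¹` of `O(E)` for the cover `C ∖ S₁`, `C ∖ S₂` -/
abbrev CechH1 (S₁ S₂ : Finset (Place K F)) (E : Divisor K F) : Type _ :=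
  lamOff ((S₁ : Set (Place K F)) ∪ S₂) E ⧸
    (lamOff (S₁ : Set (Place K F)) E ⊔ lamOff (S₂ : Set (Place K F)) E).comap
      (lamOff ((S₁ : Set (Place K F)) ∪ S₂) E).subtype

theorem cech_ker {S₁ S₂ : Finset (Place K F)} (hdisj : Disjoint S₁ S₂) (E : Divisor K F) :
    lamOff (S₁ : Set (Place K F)) E ⊓ lamOff (S₂ : Set (Place K F)) E = riemannRochSpace E :=
  lamOff_inf_of_disjoint (by exact_mod_cast hdisj) E

section Curve

variable {γ : ℕ} (hF : IsCurveOfGenus K F γ) {S₁ S₂ : Finset (Place K F)}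
include hF

/-- global functions are constant -/
theorem cech_ker_zero (hdisj : Disjoint S₁ S₂) :
    lamOff (S₁ : Set (Place K F)) (0 : Divisor K F) ⊓ lamOff (S₂ : Set (Place K F)) 0 =
      (⊥ : Subalgebra K F).toSubmodule := by
  rw [cech_ker hdisj, hF.riemannRochSpace_zero]

/-- **Euler characteristic of the Čech complex** -/
theorem cech_euler (hdisj : Disjoint S₁ S₂) (h₁ : S₁.Nonempty) (h₂ : S₂.Nonempty)
    (E : Divisor K F) :
    Module.Finite K (CechH1 S₁ S₂ E) ∧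
    (Module.finrank K (riemannRochSpace E) : ℤ) - Module.finrank K (CechH1 S₁ S₂ E) =
      Divisor.degree E + 1 - γ := by
  obtain ⟨hfin, hrank⟩ := finrank_h1 hF hdisj h₁ h₂ E
  refine ⟨hfin, ?_⟩
  rw [hrank]
  ring

/-- **the genus is the dimension of `H¹(C, O)`** -/
theorem finrank_cech_h1_zero (hdisj : Disjoint S₁ S₂) (h₁ : S₁.Nonempty) (h₂ : S₂.Nonempty) :
    Module.finrank K (CechH1 S₁ S₂ (0 : Divisor K F)) = γ := by
  obtain ⟨-, hrank⟩ := finrank_h1 hF hdisj h₁ h₂ (0 : Divisor K F)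
  rw [finrank_rr_zero hF, map_zero] at hrank
  have : (Module.finrank K (CechH1 S₁ S₂ (0 : Divisor K F)) : ℤ) = γ := by
    rw [hrank]; ring
  exact_mod_cast this

/-- `H¹(C, O(E)) = 0` for `deg E ≥ 2γ - 1`: every section over `U₁ ∩ U₂` is a sum of sections over
`U₁` and `U₂`. -/
theorem cech_h1_eq_zero_of_degree (hdisj : Disjoint S₁ S₂) (h₁ : S₁.Nonempty) (h₂ : S₂.Nonempty)
    {E : Divisor K F} (hE : 2 * (γ : ℤ) - 2 < Divisor.degree E) :
    lamOff ((S₁ : Set (Place K F)) ∪ S₂) E =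
      lamOff (S₁ : Set (Place K F)) E ⊔ lamOff (S₂ : Set (Place K F)) E :=
  lamOff_union_eq_sup hF hdisj h₁ h₂ (hF.riemann_eq E hE)

/-- **transfer of the Čech cokernel** along an injective linear map `c : V → F`: if `c` identifies
`A`, `B ⊆ V` and `V` with `Γ(U₁, O(E))`, `Γ(U₂, O(E))`, `Γ(U₁ ∩ U₂, O(E))`, then `V ⧸ (A ⊔ B)`
is `H¹(O(E))`: finite dimensional of dimension `ℓ(E) - deg E - 1 + γ`. -/
theorem finrank_quotient_sup_of_map {V : Type*} [AddCommGroup V] [Module K V] (c : V →ₗ[K] F)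
    (hc : Function.Injective c) (A B : Submodule K V) (hdisj : Disjoint S₁ S₂)
    (h₁ : S₁.Nonempty) (h₂ : S₂.Nonempty) (E : Divisor K F)
    (hA : A.map c = lamOff (S₁ : Set (Place K F)) E)
    (hB : B.map c = lamOff (S₂ : Set (Place K F)) E)
    (hV : LinearMap.range c = lamOff ((S₁ : Set (Place K F)) ∪ S₂) E) :
    Module.Finite K (V ⧸ (A ⊔ B)) ∧
      (Module.finrank K (V ⧸ (A ⊔ B)) : ℤ) =
        Module.finrank K (riemannRochSpace E) - Divisor.degree E - 1 + γ := by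
  obtain ⟨hfin, hrank⟩ := finrank_h1 hF hdisj h₁ h₂ E
  let e : V ≃ₗ[K] lamOff ((S₁ : Set (Place K F)) ∪ S₂) E :=
    (LinearEquiv.ofInjective c hc).trans (LinearEquiv.ofEq _ _ hV)
  have he : ∀ v, ((e v : lamOff ((S₁ : Set (Place K F)) ∪ S₂) E) : F) = c v := fun v => rfl
  have hmap : (A ⊔ B).map (e : V →ₗ[K] lamOff ((S₁ : Set (Place K F)) ∪ S₂) E) =
      (lamOff (S₁ : Set (Place K F)) E ⊔ lamOff (S₂ : Set (Place K F)) E).comap
        (lamOff ((S₁ : Set (Place K F)) ∪ S₂) E).subtype := by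
    ext x
    rw [Submodule.mem_map, Submodule.mem_comap, Submodule.subtype_apply, ← hA, ← hB,
      ← Submodule.map_sup, Submodule.mem_map]
    constructor
    · rintro ⟨v, hv, rfl⟩
      exact ⟨v, hv, (he v).symm⟩
    · rintro ⟨v, hv, hvx⟩
      exact ⟨v, hv, Subtype.ext ((he v).trans hvx)⟩
  let q := Submodule.Quotient.equiv (A ⊔ B) _ e hmap
  exact ⟨Module.Finite.equiv q.symm, by rw [← hrank, LinearEquiv.finrank_eq q]⟩

end Curve

end Fermat.Agent.S25lib.Polar
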