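/-
S25lib / Polar / DictCurve (helper9).
The dictionary of `Polar/Dict` on a proper regular curve `Y` over a field `K`, in the language of
places (`AlgebraicCurve.Place`, `CechRR.lamOff`):

* `GenericGen.divisor` : the divisor of a locally generated module `M` as a `Divisor K K(Y)`;
* `exists_coordFF_eq_iff_mem_lamOff` : `Γ(M, V) = lamOff (Y ∖ V) D` inside `K(Y)`;
* `exists_germFF_eq_iff_mem_lamOff` : `Γ(O, V) = lamOff (Y ∖ V) 0`;
* `cech_z_bijective` : **the Krichever condition in sections form**: if `L(D - e) = 0` and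
  `deg D = γ`, then `Γ(N, U₁) × Γ(N, U₂) → Γ(N, U₁ ⊓ U₂)`, `(w, l) ↦ w + z • l`, is bijective
  (`U₁ = Y ∖ e`, `z ∈ Γ(Y, U₂)` a uniformizer at `e` without other zeros on `U₂`).
-/
import Mathlib
import Fermat.Agent.S25lib.Polar.Dict
import Fermat.Agent.S25lib.Polar.GenPos
import Fermat.Agent.S25lib.Polar.Genus
import Fermat.Agent.S26lib.CurvePlace.Curve
import Fermat.Agent.S26lib.VarSch.Dict

set_option autoImplicit false

noncomputable section

universe u

open AlgebraicGeometry CategoryTheory TopologicalSpace AlgebraicCurve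

namespace Fermat.Agent.S25lib.Polar

open Fermat.Agent.S18lib Fermat.Agent.S26lib Fermat.Agent.S26lib.Weil Fermat.Agent.S26lib.Aff
  Fermat.Agent.S26lib.CechRR Fermat.Agent.S26lib.CurvePlace Fermat.Agent.S25lib.Mod

variable {K : Type u} [Field K] {Y : Scheme.{u}} [IsIntegral Y] [IsLocallyNoetherian Y]
  (fC : Y ⟶ Spec (CommRingCat.of K)) [IsSeparated fC] [UniversallyClosed fC] [QuasiCompact fC]
  (hreg : ∀ c : Y, c = genericPoint Y ∨ IsDiscreteValuationRing (Y.presheaf.stalk c))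
  {M : Y.Modules} (G : GenericGen M) (hM : LocGen M)

omit [IsIntegral Y] [IsSeparated fC] [UniversallyClosed fC] in
include fC in
theorem isNoetherian_of_quasiCompact : IsNoetherian Y :=
  haveI : CompactSpace Y := QuasiCompact.compactSpace_of_compactSpace fC
  {}

/-- the divisor of `M` as a divisor of the function field -/
def GenericGen.divisor : letI := kAlgebraFF fC; Divisor K Y.functionField :=
  letI := kAlgebraFF fC
  haveI := isNoetherian_of_quasiCompact fC
  (G.div hM).equivMapDomain (placeEquiv fC hreg)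

theorem GenericGen.divisor_placeOf (P : PrimeDiv Y) :
    G.divisor fC hreg hM (placeOf fC P) = G.divAt hM P := by
  let _ := kAlgebraFF fC
  haveI := isNoetherian_of_quasiCompact fC
  unfold GenericGen.divisor
  rw [Finsupp.equivMapDomain_apply, ← placeEquiv_apply fC hreg P, Equiv.symm_apply_apply]
  rfl

/-- **`Γ(M, V) = lamOff (Y ∖ V) D` inside the function field** -/
theorem GenericGen.exists_coordFF_eq_iff_mem_lamOff {V : Y.Opens} (hV : genericPoint Y ∈ V)
    (S : letI := kAlgebraFF fC; Set (Place K Y.functionField))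
    (hS : ∀ P : PrimeDiv Y, placeOf fC P ∈ S ↔ P.1 ∉ V) (f : Y.functionField) :
    letI := kAlgebraFF fC
    (∃ σ : Γ(M, V), G.coordFF hV σ = f) ↔ f ∈ lamOff S (G.divisor fC hreg hM) := by
  let _ := kAlgebraFF fC
  rw [G.exists_coordFF_eq_iff hM hreg hV, mem_lamOff_iff]
  constructor
  · intro h v hv
    obtain ⟨P, rfl⟩ := placeOf_surjective fC hreg v
    rcases h with rfl | h
    · exact Or.inl rfl
    · right
      rw [G.divisor_placeOf fC hreg hM, ord_placeOf]
      exact h P (by_contra fun hP => hv ((hS P).2 hP))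
  · intro h
    by_cases hf : f = 0
    · exact Or.inl hf
    right
    intro P hP
    have := (h (placeOf fC P) (fun hPS => (hS P).1 hPS hP)).resolve_left hf
    rwa [G.divisor_placeOf fC hreg hM, ord_placeOf] at this

/-- the coordinate of a section over `V` lies in `lamOff (Y ∖ V) D` -/
theorem GenericGen.coordFF_mem_lamOff {V : Y.Opens} (hV : genericPoint Y ∈ V)
    (S : letI := kAlgebraFF fC; Set (Place K Y.functionField))
    (hS : ∀ P : PrimeDiv Y, placeOf fC P ∈ S ↔ P.1 ∉ V) (σ : Γ(M, V)) :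
    letI := kAlgebraFF fC
    G.coordFF hV σ ∈ lamOff S (G.divisor fC hreg hM) :=
  (G.exists_coordFF_eq_iff_mem_lamOff fC hreg hM hV S hS _).1 ⟨σ, rfl⟩

omit [IsSeparated fC] in
include hreg in
/-- **`Γ(O, V) = lamOff (Y ∖ V) 0` inside the function field** -/
theorem exists_germFF_eq_iff_mem_lamOff {V : Y.Opens} (hV : genericPoint Y ∈ V)
    (S : letI := kAlgebraFF fC; Set (Place K Y.functionField))
    (hS : ∀ P : PrimeDiv Y, placeOf fC P ∈ S ↔ P.1 ∉ V) (f : Y.functionField) :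
    letI := kAlgebraFF fC
    (∃ r : Γ(Y, V), germFF V hV r = f) ↔ f ∈ lamOff S (0 : Divisor K Y.functionField) := by
  let _ := kAlgebraFF fC
  rw [exists_germFF_eq_iff hreg hV, mem_lamOff_iff]
  constructor
  · intro h v hv
    obtain ⟨P, rfl⟩ := placeOf_surjective fC hreg v
    rcases h with rfl | h
    · exact Or.inl rfl
    · right
      rw [Finsupp.zero_apply, neg_zero, ord_placeOf]
      exact h P (by_contra fun hP => hv ((hS P).2 hP))
  · intro h
    by_cases hf : f = 0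
    · exact Or.inl hf
    right
    intro P hP
    have := (h (placeOf fC P) (fun hPS => (hS P).1 hPS hP)).resolve_left hf
    rwa [Finsupp.zero_apply, neg_zero, ord_placeOf] at this

/-! ### the places off an open set -/

/-- the finite set of places off a non-empty open set -/
def offPlaces (V : Y.Opens) (hV : genericPoint Y ∈ V) :
    letI := kAlgebraFF fC; Finset (Place K Y.functionField) :=
  letI := kAlgebraFF fC
  haveI := isNoetherian_of_quasiCompact fC
  haveI := Classical.decEq (Place K Y.functionField)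
  (finite_primeDiv_not_mem V hV).toFinset.image (placeOf fC)

omit [UniversallyClosed fC] in
theorem placeOf_mem_offPlaces_iff (V : Y.Opens) (hV : genericPoint Y ∈ V) (P : PrimeDiv Y) :
    placeOf fC P ∈ offPlaces fC V hV ↔ P.1 ∉ V := by
  let _ := kAlgebraFF fC
  haveI := isNoetherian_of_quasiCompact fC
  classical
  unfold offPlaces
  rw [Finset.mem_image]
  constructor
  · rintro ⟨Q, hQ, hQP⟩
    rw [placeOf_injective fC hQP] at hQ
    exact (Set.Finite.mem_toFinset _).1 hQ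
  · intro hP
    exact ⟨P, (Set.Finite.mem_toFinset _).2 hP, rfl⟩

/-! ### the Krichever condition in sections form -/

section Cech

variable {γ : ℕ} (hF : letI := kAlgebraFF fC; IsCurveOfGenus K Y.functionField γ)

include hF in
/-- **the Krichever condition, sections form**: `N` a locally generated module on the curve `Y`
with divisor `D` such that `L(D - e) = 0` and `deg D = γ`; `U₁ = Y ∖ e`, `U₂ ∋ e` and `z ∈ Γ(Y, U₂)`
a uniformizer at `e` without other zeros on `U₂`.  Then every section of `N` over `U₁ ⊓ U₂` is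
uniquely `w + z • l` with `w ∈ Γ(N, U₁)`, `l ∈ Γ(N, U₂)`: `H⁰(N(-e)) = 0 = H¹(N(-e))`. -/
theorem GenericGen.cech_z_bijective {N : Y.Modules} (G : GenericGen N) (hN : LocGen N)
    {U₁ U₂ : Y.Opens} (e : PrimeDiv Y) (hU₁ : ∀ y : Y, y ∈ U₁ ↔ y ≠ e.1) (he₂ : e.1 ∈ U₂)
    (z : Γ(Y, U₂)) (hze : ordAt e (germFF U₂ he₂ z) = 1)
    (hz : ∀ Q : PrimeDiv Y, Q.1 ∈ U₂ → Q ≠ e → ordAt Q (germFF U₂ he₂ z) = 0)
    (hl : letI := kAlgebraFF fC
      riemannRochSpace (G.divisor fC hreg hN - Finsupp.single (placeOf fC e) 1) = ⊥)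
    (hdeg : letI := kAlgebraFF fC; Divisor.degree (G.divisor fC hreg hN) = γ) :
    Function.Bijective (fun p : Γ(N, U₁) × Γ(N, U₂) =>
      Mod.res N (inf_le_left : U₁ ⊓ U₂ ≤ U₁) p.1 +
        Mod.res N (inf_le_right : U₁ ⊓ U₂ ≤ U₂) (z • p.2)) := by
  let _ := kAlgebraFF fC
  classical
  -- notation
  have hη₂ : genericPoint Y ∈ U₂ := genericPoint_mem he₂
  have hη₁ : genericPoint Y ∈ U₁ :=
    (hU₁ _).2 (VarSch.ne_generic_of_coheight_eq_one (coheight_primeDiv e)).symm
  have hη₁₂ : genericPoint Y ∈ U₁ ⊓ U₂ := ⟨hη₁, hη₂⟩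
  set ve := placeOf fC e with hve
  set D := G.divisor fC hreg hN with hD
  set E : Divisor K Y.functionField := D - Finsupp.single ve 1 with hE
  set ζ := germFF U₂ he₂ z with hζ
  have hζ0 : ζ ≠ 0 := by
    intro h0
    rw [h0, ordAt_zero] at hze
    exact zero_ne_one hze
  set S₁ : Finset (Place K Y.functionField) := {ve} with hS₁def
  set S₂ : Finset (Place K Y.functionField) := offPlaces fC U₂ hη₂ with hS₂def
  have hS₁ : ∀ P : PrimeDiv Y, placeOf fC P ∈ (S₁ : Set (Place K Y.functionField)) ↔ P.1 ∉ U₁ := by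
    intro P
    rw [Finset.mem_coe, Finset.mem_singleton, hU₁, not_not]
    constructor
    · intro h
      rw [placeOf_injective fC h]
    · intro h
      rw [show P = e from Subtype.ext h]
  have hS₂ : ∀ P : PrimeDiv Y, placeOf fC P ∈ (S₂ : Set (Place K Y.functionField)) ↔ P.1 ∉ U₂ :=
    fun P => placeOf_mem_offPlaces_iff fC U₂ hη₂ P
  have hS₁₂ : ∀ P : PrimeDiv Y,
      placeOf fC P ∈ ((S₁ : Set (Place K Y.functionField)) ∪ S₂) ↔ P.1 ∉ U₁ ⊓ U₂ := by
    intro P
    rw [Set.mem_union, hS₁, hS₂]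
    constructor
    · rintro (h | h) h'
      · exact h h'.1
      · exact h h'.2
    · intro h
      by_contra hcon
      push Not at hcon
      exact h ⟨hcon.1, hcon.2⟩
  have hve₁ : ve ∈ S₁ := Finset.mem_singleton_self _
  have hve₂ : ve ∉ S₂ := fun h => (hS₂ e).1 (Finset.mem_coe.2 h) he₂
  have hdisj : Disjoint S₁ S₂ := Finset.disjoint_singleton_left.2 hve₂
  -- `D` and `E` agree off `e`
  have hED : ∀ v, v ≠ ve → E v = D v := by
    intro v hv
    rw [hE, Finsupp.sub_apply, Finsupp.single_apply, if_neg (Ne.symm hv), sub_zero]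
  have hEe : E ve = D ve - 1 := by
    rw [hE, Finsupp.sub_apply, Finsupp.single_apply, if_pos rfl]
  have hlam₁ : lamOff (S₁ : Set (Place K Y.functionField)) D = lamOff (S₁ : Set _) E := by
    apply le_antisymm <;> apply lamOff_mono <;> intro v hv
    · rw [hED v (fun h => hv (by rw [h]; exact Finset.mem_coe.2 hve₁))]
    · rw [hED v (fun h => hv (by rw [h]; exact Finset.mem_coe.2 hve₁))]
  have hlam₁₂ : lamOff ((S₁ : Set (Place K Y.functionField)) ∪ S₂) D =
      lamOff ((S₁ : Set _) ∪ S₂) E := by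
    apply le_antisymm <;> apply lamOff_mono <;> intro v hv
    · rw [hED v (fun h => hv (by rw [h]; exact Or.inl (Finset.mem_coe.2 hve₁)))]
    · rw [hED v (fun h => hv (by rw [h]; exact Or.inl (Finset.mem_coe.2 hve₁)))]
  -- multiplication by `z` : `lamOff S₂ D → lamOff S₂ E`
  have hmul : ∀ f : Y.functionField,
      f ∈ lamOff (S₂ : Set (Place K Y.functionField)) D ↔ ζ * f ∈ lamOff (S₂ : Set _) E := by
    intro f
    by_cases hf : f = 0
    · rw [hf, mul_zero]
      exact ⟨fun _ => Submodule.zero_mem _, fun _ => Submodule.zero_mem _⟩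
    rw [mem_lamOff_of_ne hf, mem_lamOff_of_ne (mul_ne_zero hζ0 hf)]
    refine forall_congr' fun v => imp_congr_right fun hv => ?_
    obtain ⟨P, rfl⟩ := placeOf_surjective fC hreg v
    have hPU : P.1 ∈ U₂ := by
      by_contra h
      exact hv ((hS₂ P).2 h)
    rw [ord_placeOf, ord_placeOf, ordAt_mul P hζ0 hf]
    by_cases hPe : P = e
    · rw [hPe, ← hve, hEe, hze]
      constructor <;> intro h <;> omega
    · rw [hED _ (fun h => hPe (placeOf_injective fC h)), hz P hPU hPe, zero_add]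
  -- the Čech statement for `E`
  have hdegE : Divisor.degree E + 1 = γ := by
    rw [hE, map_sub, hdeg, Divisor.degree_single, hF.deg_eq_one ve]
    simp
  have hcech : lamOff (S₁ : Set (Place K Y.functionField)) E ⊓ lamOff (S₂ : Set _) E = ⊥ ∧
      lamOff ((S₁ : Set (Place K Y.functionField)) ∪ S₂) E =
        lamOff (S₁ : Set _) E ⊔ lamOff (S₂ : Set _) E := by
    rcases S₂.eq_empty_or_nonempty with h2 | h2
    · have h0 : lamOff ((S₂ : Finset (Place K Y.functionField)) : Set (Place K Y.functionField)) E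
          = ⊥ := by
        rw [h2, Finset.coe_empty, lamOff_empty, hl]
      have h3 : ((S₁ : Set (Place K Y.functionField)) ∪ S₂) = S₁ := by
        rw [h2, Finset.coe_empty, Set.union_empty]
      rw [h0, inf_bot_eq, sup_bot_eq, h3]
      exact ⟨rfl, rfl⟩
    · exact cech_bijective_of_rr_eq_bot hF hdisj ⟨ve, hve₁⟩ h2 hl hdegE
  obtain ⟨hinf, hsup⟩ := hcech
  -- the coordinate of the Čech differential
  have hcoord : ∀ p : Γ(N, U₁) × Γ(N, U₂),
      G.coordFF hη₁₂ (Mod.res N (inf_le_left : U₁ ⊓ U₂ ≤ U₁) p.1 +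
        Mod.res N (inf_le_right : U₁ ⊓ U₂ ≤ U₂) (z • p.2)) =
      G.coordFF hη₁ p.1 + ζ * G.coordFF hη₂ p.2 := by
    intro p
    rw [G.coordFF_add, G.coordFF_res hη₁ hη₁₂, G.coordFF_res hη₂ hη₁₂, G.coordFF_smul]
    rfl
  have hmem₁ : ∀ w : Γ(N, U₁), G.coordFF hη₁ w ∈ lamOff (S₁ : Set (Place K Y.functionField)) E :=
    fun w => hlam₁ ▸ G.coordFF_mem_lamOff fC hreg hN hη₁ _ hS₁ w
  have hmem₂ : ∀ l : Γ(N, U₂), G.coordFF hη₂ l ∈ lamOff (S₂ : Set (Place K Y.functionField)) D :=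
    fun l => G.coordFF_mem_lamOff fC hreg hN hη₂ _ hS₂ l
  constructor
  · -- injectivity
    rintro ⟨w, l⟩ ⟨w', l'⟩ hpq
    have h1 := congrArg (G.coordFF hη₁₂) hpq
    rw [hcoord, hcoord] at h1
    have hx : G.coordFF hη₁ w - G.coordFF hη₁ w' = ζ * (G.coordFF hη₂ l' - G.coordFF hη₂ l) := by
      rw [mul_sub]
      linear_combination h1
    have hx₁ : G.coordFF hη₁ w - G.coordFF hη₁ w' ∈ lamOff (S₁ : Set (Place K Y.functionField)) E :=
      Submodule.sub_mem _ (hmem₁ w) (hmem₁ w')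
    have hx₂ : G.coordFF hη₁ w - G.coordFF hη₁ w' ∈ lamOff (S₂ : Set (Place K Y.functionField)) E := by
      rw [hx, ← hmul]
      exact Submodule.sub_mem _ (hmem₂ l') (hmem₂ l)
    have hx0 : G.coordFF hη₁ w - G.coordFF hη₁ w' = 0 := by
      have : G.coordFF hη₁ w - G.coordFF hη₁ w' ∈
          lamOff (S₁ : Set (Place K Y.functionField)) E ⊓ lamOff (S₂ : Set _) E := ⟨hx₁, hx₂⟩
      rwa [hinf, Submodule.mem_bot] at this
    have hw : w = w' := G.coordFF_injective hN hη₁ (sub_eq_zero.1 hx0)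
    have hl' : l = l' := by
      apply G.coordFF_injective hN hη₂
      rw [hx0] at hx
      have := (mul_eq_zero.1 hx.symm).resolve_left hζ0
      exact (sub_eq_zero.1 this).symm
    rw [hw, hl']
  · -- surjectivity
    intro v
    have hv : G.coordFF hη₁₂ v ∈ lamOff ((S₁ : Set (Place K Y.functionField)) ∪ S₂) E :=
      hlam₁₂ ▸ G.coordFF_mem_lamOff fC hreg hN hη₁₂ _ hS₁₂ v
    rw [hsup, Submodule.mem_sup] at hv
    obtain ⟨f₁, hf₁, f₂, hf₂, hsum⟩ := hv
    rw [← hlam₁] at hf₁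
    obtain ⟨w, hw⟩ := (G.exists_coordFF_eq_iff_mem_lamOff fC hreg hN hη₁ _ hS₁ f₁).2 hf₁
    have hf₂' : ζ⁻¹ * f₂ ∈ lamOff (S₂ : Set (Place K Y.functionField)) D := by
      rw [hmul, ← mul_assoc, mul_inv_cancel₀ hζ0, one_mul]
      exact hf₂
    obtain ⟨l, hl'⟩ := (G.exists_coordFF_eq_iff_mem_lamOff fC hreg hN hη₂ _ hS₂ _).2 hf₂'
    refine ⟨(w, l), ?_⟩
    apply G.coordFF_injective hN hη₁₂
    rw [hcoord, hw, hl', ← mul_assoc, mul_inv_cancel₀ hζ0, one_mul, hsum]

end Cech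

omit [IsLocallyNoetherian Y] [IsSeparated fC] [QuasiCompact fC] in
include fC hreg in
/-- an affine open subset of a universally closed regular curve misses a point -/
theorem exists_primeDiv_not_mem_of_isAffineOpen (e : PrimeDiv Y) {V : Y.Opens}
    (hV : IsAffineOpen V) : ∃ P : PrimeDiv Y, P.1 ∉ V := by
  by_contra hcon
  push Not at hcon
  have htop : V = ⊤ := by
    rw [eq_top_iff]
    intro y _
    rcases hreg y with rfl | hy
    · exact genericPoint_mem (hcon e)
    · exact hcon ⟨y, hy⟩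
  subst htop
  have hfield := isField_of_universallyClosed K fC
  let _ := hfield.toField
  have key : ∀ x : ((⊤ : Y.Opens) : Type u), hV.isoSpec.inv (hV.isoSpec.hom x) = x := fun x => by
    simp
  have h1 : hV.isoSpec.hom ⟨e.1, trivial⟩ = hV.isoSpec.hom ⟨genericPoint Y, trivial⟩ :=
    Subsingleton.elim (α := PrimeSpectrum Γ(Y, ⊤)) _ _
  have h2 := congrArg hV.isoSpec.inv h1
  have h3 : (⟨e.1, trivial⟩ : ((⊤ : Y.Opens) : Type u)) = ⟨genericPoint Y, trivial⟩ :=
    (key _).symm.trans (h2.trans (key _))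
  exact (VarSch.ne_generic_of_coheight_eq_one (coheight_primeDiv e)) (congrArg Subtype.val h3)

/-! ### the whole Krichever filtration: `K_m` for every `m : ℤ` -/

/-- two-chart data adapted to a point `e` of the curve: `U₁ = Y ∖ e`, `U₂ ∋ e`, `z ∈ Γ(Y, U₂)` a
uniformizer at `e` without other zeros on `U₂` (what a `Curve.PointChart` provides) -/
structure TwoChart (Y : Scheme.{u}) [IsIntegral Y] [IsLocallyNoetherian Y] where
  U₁ : Y.Opens
  U₂ : Y.Opens
  e : PrimeDiv Y
  mem₁_iff : ∀ y : Y, y ∈ U₁ ↔ y ≠ e.1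
  mem₂ : e.1 ∈ U₂
  z : Γ(Y, U₂)
  ord_e : ordAt e (germFF U₂ mem₂ z) = 1
  ord_ne : ∀ Q : PrimeDiv Y, Q.1 ∈ U₂ → Q ≠ e → ordAt Q (germFF U₂ mem₂ z) = 0

namespace TwoChart

variable (T : TwoChart Y)

theorem generic_mem₂ : genericPoint Y ∈ T.U₂ := genericPoint_mem T.mem₂

theorem generic_mem₁ : genericPoint Y ∈ T.U₁ :=
  (T.mem₁_iff _).2 (VarSch.ne_generic_of_coheight_eq_one (coheight_primeDiv T.e)).symm

theorem generic_mem₁₂ : genericPoint Y ∈ T.U₁ ⊓ T.U₂ := ⟨T.generic_mem₁, T.generic_mem₂⟩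

/-- the rational function of the local parameter -/
def ζ : Y.functionField := germFF T.U₂ T.mem₂ T.z

theorem ζ_ne_zero : T.ζ ≠ 0 := by
  intro h0
  have := T.ord_e
  rw [show germFF T.U₂ T.mem₂ T.z = T.ζ from rfl, h0, ordAt_zero] at this
  exact zero_ne_one this

include hreg in
/-- the local parameter is invertible on `U₁ ⊓ U₂` -/
theorem isUnit_res_z : IsUnit (resO (inf_le_right : T.U₁ ⊓ T.U₂ ≤ T.U₂) T.z) := by
  obtain ⟨r, hr⟩ := (exists_germFF_eq_iff hreg T.generic_mem₁₂ T.ζ⁻¹).2 (Or.inr fun P hP => by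
    have hPe : P ≠ T.e := fun h => (T.mem₁_iff P.1).1 hP.1 (by rw [h])
    rw [ordAt_inv, show T.ζ = germFF T.U₂ T.mem₂ T.z from rfl, T.ord_ne P hP.2 hPe, neg_zero])
  refine IsUnit.of_mul_eq_one r ?_
  apply germFF_injective _ T.generic_mem₁₂
  rw [map_mul, map_one, hr]
  have : germFF (T.U₁ ⊓ T.U₂) T.generic_mem₁₂ (resO inf_le_right T.z) = T.ζ :=
    germFF_res inf_le_right T.generic_mem₁₂ T.z
  rw [this, mul_inv_cancel₀ T.ζ_ne_zero]

/-- the local parameter as a unit on `U₁ ⊓ U₂` -/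
def unit : (Γ(Y, T.U₁ ⊓ T.U₂))ˣ := (T.isUnit_res_z hreg).unit

theorem coe_unit : ((T.unit hreg : (Γ(Y, T.U₁ ⊓ T.U₂))ˣ) : Γ(Y, T.U₁ ⊓ T.U₂)) =
    resO (inf_le_right : T.U₁ ⊓ T.U₂ ≤ T.U₂) T.z := rfl

theorem germFF_unit_zpow (n : ℤ) :
    germFF (T.U₁ ⊓ T.U₂) T.generic_mem₁₂ ((T.unit hreg ^ n : (Γ(Y, T.U₁ ⊓ T.U₂))ˣ) :
      Γ(Y, T.U₁ ⊓ T.U₂)) = T.ζ ^ n := by
  have h1 : germFF (T.U₁ ⊓ T.U₂) T.generic_mem₁₂ (T.unit hreg : Γ(Y, T.U₁ ⊓ T.U₂)) = T.ζ :=
    germFF_res inf_le_right T.generic_mem₁₂ T.z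
  set φ : Γ(Y, T.U₁ ⊓ T.U₂) →* Y.functionField :=
    (germFF (T.U₁ ⊓ T.U₂) T.generic_mem₁₂).toMonoidHom with hφ
  have h2 : φ ((T.unit hreg ^ n : (Γ(Y, T.U₁ ⊓ T.U₂))ˣ) : Γ(Y, T.U₁ ⊓ T.U₂)) =
      ((Units.map φ (T.unit hreg ^ n) : (Y.functionField)ˣ) : Y.functionField) :=
    (Units.coe_map φ _).symm
  have h3 : φ (T.unit hreg : Γ(Y, T.U₁ ⊓ T.U₂)) = T.ζ := h1
  show φ _ = _
  rw [h2, map_zpow, Units.val_zpow_eq_zpow_val, Units.coe_map, h3]

/-- **the Čech differential of `N(m e)`** (`Kmap ι L m` of `Krich`): `(w, l) ↦ w + z⁻ᵐ • l` -/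
def cechMap (N : Y.Modules) (m : ℤ) (p : Γ(N, T.U₁) × Γ(N, T.U₂)) : Γ(N, T.U₁ ⊓ T.U₂) :=
  Mod.res N (inf_le_left : T.U₁ ⊓ T.U₂ ≤ T.U₁) p.1 +
    ((T.unit hreg ^ (-m) : (Γ(Y, T.U₁ ⊓ T.U₂))ˣ) : Γ(Y, T.U₁ ⊓ T.U₂)) •
      Mod.res N (inf_le_right : T.U₁ ⊓ T.U₂ ≤ T.U₂) p.2

theorem cechMap_neg_one (N : Y.Modules) (p : Γ(N, T.U₁) × Γ(N, T.U₂)) :
    T.cechMap hreg N (-1) p = Mod.res N (inf_le_left : T.U₁ ⊓ T.U₂ ≤ T.U₁) p.1 +
      Mod.res N (inf_le_right : T.U₁ ⊓ T.U₂ ≤ T.U₂) (T.z • p.2) := by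
  unfold cechMap
  rw [neg_neg, zpow_one, Mod.res_smul]
  rfl

end TwoChart

section Zpow

variable (T : TwoChart Y) {N : Y.Modules} (GN : GenericGen N) (hN : LocGen N)

/-- the coordinate of the Čech differential -/
theorem GenericGen.coordFF_cechMap (m : ℤ) (p : Γ(N, T.U₁) × Γ(N, T.U₂)) :
    GN.coordFF T.generic_mem₁₂ (T.cechMap hreg N m p) =
      GN.coordFF T.generic_mem₁ p.1 + T.ζ ^ (-m) * GN.coordFF T.generic_mem₂ p.2 := by
  unfold TwoChart.cechMap
  rw [GN.coordFF_add, GN.coordFF_res T.generic_mem₁ T.generic_mem₁₂, GN.coordFF_smul,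
    GN.coordFF_res T.generic_mem₂ T.generic_mem₁₂, T.germFF_unit_zpow hreg]

/-- **the dictionary for the Krichever complex**: `K_m(N)` is injective, resp. surjective, iff the
two-chart Čech differential of the divisor `D_N + m e` is (in the function field) -/
theorem GenericGen.cechMap_inj_surj_iff_lamOff (m : ℤ) :
    letI := kAlgebraFF fC
    (Function.Injective (T.cechMap hreg N m) ↔
      lamOff (({placeOf fC T.e} : Finset (Place K Y.functionField)) : Set _)
          (GN.divisor fC hreg hN + m • Finsupp.single (placeOf fC T.e) 1) ⊓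
        lamOff ((offPlaces fC T.U₂ T.generic_mem₂ : Finset _) : Set _)
          (GN.divisor fC hreg hN + m • Finsupp.single (placeOf fC T.e) 1) = ⊥) ∧
    (Function.Surjective (T.cechMap hreg N m) ↔
      lamOff ((({placeOf fC T.e} : Finset (Place K Y.functionField)) : Set _) ∪
          (offPlaces fC T.U₂ T.generic_mem₂ : Finset _))
          (GN.divisor fC hreg hN + m • Finsupp.single (placeOf fC T.e) 1) =
        lamOff (({placeOf fC T.e} : Finset (Place K Y.functionField)) : Set _)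
          (GN.divisor fC hreg hN + m • Finsupp.single (placeOf fC T.e) 1) ⊔
        lamOff ((offPlaces fC T.U₂ T.generic_mem₂ : Finset _) : Set _)
          (GN.divisor fC hreg hN + m • Finsupp.single (placeOf fC T.e) 1)) := by
  let _ := kAlgebraFF fC
  classical
  have hη₂ := T.generic_mem₂
  have hη₁ := T.generic_mem₁
  have hη₁₂ := T.generic_mem₁₂
  set ve := placeOf fC T.e with hve
  set D := GN.divisor fC hreg hN with hD
  set E : Divisor K Y.functionField := D + m • Finsupp.single ve 1 with hE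
  have hζ0 := T.ζ_ne_zero
  set S₁ : Finset (Place K Y.functionField) := {ve} with hS₁def
  set S₂ : Finset (Place K Y.functionField) := offPlaces fC T.U₂ hη₂ with hS₂def
  have hS₁ : ∀ P : PrimeDiv Y,
      placeOf fC P ∈ (S₁ : Set (Place K Y.functionField)) ↔ P.1 ∉ T.U₁ := by
    intro P
    rw [Finset.mem_coe, Finset.mem_singleton, T.mem₁_iff, not_not]
    constructor
    · intro h
      rw [placeOf_injective fC h]
    · intro h
      rw [show P = T.e from Subtype.ext h]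
  have hS₂ : ∀ P : PrimeDiv Y,
      placeOf fC P ∈ (S₂ : Set (Place K Y.functionField)) ↔ P.1 ∉ T.U₂ :=
    fun P => placeOf_mem_offPlaces_iff fC T.U₂ hη₂ P
  have hS₁₂ : ∀ P : PrimeDiv Y,
      placeOf fC P ∈ ((S₁ : Set (Place K Y.functionField)) ∪ S₂) ↔ P.1 ∉ T.U₁ ⊓ T.U₂ := by
    intro P
    rw [Set.mem_union, hS₁, hS₂]
    constructor
    · rintro (h | h) h'
      · exact h h'.1
      · exact h h'.2
    · intro h
      by_contra hcon
      push Not at hcon
      exact h ⟨hcon.1, hcon.2⟩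
  have hve₁ : ve ∈ S₁ := Finset.mem_singleton_self _
  -- `D` and `E` agree off `e`
  have hED : ∀ v, v ≠ ve → E v = D v := by
    intro v hv
    rw [hE, Finsupp.add_apply, Finsupp.smul_apply, Finsupp.single_apply, if_neg (Ne.symm hv),
      smul_zero, add_zero]
  have hEe : E ve = D ve + m := by
    rw [hE, Finsupp.add_apply, Finsupp.smul_apply, Finsupp.single_apply, if_pos rfl, smul_eq_mul,
      mul_one]
  have hlam₁ : lamOff (S₁ : Set (Place K Y.functionField)) D = lamOff (S₁ : Set _) E := by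
    apply le_antisymm <;> apply lamOff_mono <;> intro v hv
    · rw [hED v (fun h => hv (by rw [h]; exact Finset.mem_coe.2 hve₁))]
    · rw [hED v (fun h => hv (by rw [h]; exact Finset.mem_coe.2 hve₁))]
  have hlam₁₂ : lamOff ((S₁ : Set (Place K Y.functionField)) ∪ S₂) D =
      lamOff ((S₁ : Set _) ∪ S₂) E := by
    apply le_antisymm <;> apply lamOff_mono <;> intro v hv
    · rw [hED v (fun h => hv (by rw [h]; exact Or.inl (Finset.mem_coe.2 hve₁)))]
    · rw [hED v (fun h => hv (by rw [h]; exact Or.inl (Finset.mem_coe.2 hve₁)))]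
  -- multiplication by `z⁻ᵐ` : `lamOff S₂ D → lamOff S₂ E`
  have hmul : ∀ f : Y.functionField,
      f ∈ lamOff (S₂ : Set (Place K Y.functionField)) D ↔
        T.ζ ^ (-m) * f ∈ lamOff (S₂ : Set _) E := by
    intro f
    by_cases hf : f = 0
    · rw [hf, mul_zero]
      exact ⟨fun _ => Submodule.zero_mem _, fun _ => Submodule.zero_mem _⟩
    rw [mem_lamOff_of_ne hf, mem_lamOff_of_ne (mul_ne_zero (zpow_ne_zero _ hζ0) hf)]
    refine forall_congr' fun v => imp_congr_right fun hv => ?_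
    obtain ⟨P, rfl⟩ := placeOf_surjective fC hreg v
    have hPU : P.1 ∈ T.U₂ := by
      by_contra h
      exact hv ((hS₂ P).2 h)
    rw [ord_placeOf, ord_placeOf, ordAt_mul P (zpow_ne_zero _ hζ0) hf, ordAt_zpow]
    by_cases hPe : P = T.e
    · rw [hPe, ← hve, hEe, show T.ζ = germFF T.U₂ T.mem₂ T.z from rfl, T.ord_e]
      constructor <;> intro h <;> omega
    · rw [hED _ (fun h => hPe (placeOf_injective fC h)),
        show T.ζ = germFF T.U₂ T.mem₂ T.z from rfl, T.ord_ne P hPU hPe, mul_zero, zero_add]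
  have hmem₁ : ∀ w : Γ(N, T.U₁),
      GN.coordFF hη₁ w ∈ lamOff (S₁ : Set (Place K Y.functionField)) E :=
    fun w => hlam₁ ▸ GN.coordFF_mem_lamOff fC hreg hN hη₁ _ hS₁ w
  have hmem₂ : ∀ l : Γ(N, T.U₂),
      GN.coordFF hη₂ l ∈ lamOff (S₂ : Set (Place K Y.functionField)) D :=
    fun l => GN.coordFF_mem_lamOff fC hreg hN hη₂ _ hS₂ l
  have hcoord := GN.coordFF_cechMap hreg T m
  have hle : lamOff (S₁ : Set (Place K Y.functionField)) E ⊔ lamOff (S₂ : Set _) E ≤
      lamOff ((S₁ : Set (Place K Y.functionField)) ∪ S₂) E :=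
    sup_le (lamOff_anti Set.subset_union_left E) (lamOff_anti Set.subset_union_right E)
  refine ⟨⟨fun hinj => ?_, fun hinf => ?_⟩, ⟨fun hsurj => ?_, fun hsup => ?_⟩⟩
  · -- injectivity gives `H⁰ = 0`
    rw [eq_bot_iff]
    rintro x ⟨hx₁, hx₂⟩
    rw [Submodule.mem_bot]
    rw [← hlam₁] at hx₁
    obtain ⟨w, hw⟩ := (GN.exists_coordFF_eq_iff_mem_lamOff fC hreg hN hη₁ _ hS₁ x).2 hx₁
    have hx₂' : T.ζ ^ m * x ∈ lamOff (S₂ : Set (Place K Y.functionField)) D := by
      rw [hmul, ← mul_assoc, ← zpow_add₀ hζ0, neg_add_cancel, zpow_zero, one_mul]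
      exact hx₂
    obtain ⟨l, hl⟩ := (GN.exists_coordFF_eq_iff_mem_lamOff fC hreg hN hη₂ _ hS₂ _).2 hx₂'
    have h0 : T.cechMap hreg N m (w, -l) = T.cechMap hreg N m (0, 0) := by
      apply GN.coordFF_injective hN hη₁₂
      rw [hcoord, hcoord]
      have hneg : GN.coordFF hη₂ (-l) = - GN.coordFF hη₂ l := by
        have := GN.coordFF_add hη₂ l (-l)
        rw [add_neg_cancel, GN.coordFF_zero] at this
        exact eq_neg_of_add_eq_zero_right this.symm
      show GN.coordFF hη₁ w + T.ζ ^ (-m) * GN.coordFF hη₂ (-l) =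
        GN.coordFF hη₁ 0 + T.ζ ^ (-m) * GN.coordFF hη₂ 0
      rw [hneg, hw, hl, GN.coordFF_zero, GN.coordFF_zero, mul_zero, add_zero, mul_neg,
        ← mul_assoc, ← zpow_add₀ hζ0, neg_add_cancel, zpow_zero, one_mul, add_neg_cancel]
    have hw0 : w = 0 := congrArg Prod.fst (hinj h0)
    rw [← hw, hw0, GN.coordFF_zero]
  · -- `H⁰ = 0` gives injectivity
    rintro ⟨w, l⟩ ⟨w', l'⟩ hpq
    have h1 := congrArg (GN.coordFF hη₁₂) hpq
    rw [hcoord, hcoord] at h1
    have hx : GN.coordFF hη₁ w - GN.coordFF hη₁ w' =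
        T.ζ ^ (-m) * (GN.coordFF hη₂ l' - GN.coordFF hη₂ l) := by
      rw [mul_sub]
      linear_combination h1
    have hx₁ : GN.coordFF hη₁ w - GN.coordFF hη₁ w' ∈
        lamOff (S₁ : Set (Place K Y.functionField)) E :=
      Submodule.sub_mem _ (hmem₁ w) (hmem₁ w')
    have hx₂ : GN.coordFF hη₁ w - GN.coordFF hη₁ w' ∈
        lamOff (S₂ : Set (Place K Y.functionField)) E := by
      rw [hx, ← hmul]
      exact Submodule.sub_mem _ (hmem₂ l') (hmem₂ l)
    have hx0 : GN.coordFF hη₁ w - GN.coordFF hη₁ w' = 0 := by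
      have : GN.coordFF hη₁ w - GN.coordFF hη₁ w' ∈
          lamOff (S₁ : Set (Place K Y.functionField)) E ⊓ lamOff (S₂ : Set _) E := ⟨hx₁, hx₂⟩
      rwa [hinf, Submodule.mem_bot] at this
    have hw : w = w' := GN.coordFF_injective hN hη₁ (sub_eq_zero.1 hx0)
    have hl' : l = l' := by
      apply GN.coordFF_injective hN hη₂
      rw [hx0] at hx
      have := (mul_eq_zero.1 hx.symm).resolve_left (zpow_ne_zero _ hζ0)
      exact (sub_eq_zero.1 this).symm
    rw [hw, hl']
  · -- surjectivity gives `H¹ = 0`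
    refine le_antisymm ?_ hle
    intro x hx
    rw [← hlam₁₂] at hx
    obtain ⟨v, hv⟩ := (GN.exists_coordFF_eq_iff_mem_lamOff fC hreg hN hη₁₂ _ hS₁₂ x).2 hx
    obtain ⟨⟨w, l⟩, hp⟩ := hsurj v
    rw [← hv, ← hp, hcoord]
    exact Submodule.add_mem_sup (hmem₁ w) ((hmul _).1 (hmem₂ l))
  · -- `H¹ = 0` gives surjectivity
    intro v
    have hv : GN.coordFF hη₁₂ v ∈ lamOff ((S₁ : Set (Place K Y.functionField)) ∪ S₂) E :=
      hlam₁₂ ▸ GN.coordFF_mem_lamOff fC hreg hN hη₁₂ _ hS₁₂ v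
    rw [hsup, Submodule.mem_sup] at hv
    obtain ⟨f₁, hf₁, f₂, hf₂, hsum⟩ := hv
    rw [← hlam₁] at hf₁
    obtain ⟨w, hw⟩ := (GN.exists_coordFF_eq_iff_mem_lamOff fC hreg hN hη₁ _ hS₁ f₁).2 hf₁
    have hf₂' : T.ζ ^ m * f₂ ∈ lamOff (S₂ : Set (Place K Y.functionField)) D := by
      rw [hmul, ← mul_assoc, ← zpow_add₀ hζ0, neg_add_cancel, zpow_zero, one_mul]
      exact hf₂
    obtain ⟨l, hl'⟩ := (GN.exists_coordFF_eq_iff_mem_lamOff fC hreg hN hη₂ _ hS₂ _).2 hf₂'
    refine ⟨(w, l), ?_⟩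
    apply GN.coordFF_injective hN hη₁₂
    rw [hcoord]
    show GN.coordFF hη₁ w + T.ζ ^ (-m) * GN.coordFF hη₂ l = _
    rw [hw, hl', ← mul_assoc, ← zpow_add₀ hζ0, neg_add_cancel, zpow_zero, one_mul, hsum]

/-- **the dictionary for the Krichever complex**: `K_m(N)` is bijective iff the two-chart Čech
differential of the divisor `D_N + m e` is (in the function field) -/
theorem GenericGen.cechMap_bijective_iff_lamOff (m : ℤ) :
    letI := kAlgebraFF fC
    Function.Bijective (T.cechMap hreg N m) ↔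
      (lamOff (({placeOf fC T.e} : Finset (Place K Y.functionField)) : Set _)
          (GN.divisor fC hreg hN + m • Finsupp.single (placeOf fC T.e) 1) ⊓
        lamOff ((offPlaces fC T.U₂ T.generic_mem₂ : Finset _) : Set _)
          (GN.divisor fC hreg hN + m • Finsupp.single (placeOf fC T.e) 1) = ⊥ ∧
      lamOff ((({placeOf fC T.e} : Finset (Place K Y.functionField)) : Set _) ∪
          (offPlaces fC T.U₂ T.generic_mem₂ : Finset _))
          (GN.divisor fC hreg hN + m • Finsupp.single (placeOf fC T.e) 1) =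
        lamOff (({placeOf fC T.e} : Finset (Place K Y.functionField)) : Set _)
          (GN.divisor fC hreg hN + m • Finsupp.single (placeOf fC T.e) 1) ⊔
        lamOff ((offPlaces fC T.U₂ T.generic_mem₂ : Finset _) : Set _)
          (GN.divisor fC hreg hN + m • Finsupp.single (placeOf fC T.e) 1)) := by
  obtain ⟨h1, h2⟩ := GN.cechMap_inj_surj_iff_lamOff fC hreg T hN m
  unfold Function.Bijective
  rw [h1, h2]

variable {γ : ℕ} (hF : letI := kAlgebraFF fC; IsCurveOfGenus K Y.functionField γ)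

include hF in
/-- **`K_m(N)` is bijective iff `H⁰(N(m e)) = 0` and `deg N + m = γ - 1`** (`U₂ ≠ Y`) -/
theorem GenericGen.cechMap_bijective_iff (hU₂ : ∃ P : PrimeDiv Y, P.1 ∉ T.U₂) (m : ℤ) :
    letI := kAlgebraFF fC
    Function.Bijective (T.cechMap hreg N m) ↔
      (riemannRochSpace (GN.divisor fC hreg hN + m • Finsupp.single (placeOf fC T.e) 1) = ⊥ ∧
        Divisor.degree (GN.divisor fC hreg hN) + m + 1 = γ) := by
  let _ := kAlgebraFF fC
  classical
  rw [GN.cechMap_bijective_iff_lamOff fC hreg T hN m]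
  have hve₂ : placeOf fC T.e ∉ offPlaces fC T.U₂ T.generic_mem₂ := fun h =>
    (placeOf_mem_offPlaces_iff fC T.U₂ T.generic_mem₂ T.e).1 h T.mem₂
  obtain ⟨P, hP⟩ := hU₂
  rw [cech_bijective_iff hF (Finset.disjoint_singleton_left.2 hve₂) (Finset.singleton_nonempty _)
    ⟨placeOf fC P, (placeOf_mem_offPlaces_iff fC T.U₂ T.generic_mem₂ P).2 hP⟩]
  have hdeg : Divisor.degree (GN.divisor fC hreg hN + m • Finsupp.single (placeOf fC T.e) 1) =
      Divisor.degree (GN.divisor fC hreg hN) + m := by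
    rw [map_add, map_zsmul, Divisor.degree_single, hF.deg_eq_one]
    simp
  rw [hdeg]

include hF in
/-- `K_m(N)` is bijective as soon as `H⁰(N(m e)) = 0` and `deg N + m = γ - 1` (no hypothesis on
`U₂`) -/
theorem GenericGen.cechMap_bijective_of_rr (m : ℤ)
    (hl : letI := kAlgebraFF fC
      riemannRochSpace (GN.divisor fC hreg hN + m • Finsupp.single (placeOf fC T.e) 1) = ⊥)
    (hdeg : letI := kAlgebraFF fC; Divisor.degree (GN.divisor fC hreg hN) + m + 1 = γ) :
    Function.Bijective (T.cechMap hreg N m) := by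
  let _ := kAlgebraFF fC
  classical
  rw [GN.cechMap_bijective_iff_lamOff fC hreg T hN m]
  have hve₂ : placeOf fC T.e ∉ offPlaces fC T.U₂ T.generic_mem₂ := fun h =>
    (placeOf_mem_offPlaces_iff fC T.U₂ T.generic_mem₂ T.e).1 h T.mem₂
  have hdegE : Divisor.degree (GN.divisor fC hreg hN + m • Finsupp.single (placeOf fC T.e) 1) + 1
      = γ := by
    rw [map_add, map_zsmul, Divisor.degree_single, hF.deg_eq_one]
    rw [← hdeg]
    simp
  rcases (offPlaces fC T.U₂ T.generic_mem₂).eq_empty_or_nonempty with h2 | h2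
  · rw [h2, Finset.coe_empty, lamOff_empty, hl, inf_bot_eq, sup_bot_eq, Set.union_empty]
    exact ⟨rfl, rfl⟩
  · exact cech_bijective_of_rr_eq_bot hF (Finset.disjoint_singleton_left.2 hve₂)
      (Finset.singleton_nonempty _) h2 hl hdegE

include hF in
/-- **for `deg N + m = γ - 1`, `K_m(N)` surjective (`H¹(N(m e)) = 0`) implies `K_m(N)`
bijective** (`U₂ ≠ Y`) -/
theorem GenericGen.cechMap_bijective_of_surjective (hU₂ : ∃ P : PrimeDiv Y, P.1 ∉ T.U₂) (m : ℤ)
    (hdeg : letI := kAlgebraFF fC; Divisor.degree (GN.divisor fC hreg hN) + m + 1 = γ)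
    (hsurj : Function.Surjective (T.cechMap hreg N m)) :
    Function.Bijective (T.cechMap hreg N m) := by
  let _ := kAlgebraFF fC
  classical
  refine GN.cechMap_bijective_of_rr fC hreg T hN hF m ?_ hdeg
  have hsup := (GN.cechMap_inj_surj_iff_lamOff fC hreg T hN m).2.1 hsurj
  have hve₂ : placeOf fC T.e ∉ offPlaces fC T.U₂ T.generic_mem₂ := fun h =>
    (placeOf_mem_offPlaces_iff fC T.U₂ T.generic_mem₂ T.e).1 h T.mem₂
  obtain ⟨P, hP⟩ := hU₂
  have hdegE : Divisor.degree (GN.divisor fC hreg hN + m • Finsupp.single (placeOf fC T.e) 1) + 1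
      = γ := by
    rw [map_add, map_zsmul, Divisor.degree_single, hF.deg_eq_one]
    rw [← hdeg]
    simp
  exact rr_eq_bot_of_cech_surjective hF (Finset.disjoint_singleton_left.2 hve₂)
    (Finset.singleton_nonempty _)
    ⟨placeOf fC P, (placeOf_mem_offPlaces_iff fC T.U₂ T.generic_mem₂ P).2 hP⟩ hdegE hsup

end Zpow

/-! ### the genus: `H¹(Y, O(-e))` in ring terms -/

section GenusO

variable (T : TwoChart Y)

/-- the places off `U₁` -/
theorem TwoChart.placeOf_mem_singleton_iff (P : PrimeDiv Y) :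
    letI := kAlgebraFF fC
    placeOf fC P ∈ (({placeOf fC T.e} : Finset (Place K Y.functionField)) : Set _) ↔
      P.1 ∉ T.U₁ := by
  let _ := kAlgebraFF fC
  rw [Finset.mem_coe, Finset.mem_singleton, T.mem₁_iff, not_not]
  constructor
  · intro h
    rw [placeOf_injective fC h]
  · intro h
    rw [show P = T.e from Subtype.ext h]

/-- the places off `U₁ ⊓ U₂` -/
theorem TwoChart.placeOf_mem_union_iff (P : PrimeDiv Y) :
    letI := kAlgebraFF fC
    placeOf fC P ∈ ((({placeOf fC T.e} : Finset (Place K Y.functionField)) : Set _) ∪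
      (offPlaces fC T.U₂ T.generic_mem₂ : Finset _)) ↔ P.1 ∉ T.U₁ ⊓ T.U₂ := by
  let _ := kAlgebraFF fC
  rw [Set.mem_union, T.placeOf_mem_singleton_iff fC, Finset.mem_coe,
    placeOf_mem_offPlaces_iff fC T.U₂ T.generic_mem₂ P]
  constructor
  · rintro (h | h) h'
    · exact h h'.1
    · exact h h'.2
  · intro h
    by_contra hcon
    push Not at hcon
    exact h ⟨hcon.1, hcon.2⟩

include hreg in
/-- multiplication by `z⁻ᵐ` identifies `Γ(U₂, O(D))` with `Γ(U₂, O(D + m e))` -/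
theorem TwoChart.zpow_mul_mem_lamOff_iff
    (D : letI := kAlgebraFF fC; Divisor K Y.functionField) (m : ℤ) (f : Y.functionField) :
    letI := kAlgebraFF fC
    f ∈ lamOff ((offPlaces fC T.U₂ T.generic_mem₂ : Finset _) : Set _) D ↔
      T.ζ ^ (-m) * f ∈ lamOff ((offPlaces fC T.U₂ T.generic_mem₂ : Finset _) : Set _)
        (D + m • Finsupp.single (placeOf fC T.e) 1) := by
  let _ := kAlgebraFF fC
  have hζ0 := T.ζ_ne_zero
  by_cases hf : f = 0
  · rw [hf, mul_zero]
    exact ⟨fun _ => Submodule.zero_mem _, fun _ => Submodule.zero_mem _⟩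
  rw [mem_lamOff_of_ne hf, mem_lamOff_of_ne (mul_ne_zero (zpow_ne_zero _ hζ0) hf)]
  refine forall_congr' fun v => imp_congr_right fun hv => ?_
  obtain ⟨P, rfl⟩ := placeOf_surjective fC hreg v
  have hPU : P.1 ∈ T.U₂ := by
    by_contra h
    exact hv (Finset.mem_coe.2 ((placeOf_mem_offPlaces_iff fC T.U₂ T.generic_mem₂ P).2 h))
  rw [ord_placeOf, ord_placeOf, ordAt_mul P (zpow_ne_zero _ hζ0) hf, ordAt_zpow,
    Finsupp.add_apply, Finsupp.smul_apply]
  by_cases hPe : P = T.e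
  · have h1 : (Finsupp.single (placeOf fC T.e) (1 : ℤ)) (placeOf fC P) = 1 := by
      rw [hPe, Finsupp.single_eq_same]
    have h2 : ordAt P T.ζ = 1 := by
      rw [hPe]
      exact T.ord_e
    rw [h1, h2]
    simp only [smul_eq_mul, mul_one]
    constructor <;> intro h <;> omega
  · have h1 : (Finsupp.single (placeOf fC T.e) (1 : ℤ)) (placeOf fC P) = 0 := by
      classical
      rw [Finsupp.single_apply, if_neg (fun h => hPe (placeOf_injective fC h).symm)]
    have h2 : ordAt P T.ζ = 0 := T.ord_ne P hPU hPe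
    rw [h1, h2, mul_zero, zero_add, smul_zero, add_zero]

/-- off `e` the divisors `D` and `D + m e` agree -/
theorem TwoChart.lamOff_add_smul_single {S : letI := kAlgebraFF fC; Set (Place K Y.functionField)}
    (hS : placeOf fC T.e ∈ S)
    (D : letI := kAlgebraFF fC; Divisor K Y.functionField) (m : ℤ) :
    letI := kAlgebraFF fC
    lamOff S (D + m • Finsupp.single (placeOf fC T.e) 1) = lamOff S D := by
  let _ := kAlgebraFF fC
  have hED : ∀ v, v ∉ S →
      (D + m • Finsupp.single (placeOf fC T.e) 1 : Divisor K Y.functionField) v = D v := by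
    intro v hv
    have hne : placeOf fC T.e ≠ v := fun h => hv (h ▸ hS)
    classical
    rw [Finsupp.add_apply, Finsupp.smul_apply, Finsupp.single_apply, if_neg hne, smul_zero,
      add_zero]
  apply le_antisymm <;> apply lamOff_mono <;> intro v hv
  · rw [hED v hv]
  · rw [hED v hv]

variable {γ : ℕ} (hF : letI := kAlgebraFF fC; IsCurveOfGenus K Y.functionField γ)

include hF hreg in
/-- **the genus is the dimension of `H¹(Y, O(-e)) = Γ(U₁₂) ⧸ (Γ(U₁) + z Γ(U₂))`**, for ANY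
`K`-module structure on `Γ(Y, U₁ ⊓ U₂)` for which `germFF` is `K`-linear.  (`A'`, `B'` are the
images of `Γ(Y, U₁)` and of `z • Γ(Y, U₂)`.) -/
theorem TwoChart.finrank_quotient_O (hU₂ : ∃ P : PrimeDiv Y, P.1 ∉ T.U₂)
    [Module K Γ(Y, T.U₁ ⊓ T.U₂)]
    (hsmul : ∀ (a : K) (x : Γ(Y, T.U₁ ⊓ T.U₂)),
      germFF (T.U₁ ⊓ T.U₂) T.generic_mem₁₂ (a • x) =
        (kToFF fC).hom a * germFF (T.U₁ ⊓ T.U₂) T.generic_mem₁₂ x)
    (A' B' : Submodule K Γ(Y, T.U₁ ⊓ T.U₂))
    (hA' : ∀ x, x ∈ A' ↔ ∃ a : Γ(Y, T.U₁), resO inf_le_left a = x)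
    (hB' : ∀ x, x ∈ B' ↔ ∃ b : Γ(Y, T.U₂), resO inf_le_right (T.z * b) = x) :
    Module.Finite K (Γ(Y, T.U₁ ⊓ T.U₂) ⧸ (A' ⊔ B')) ∧
      Module.finrank K (Γ(Y, T.U₁ ⊓ T.U₂) ⧸ (A' ⊔ B')) = γ := by
  let _ := kAlgebraFF fC
  classical
  set ve := placeOf fC T.e with hve
  set S₂ : Finset (Place K Y.functionField) := offPlaces fC T.U₂ T.generic_mem₂ with hS₂
  set E : Divisor K Y.functionField := 0 + (-1 : ℤ) • Finsupp.single ve 1 with hE
  have hve₂ : ve ∉ S₂ := fun h =>
    (placeOf_mem_offPlaces_iff fC T.U₂ T.generic_mem₂ T.e).1 h T.mem₂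
  obtain ⟨P, hP⟩ := hU₂
  have hS₂ne : S₂.Nonempty :=
    ⟨placeOf fC P, (placeOf_mem_offPlaces_iff fC T.U₂ T.generic_mem₂ P).2 hP⟩
  -- the coordinate
  let c : Γ(Y, T.U₁ ⊓ T.U₂) →ₗ[K] Y.functionField :=
    { toFun := germFF (T.U₁ ⊓ T.U₂) T.generic_mem₁₂
      map_add' := map_add _
      map_smul' := fun a x => by
        rw [hsmul, RingHom.id_apply, Algebra.smul_def]
        rfl }
  have hc : Function.Injective c := germFF_injective _ T.generic_mem₁₂
  have hA : A'.map c = lamOff (({ve} : Finset (Place K Y.functionField)) : Set _) E := by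
    rw [hE, T.lamOff_add_smul_single fC (Finset.mem_coe.2 (Finset.mem_singleton_self _))]
    ext f
    rw [Submodule.mem_map, ← exists_germFF_eq_iff_mem_lamOff fC hreg T.generic_mem₁ _
      (T.placeOf_mem_singleton_iff fC) f]
    constructor
    · rintro ⟨x, hx, rfl⟩
      obtain ⟨a, rfl⟩ := (hA' x).1 hx
      exact ⟨a, (germFF_res inf_le_left T.generic_mem₁₂ a).symm⟩
    · rintro ⟨a, rfl⟩
      exact ⟨resO inf_le_left a, (hA' _).2 ⟨a, rfl⟩, germFF_res inf_le_left T.generic_mem₁₂ a⟩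
  have hB : B'.map c = lamOff ((S₂ : Finset (Place K Y.functionField)) : Set _) E := by
    ext f
    have hiff := T.zpow_mul_mem_lamOff_iff fC hreg (0 : Divisor K Y.functionField) (-1)
      (T.ζ⁻¹ * f)
    rw [neg_neg, zpow_one, ← mul_assoc, mul_inv_cancel₀ T.ζ_ne_zero, one_mul] at hiff
    rw [Submodule.mem_map, hE, ← hiff, ← exists_germFF_eq_iff_mem_lamOff fC hreg T.generic_mem₂ _
      (fun P => placeOf_mem_offPlaces_iff fC T.U₂ T.generic_mem₂ P)]
    have hres : ∀ b : Γ(Y, T.U₂), germFF (T.U₁ ⊓ T.U₂) T.generic_mem₁₂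
        (resO inf_le_right (T.z * b)) = T.ζ * germFF T.U₂ T.generic_mem₂ b := by
      intro b
      have := germFF_res inf_le_right T.generic_mem₁₂ (T.z * b)
      unfold resO
      rw [this, map_mul]
      rfl
    constructor
    · rintro ⟨x, hx, rfl⟩
      obtain ⟨b, rfl⟩ := (hB' x).1 hx
      refine ⟨b, ?_⟩
      show _ = T.ζ⁻¹ * germFF (T.U₁ ⊓ T.U₂) T.generic_mem₁₂ (resO inf_le_right (T.z * b))
      rw [hres, ← mul_assoc, inv_mul_cancel₀ T.ζ_ne_zero, one_mul]
    · rintro ⟨b, hb⟩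
      refine ⟨resO inf_le_right (T.z * b), (hB' _).2 ⟨b, rfl⟩, ?_⟩
      show germFF (T.U₁ ⊓ T.U₂) T.generic_mem₁₂ (resO inf_le_right (T.z * b)) = f
      rw [hres, hb, ← mul_assoc, mul_inv_cancel₀ T.ζ_ne_zero, one_mul]
  have hV : LinearMap.range c = lamOff ((({ve} : Finset (Place K Y.functionField)) : Set _) ∪
      (S₂ : Finset _)) E := by
    rw [hE, T.lamOff_add_smul_single fC
      (Or.inl (Finset.mem_coe.2 (Finset.mem_singleton_self _)))]
    ext f
    rw [LinearMap.mem_range, ← exists_germFF_eq_iff_mem_lamOff fC hreg T.generic_mem₁₂ _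
      (T.placeOf_mem_union_iff fC) f]
    rfl
  obtain ⟨hfin, hrank⟩ := finrank_quotient_sup_of_map hF c hc A' B'
    (Finset.disjoint_singleton_left.2 hve₂) (Finset.singleton_nonempty _) hS₂ne E hA hB hV
  refine ⟨hfin, ?_⟩
  have hdegE : Divisor.degree E = -1 := by
    rw [hE, zero_add, map_zsmul, Divisor.degree_single, hF.deg_eq_one]
    simp
  have hl : riemannRochSpace E = ⊥ := rr_eq_bot_of_degree_neg hF (by rw [hdegE]; omega)
  rw [hl, finrank_bot, hdegE] at hrank
  push_cast at hrank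
  omega

include hF hreg in
/-- **the genus is the dimension of `H¹(Y, O) = Γ(U₁₂) ⧸ (Γ(U₁) + Γ(U₂))`**, for ANY `K`-module
structure on `Γ(Y, U₁ ⊓ U₂)` for which `germFF` is `K`-linear. -/
theorem TwoChart.finrank_quotient_O_zero (hU₂ : ∃ P : PrimeDiv Y, P.1 ∉ T.U₂)
    [Module K Γ(Y, T.U₁ ⊓ T.U₂)]
    (hsmul : ∀ (a : K) (x : Γ(Y, T.U₁ ⊓ T.U₂)),
      germFF (T.U₁ ⊓ T.U₂) T.generic_mem₁₂ (a • x) =
        (kToFF fC).hom a * germFF (T.U₁ ⊓ T.U₂) T.generic_mem₁₂ x)
    (A' B' : Submodule K Γ(Y, T.U₁ ⊓ T.U₂))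
    (hA' : ∀ x, x ∈ A' ↔ ∃ a : Γ(Y, T.U₁), resO inf_le_left a = x)
    (hB' : ∀ x, x ∈ B' ↔ ∃ b : Γ(Y, T.U₂), resO inf_le_right b = x) :
    Module.Finite K (Γ(Y, T.U₁ ⊓ T.U₂) ⧸ (A' ⊔ B')) ∧
      Module.finrank K (Γ(Y, T.U₁ ⊓ T.U₂) ⧸ (A' ⊔ B')) = γ := by
  let _ := kAlgebraFF fC
  classical
  set ve := placeOf fC T.e with hve
  set S₂ : Finset (Place K Y.functionField) := offPlaces fC T.U₂ T.generic_mem₂ with hS₂
  have hve₂ : ve ∉ S₂ := fun h =>
    (placeOf_mem_offPlaces_iff fC T.U₂ T.generic_mem₂ T.e).1 h T.mem₂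
  obtain ⟨P, hP⟩ := hU₂
  have hS₂ne : S₂.Nonempty :=
    ⟨placeOf fC P, (placeOf_mem_offPlaces_iff fC T.U₂ T.generic_mem₂ P).2 hP⟩
  let c : Γ(Y, T.U₁ ⊓ T.U₂) →ₗ[K] Y.functionField :=
    { toFun := germFF (T.U₁ ⊓ T.U₂) T.generic_mem₁₂
      map_add' := map_add _
      map_smul' := fun a x => by
        rw [hsmul, RingHom.id_apply, Algebra.smul_def]
        rfl }
  have hc : Function.Injective c := germFF_injective _ T.generic_mem₁₂
  have hA : A'.map c = lamOff (({ve} : Finset (Place K Y.functionField)) : Set _)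
      (0 : Divisor K Y.functionField) := by
    ext f
    rw [Submodule.mem_map, ← exists_germFF_eq_iff_mem_lamOff fC hreg T.generic_mem₁ _
      (T.placeOf_mem_singleton_iff fC) f]
    constructor
    · rintro ⟨x, hx, rfl⟩
      obtain ⟨a, rfl⟩ := (hA' x).1 hx
      exact ⟨a, (germFF_res inf_le_left T.generic_mem₁₂ a).symm⟩
    · rintro ⟨a, rfl⟩
      exact ⟨resO inf_le_left a, (hA' _).2 ⟨a, rfl⟩, germFF_res inf_le_left T.generic_mem₁₂ a⟩
  have hB : B'.map c = lamOff ((S₂ : Finset (Place K Y.functionField)) : Set _)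
      (0 : Divisor K Y.functionField) := by
    ext f
    rw [Submodule.mem_map, ← exists_germFF_eq_iff_mem_lamOff fC hreg T.generic_mem₂ _
      (fun P => placeOf_mem_offPlaces_iff fC T.U₂ T.generic_mem₂ P) f]
    constructor
    · rintro ⟨x, hx, rfl⟩
      obtain ⟨b, rfl⟩ := (hB' x).1 hx
      exact ⟨b, (germFF_res inf_le_right T.generic_mem₁₂ b).symm⟩
    · rintro ⟨b, rfl⟩
      exact ⟨resO inf_le_right b, (hB' _).2 ⟨b, rfl⟩, germFF_res inf_le_right T.generic_mem₁₂ b⟩
  have hV : LinearMap.range c = lamOff ((({ve} : Finset (Place K Y.functionField)) : Set _) ∪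
      (S₂ : Finset _)) (0 : Divisor K Y.functionField) := by
    ext f
    rw [LinearMap.mem_range, ← exists_germFF_eq_iff_mem_lamOff fC hreg T.generic_mem₁₂ _
      (T.placeOf_mem_union_iff fC) f]
    rfl
  obtain ⟨hfin, hrank⟩ := finrank_quotient_sup_of_map hF c hc A' B'
    (Finset.disjoint_singleton_left.2 hve₂) (Finset.singleton_nonempty _) hS₂ne 0 hA hB hV
  refine ⟨hfin, ?_⟩
  rw [finrank_rr_zero hF, map_zero] at hrank
  push_cast at hrank
  omega

end GenusO

/-! ### COVER: general position for degree-zero classes, in sections form -/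

section Cover

variable {γ : ℕ} (hF : letI := kAlgebraFF fC; IsCurveOfGenus K Y.functionField γ)

/-- the divisor of a twist: if the multiplicities of `N` are those of `M` plus one at the points
of `Q`, then `D_N = D_M + ∑_{P ∈ Q} P` -/
theorem GenericGen.divisor_eq_add_ind {N : Y.Modules} (GN : GenericGen N) (hN : LocGen N)
    (Q : Finset (PrimeDiv Y))
    (hQ₁ : ∀ P ∈ Q, GN.divAt hN P = G.divAt hM P + 1)
    (hQ₀ : ∀ P ∉ Q, GN.divAt hN P = G.divAt hM P) :
    letI := kAlgebraFF fC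
    haveI := Classical.decEq (Place K Y.functionField)
    GN.divisor fC hreg hN = G.divisor fC hreg hM + ind (Q.image (placeOf fC)) := by
  let _ := kAlgebraFF fC
  classical
  ext v
  obtain ⟨P, rfl⟩ := placeOf_surjective fC hreg v
  have e1 := GN.divisor_placeOf fC hreg hN P
  have e2 := G.divisor_placeOf fC hreg hM P
  rw [Finsupp.add_apply, e1, e2]
  by_cases hP : P ∈ Q
  · rw [hQ₁ P hP, ind_apply_of_mem (Finset.mem_image_of_mem _ hP)]
  · rw [hQ₀ P hP, ind_apply_of_not_mem, add_zero]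
    intro h
    obtain ⟨P', hP', hPP'⟩ := Finset.mem_image.1 h
    exact hP (placeOf_injective fC hPP' ▸ hP')

include hF in
/-- **COVER, sections form (simultaneous for a finite family = (GP2))**: finitely many locally
generated modules `M i` of degree `0` on the curve `Y`, `e` a point, `PP` an infinite set of points,
`T` a finite set of points.  There are `γ` distinct points `Q ⊆ PP ∖ T` such that for every `i` and
every twist `N` of `M i` by `Q` (`D_N = D_{M i} + ∑_{P ∈ Q} P`) the Krichever condition holds: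
every section of `N` over `U₁ ⊓ U₂` is uniquely `w + z • l`, `w ∈ Γ(N, U₁)`, `l ∈ Γ(N, U₂)`. -/
theorem exists_cover_family {ι : Type*} [Finite ι] {M : ι → Y.Modules}
    (G : ∀ i, GenericGen (M i)) (hM : ∀ i, LocGen (M i))
    (hdeg : letI := kAlgebraFF fC; ∀ i, Divisor.degree ((G i).divisor fC hreg (hM i)) = 0)
    {PP : Set (PrimeDiv Y)} (hPP : PP.Infinite) (T : Finset (PrimeDiv Y)) (e : PrimeDiv Y) :
    ∃ Q : Finset (PrimeDiv Y), (↑Q ⊆ PP) ∧ Disjoint Q T ∧ Q.card = γ ∧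
      ∀ (i : ι) {N : Y.Modules} (GN : GenericGen N) (hN : LocGen N),
        (∀ P ∈ Q, GN.divAt hN P = (G i).divAt (hM i) P + 1) →
        (∀ P ∉ Q, GN.divAt hN P = (G i).divAt (hM i) P) →
        ∀ {U₁ U₂ : Y.Opens} (_ : ∀ y : Y, y ∈ U₁ ↔ y ≠ e.1) (he₂ : e.1 ∈ U₂) (z : Γ(Y, U₂)),
          ordAt e (germFF U₂ he₂ z) = 1 →
          (∀ P : PrimeDiv Y, P.1 ∈ U₂ → P ≠ e → ordAt P (germFF U₂ he₂ z) = 0) →
          Function.Bijective (fun p : Γ(N, U₁) × Γ(N, U₂) =>
            Mod.res N (inf_le_left : U₁ ⊓ U₂ ≤ U₁) p.1 +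
              Mod.res N (inf_le_right : U₁ ⊓ U₂ ≤ U₂) (z • p.2)) := by
  let _ := kAlgebraFF fC
  classical
  have hinj := placeOf_injective fC
  have hPP' : (placeOf fC '' PP).Infinite := hPP.image hinj.injOn
  -- a harmless two-chart cover for the function-field statement
  obtain ⟨v₂, hv₂⟩ : ∃ v₂ : Place K Y.functionField, v₂ ≠ placeOf fC e := by
    have := hF.infinite_places
    exact exists_ne _
  obtain ⟨Q', hQ'mem, hQ'T, hQ'card, hQ'⟩ := exists_genPos_degree_zero_family hF hPP'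
    (T.image (placeOf fC)) (D := fun i => (G i).divisor fC hreg (hM i)) hdeg (placeOf fC e)
    (S₁ := {placeOf fC e}) (S₂ := {v₂}) (Finset.disjoint_singleton.2 hv₂.symm)
    (Finset.singleton_nonempty _) (Finset.singleton_nonempty _)
  -- back to points
  obtain ⟨Q, hQdef⟩ : ∃ Q : Finset (PrimeDiv Y), Q = Q'.image (placeEquiv fC hreg).symm :=
    ⟨_, rfl⟩
  have hQimg : Q.image (placeOf fC) = Q' := by
    ext v
    simp only [hQdef, Finset.mem_image]
    constructor
    · rintro ⟨P, ⟨v', hv', rfl⟩, rfl⟩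
      rw [← placeEquiv_apply fC hreg, Equiv.apply_symm_apply]
      exact hv'
    · intro hv
      exact ⟨(placeEquiv fC hreg).symm v, ⟨v, hv, rfl⟩,
        by rw [← placeEquiv_apply fC hreg, Equiv.apply_symm_apply]⟩
  have hQmem : ∀ P, P ∈ Q ↔ placeOf fC P ∈ Q' := by
    intro P
    rw [← hQimg, Finset.mem_image]
    constructor
    · intro h
      exact ⟨P, h, rfl⟩
    · rintro ⟨P', hP', h⟩
      exact hinj h ▸ hP'
  refine ⟨Q, ?_, ?_, ?_, ?_⟩
  · intro P hP
    obtain ⟨P', hP', h⟩ := hQ'mem ((hQmem P).1 (Finset.mem_coe.1 hP))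
    exact hinj h ▸ hP'
  · rw [Finset.disjoint_left]
    intro P hP hPT
    exact Finset.disjoint_left.1 hQ'T ((hQmem P).1 hP) (Finset.mem_image_of_mem _ hPT)
  · rw [← hQ'card, ← hQimg, Finset.card_image_of_injective _ hinj]
  · intro i N GN hN hQ₁ hQ₀ U₁ U₂ hU₁ he₂ z hze hz
    have hDN := (G i).divisor_eq_add_ind fC hreg (hM i) GN hN Q hQ₁ hQ₀
    rw [hQimg] at hDN
    refine GN.cech_z_bijective fC hreg hF hN e hU₁ he₂ z hze hz ?_ ?_
    · rw [hDN, add_sub_right_comm]
      exact (hQ' i).1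
    · rw [hDN, map_add, hdeg i, degree_ind hF.deg_eq_one, hQ'card, zero_add]

include hF in
/-- **COVER for arbitrary degrees** (the form used by (P-Deg)): as `exists_cover_family`, without
any hypothesis on the degrees `δ i := deg D_{M i}`; for every twist `N` of `M i` by `Q` the
differential `K_{-1-δ i}(N)` is bijective. -/
theorem exists_cover_family_deg (T : TwoChart Y) {ι : Type*} [Finite ι] {M : ι → Y.Modules}
    (G : ∀ i, GenericGen (M i)) (hM : ∀ i, LocGen (M i))
    {PP : Set (PrimeDiv Y)} (hPP : PP.Infinite) (T' : Finset (PrimeDiv Y)) :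
    letI := kAlgebraFF fC
    ∃ Q : Finset (PrimeDiv Y), (↑Q ⊆ PP) ∧ Disjoint Q T' ∧ Q.card = γ ∧
      ∀ (i : ι) {N : Y.Modules} (GN : GenericGen N) (hN : LocGen N),
        (∀ P ∈ Q, GN.divAt hN P = (G i).divAt (hM i) P + 1) →
        (∀ P ∉ Q, GN.divAt hN P = (G i).divAt (hM i) P) →
        Function.Bijective
          (T.cechMap hreg N (-1 - Divisor.degree ((G i).divisor fC hreg (hM i)))) := by
  let _ := kAlgebraFF fC
  classical
  have hinj := placeOf_injective fC
  have hPP' : (placeOf fC '' PP).Infinite := hPP.image hinj.injOn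
  set ve := placeOf fC T.e with hve
  obtain ⟨v₂, hv₂⟩ : ∃ v₂ : Place K Y.functionField, v₂ ≠ ve := by
    have := hF.infinite_places
    exact exists_ne _
  set δ : ι → ℤ := fun i => Divisor.degree ((G i).divisor fC hreg (hM i)) with hδ
  have hdeg0 : ∀ i, Divisor.degree ((G i).divisor fC hreg (hM i) - δ i • Finsupp.single ve 1) = 0 := by
    intro i
    rw [map_sub, map_zsmul, Divisor.degree_single, hF.deg_eq_one]
    simp [hδ]
  obtain ⟨Q', hQ'mem, hQ'T, hQ'card, hQ'⟩ := exists_genPos_degree_zero_family hF hPP'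
    (T'.image (placeOf fC)) (D := fun i => (G i).divisor fC hreg (hM i) - δ i • Finsupp.single ve 1)
    hdeg0 ve (S₁ := {ve}) (S₂ := {v₂}) (Finset.disjoint_singleton.2 hv₂.symm)
    (Finset.singleton_nonempty _) (Finset.singleton_nonempty _)
  obtain ⟨Q, hQdef⟩ : ∃ Q : Finset (PrimeDiv Y), Q = Q'.image (placeEquiv fC hreg).symm :=
    ⟨_, rfl⟩
  have hQimg : Q.image (placeOf fC) = Q' := by
    ext v
    simp only [hQdef, Finset.mem_image]
    constructor
    · rintro ⟨P, ⟨v', hv', rfl⟩, rfl⟩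
      rw [← placeEquiv_apply fC hreg, Equiv.apply_symm_apply]
      exact hv'
    · intro hv
      exact ⟨(placeEquiv fC hreg).symm v, ⟨v, hv, rfl⟩,
        by rw [← placeEquiv_apply fC hreg, Equiv.apply_symm_apply]⟩
  have hQmem : ∀ P, P ∈ Q ↔ placeOf fC P ∈ Q' := by
    intro P
    rw [← hQimg, Finset.mem_image]
    constructor
    · intro h
      exact ⟨P, h, rfl⟩
    · rintro ⟨P', hP', h⟩
      exact hinj h ▸ hP'
  refine ⟨Q, ?_, ?_, ?_, ?_⟩
  · intro P hP
    obtain ⟨P', hP', h⟩ := hQ'mem ((hQmem P).1 (Finset.mem_coe.1 hP))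
    exact hinj h ▸ hP'
  · rw [Finset.disjoint_left]
    intro P hP hPT
    exact Finset.disjoint_left.1 hQ'T ((hQmem P).1 hP) (Finset.mem_image_of_mem _ hPT)
  · rw [← hQ'card, ← hQimg, Finset.card_image_of_injective _ hinj]
  · intro i N GN hN hQ₁ hQ₀
    have hDN := (G i).divisor_eq_add_ind fC hreg (hM i) GN hN Q hQ₁ hQ₀
    rw [hQimg] at hDN
    refine GN.cechMap_bijective_of_rr fC hreg T hN hF _ ?_ ?_
    · have := (hQ' i).1
      rw [hDN, ← hve]
      convert this using 2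
      rw [sub_smul, neg_smul, one_smul]
      abel
    · rw [hDN, map_add, degree_ind hF.deg_eq_one, hQ'card]
      show δ i + (γ : ℤ) + (-1 - δ i) + 1 = γ
      ring

end Cover

end Fermat.Agent.S25lib.Polar
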