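/-
S25lib / Polar / OfPointChart (helper9).
Bridge between `Polar/DictCurve` and helper8's `Curve/**`:

* `twoChartOf c ε T : TwoChart C` for a `Curve.PointChart c ε.pt`, `exists_not_mem_U₂`;
* `exists_genus c` : the curve has a genus `γ` (`IsCurveOfGenus`);
* on the base change `C_K` (`K` algebraically closed): `PeK c t ε' : PrimeDiv C_K`, the DVR point over
  a `k`-point `ε'`, `PeK_injective`, `infinite_range_PeK`;
* **`exists_cover_CK`** : COVER/(GP2) on `C_K` with the points taken among the `k`-points.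
-/
import Mathlib
import Fermat.Agent.S25lib.Polar.DictCurve
import Fermat.Agent.S25lib.Curve.ChartApi
import Fermat.Agent.S25lib.Curve.BaseChange

set_option autoImplicit false

noncomputable section

universe u

open AlgebraicGeometry CategoryTheory CategoryTheory.Limits TopologicalSpace AlgebraicCurve

namespace Fermat.Agent.S25lib.Polar

open Fermat.Agent.S18lib Fermat.Agent.S26lib Fermat.Agent.S26lib.Weil Fermat.Agent.S26lib.Aff
  Fermat.Agent.S26lib.CechRR Fermat.Agent.S26lib.CurvePlace Fermat.Agent.S25lib.Mod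
  Fermat.Agent.S25lib.Curve

section Curve

variable {k : Type u} [Field k] [IsAlgClosed k] {C : Scheme.{u}}
  (c : C ⟶ Spec (CommRingCat.of k)) [IsProper c] [SmoothOfRelativeDimension 1 c] [IsIntegral C]
  (ε : Prod.KPt c) (T : PointChart c ε.pt)

/-- the two-chart data of a `PointChart` -/
@[reducible] def twoChartOf : haveI := isLocallyNoetherian c; TwoChart C :=
  haveI := isLocallyNoetherian c
  { U₁ := T.U₁
    U₂ := T.U₂
    e := Pe c ε
    mem₁_iff := T.mem₁_iff
    mem₂ := T.mem₂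
    z := T.z
    ord_e := T.ordAt_z_Pe c ε
    ord_ne := T.ordAt_z_of_ne c ε }

/-- the chart `U₂` (affine) is not the whole curve -/
theorem exists_not_mem_U₂ : ∃ P : PrimeDiv C, P.1 ∉ T.U₂ :=
  exists_primeDiv_not_mem_of_isAffineOpen c (hreg c) (Pe c ε) T.isAffineOpen₂

/-- the curve has a genus -/
theorem exists_genus : letI := kAlgebraFF c; ∃ γ : ℕ, IsCurveOfGenus k C.functionField γ :=
  exists_isCurveOfGenus c (htr c)

/-- every DVR point is a `k`-point -/
theorem exists_kPt_eq (P : haveI := isLocallyNoetherian c; PrimeDiv C) :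
    ∃ ε' : Prod.KPt c, ε'.pt = P.1 :=
  ⟨Prod.KPt.ofClosedPoint c P.1 (isClosed_singleton_primeDiv (hreg c) P),
    Prod.KPt.pt_ofClosedPoint c _ _⟩

/-- a proper curve over an algebraically closed field has infinitely many rational points -/
theorem infinite_kPt : Infinite (Prod.KPt c) := by
  have hln := isLocallyNoetherian c
  have hinf : Infinite (PrimeDiv C) := infinite_primeDiv c (hreg c) (htr c)
  choose f hf using exists_kPt_eq c
  refine Infinite.of_injective f ?_
  intro P Q hPQ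
  apply Subtype.ext
  rw [← hf P, ← hf Q, hPQ]

/-- **the genus in ring terms**: `Γ(C, U₁ ⊓ U₂) ⧸ (Γ(C, U₁) + z Γ(C, U₂))` (`= H¹(C, O(-e))`,
helper3's `H1 ι_O L_O (-1)`) has dimension `γ` over `k`, for the `k`-algebra structure
`constHomOpen` on `Γ(C, U₁ ⊓ U₂)`. -/
theorem finrank_h1_pointChart {γ : ℕ}
    (hF : letI := kAlgebraFF c; IsCurveOfGenus k C.functionField γ) :
    letI : Algebra k Γ(C, T.U₁ ⊓ T.U₂) := (P5a.constHomOpen c (T.U₁ ⊓ T.U₂)).hom.toAlgebra
    ∀ (A' B' : Submodule k Γ(C, T.U₁ ⊓ T.U₂)),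
      (∀ x, x ∈ A' ↔ ∃ a : Γ(C, T.U₁), resO inf_le_left a = x) →
      (∀ x, x ∈ B' ↔ ∃ b : Γ(C, T.U₂), resO inf_le_right (T.z * b) = x) →
      Module.Finite k (Γ(C, T.U₁ ⊓ T.U₂) ⧸ (A' ⊔ B')) ∧
        Module.finrank k (Γ(C, T.U₁ ⊓ T.U₂) ⧸ (A' ⊔ B')) = γ := by
  have hln := isLocallyNoetherian c
  letI : Algebra k Γ(C, T.U₁ ⊓ T.U₂) := (P5a.constHomOpen c (T.U₁ ⊓ T.U₂)).hom.toAlgebra
  intro A' B' hA' hB'
  refine (twoChartOf c ε T).finrank_quotient_O c (hreg c) hF (exists_not_mem_U₂ c ε T) ?_ A' B'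
    hA' hB'
  intro a x
  have hη : genericPoint C ∈ T.U₁ ⊓ T.U₂ := (twoChartOf c ε T).generic_mem₁₂
  have : Nonempty (T.U₁ ⊓ T.U₂ : C.Opens) := ⟨⟨genericPoint C, hη⟩⟩
  rw [Algebra.smul_def, map_mul]
  congr 1
  have h := P5a.constHomOpen_germ c (T.U₁ ⊓ T.U₂)
  exact congrArg (fun φ => φ.hom a) h

/-- **the genus in ring terms, `H¹(C, O)`**: `Γ(C, U₁ ⊓ U₂) ⧸ (Γ(C, U₁) + Γ(C, U₂))` (helper3's
`H1 ι_O L_O 0`) has dimension `γ` over `k`. -/
theorem finrank_h1_zero_pointChart {γ : ℕ}
    (hF : letI := kAlgebraFF c; IsCurveOfGenus k C.functionField γ) :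
    letI : Algebra k Γ(C, T.U₁ ⊓ T.U₂) := (P5a.constHomOpen c (T.U₁ ⊓ T.U₂)).hom.toAlgebra
    ∀ (A' B' : Submodule k Γ(C, T.U₁ ⊓ T.U₂)),
      (∀ x, x ∈ A' ↔ ∃ a : Γ(C, T.U₁), resO inf_le_left a = x) →
      (∀ x, x ∈ B' ↔ ∃ b : Γ(C, T.U₂), resO inf_le_right b = x) →
      Module.Finite k (Γ(C, T.U₁ ⊓ T.U₂) ⧸ (A' ⊔ B')) ∧
        Module.finrank k (Γ(C, T.U₁ ⊓ T.U₂) ⧸ (A' ⊔ B')) = γ := by
  have hln := isLocallyNoetherian c
  letI : Algebra k Γ(C, T.U₁ ⊓ T.U₂) := (P5a.constHomOpen c (T.U₁ ⊓ T.U₂)).hom.toAlgebra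
  intro A' B' hA' hB'
  refine (twoChartOf c ε T).finrank_quotient_O_zero c (hreg c) hF (exists_not_mem_U₂ c ε T) ?_
    A' B' hA' hB'
  intro a x
  have hη : genericPoint C ∈ T.U₁ ⊓ T.U₂ := (twoChartOf c ε T).generic_mem₁₂
  have : Nonempty (T.U₁ ⊓ T.U₂ : C.Opens) := ⟨⟨genericPoint C, hη⟩⟩
  rw [Algebra.smul_def, map_mul]
  congr 1
  have h := P5a.constHomOpen_germ c (T.U₁ ⊓ T.U₂)
  exact congrArg (fun φ => φ.hom a) h

/-- **COVER + (GP2) for a `PointChart`, with the points taken in a prescribed infinite family**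
`p : J → PrimeDiv C` (on `C_K`: `J` = the `k`-points of `C`, `p = PeK c t`).  For finitely many
locally generated modules `M i` (of arbitrary degrees `δ i`) there is `E ⊆ J` of cardinality `γ`,
missing `e`, such that for every `i` and every twist `N` of `M i` by `E`
(`D_N = D_{M i} + ∑_{j ∈ E} p j`) the differential `K_{-1-δ i}(N)` of the Krichever complex is
bijective. -/
theorem exists_cover_pointChart {γ : ℕ}
    (hF : letI := kAlgebraFF c; IsCurveOfGenus k C.functionField γ)
    {J : Type*} [Infinite J] (p : J → (haveI := isLocallyNoetherian c; PrimeDiv C))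
    (hp : Function.Injective p) {ι : Type*} [Finite ι] {M : ι → C.Modules}
    (G : ∀ i, GenericGen (M i)) (hM : ∀ i, LocGen (M i)) :
    haveI := isLocallyNoetherian c
    letI := kAlgebraFF c
    ∃ E : Finset J, E.card = γ ∧ (∀ j ∈ E, p j ≠ Pe c ε) ∧
      ∀ (i : ι) {N : C.Modules} (GN : GenericGen N) (hN : LocGen N),
        (∀ j ∈ E, GN.divAt hN (p j) = (G i).divAt (hM i) (p j) + 1) →
        (∀ P, (∀ j ∈ E, P ≠ p j) → GN.divAt hN P = (G i).divAt (hM i) P) →
        Function.Bijective ((twoChartOf c ε T).cechMap (hreg c) N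
          (-1 - Divisor.degree ((G i).divisor c (hreg c) (hM i)))) := by
  have hln := isLocallyNoetherian c
  let _ := kAlgebraFF c
  classical
  obtain ⟨Q, hQmem, hQT, hQcard, hQ⟩ := exists_cover_family_deg c (hreg c) hF (twoChartOf c ε T)
    G hM (Set.infinite_range_of_injective hp) {Pe c ε}
  refine ⟨Q.preimage p hp.injOn, ?_, ?_, ?_⟩
  · rw [← hQcard, Finset.card_preimage]
    congr 1
    ext P
    rw [Finset.mem_filter]
    exact ⟨fun h => h.1, fun h => ⟨h, hQmem h⟩⟩
  · intro j hj hje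
    rw [Finset.mem_preimage] at hj
    exact Finset.disjoint_left.1 hQT hj (by rw [hje]; exact Finset.mem_singleton_self _)
  · intro i N GN hN h₁ h₀
    refine hQ i GN hN ?_ ?_
    · intro P hP
      obtain ⟨j, rfl⟩ := hQmem hP
      exact h₁ j (Finset.mem_preimage.2 hP)
    · intro P hP
      refine h₀ P fun j hj hPj => hP ?_
      rw [hPj]
      exact Finset.mem_preimage.1 hj

end Curve

section BaseChange

variable {k : Type u} [Field k] [IsAlgClosed k] {C : Scheme.{u}}
  (c : C ⟶ Spec (CommRingCat.of k)) [IsProper c] [SmoothOfRelativeDimension 1 c] [IsIntegral C]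
  {K : Type u} [Field K] [IsAlgClosed K] (t : Spec (CommRingCat.of K) ⟶ Spec (CommRingCat.of k))

/-- the DVR point of `C_K` over a `k`-point of `C` -/
def PeK (ε' : Prod.KPt c) :
    haveI := isIntegral_pullback c t
    haveI := isLocallyNoetherian (pullback.snd c t)
    PrimeDiv (pullback c t) :=
  haveI := isIntegral_pullback c t
  Pe (pullback.snd c t) (ptK c t ε')

theorem PeK_val (ε' : Prod.KPt c) : (PeK c t ε').1 = (ptK c t ε').pt := rfl

theorem PeK_injective : Function.Injective (PeK c t) := by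
  intro ε₁ ε₂ h
  apply Prod.KPt.ext_pt
  have h1 : (ptK c t ε₁).pt = (ptK c t ε₂).pt := congrArg Subtype.val h
  rw [← fst_ptK_pt c t ε₁, ← fst_ptK_pt c t ε₂, h1]

theorem infinite_range_PeK : (Set.range (PeK c t)).Infinite := by
  have := infinite_kPt c
  exact Set.infinite_range_of_injective (PeK_injective c t)

/-- **COVER + (GP2) on `C_K` with `k`-rational points**: `K ⊇ k` algebraically closed, `TK` a
`PointChart` of `C_K` at `e_K`, `M i` finitely many locally generated modules on `C_K`.  There is a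
set `E` of `γ` (= genus of `C_K`) `k`-points of `C`, `e ∉ E`, such that for every `i` and every twist
`N` of `M i` by `E_K` the differential `K_{-1-deg M i}(N)` is bijective. -/
theorem exists_cover_CK (ε : Prod.KPt c)
    (TK : haveI := isIntegral_pullback c t; PointChart (pullback.snd c t) (ptK c t ε).pt) {γ : ℕ}
    (hF : haveI := isIntegral_pullback c t; letI := kAlgebraFF (pullback.snd c t)
      IsCurveOfGenus K (pullback c t).functionField γ)
    {ι : Type*} [Finite ι] {M : ι → (pullback c t).Modules}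
    (G : haveI := isIntegral_pullback c t; ∀ i, GenericGen (M i)) (hM : ∀ i, LocGen (M i)) :
    haveI := isIntegral_pullback c t
    haveI := isLocallyNoetherian (pullback.snd c t)
    letI := kAlgebraFF (pullback.snd c t)
    ∃ E : Finset (Prod.KPt c), E.card = γ ∧ ε ∉ E ∧
      ∀ (i : ι) {N : (pullback c t).Modules} (GN : GenericGen N) (hN : LocGen N),
        (∀ j ∈ E, GN.divAt hN (PeK c t j) = (G i).divAt (hM i) (PeK c t j) + 1) →
        (∀ P, (∀ j ∈ E, P ≠ PeK c t j) → GN.divAt hN P = (G i).divAt (hM i) P) →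
        Function.Bijective ((twoChartOf (pullback.snd c t) (ptK c t ε) TK).cechMap
          (hreg (pullback.snd c t)) N
          (-1 - Divisor.degree ((G i).divisor (pullback.snd c t) (hreg (pullback.snd c t)) (hM i)))) := by
  have := isIntegral_pullback c t
  have hln := isLocallyNoetherian (pullback.snd c t)
  have := infinite_kPt c
  obtain ⟨E, hEcard, hEe, hE⟩ := exists_cover_pointChart (pullback.snd c t) (ptK c t ε) TK hF
    (PeK c t) (PeK_injective c t) G hM
  exact ⟨E, hEcard, fun h => hEe ε h rfl, hE⟩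

end BaseChange

end Fermat.Agent.S25lib.Polar
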