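/-
S25lib / Polar / IsoOfDiv (helper9).
**Linearly equivalent divisors give isomorphic modules** (integral scheme with generic/DVR points):
if `D_{N'} = D_N + div h` then `N ≅ N'`, by an isomorphism which divides coordinates by `h`.
-/
import Mathlib
import Fermat.Agent.S25lib.Polar.Dict
import Fermat.Agent.S25lib.Mod.IsoOfTrans
import Fermat.Agent.S26lib.CurvePlace.Place

set_option autoImplicit false

noncomputable section

universe u

open AlgebraicGeometry CategoryTheory TopologicalSpace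

namespace Fermat.Agent.S25lib.Polar

open Fermat.Agent.S26lib Fermat.Agent.S26lib.Weil Fermat.Agent.S26lib.Aff Fermat.Agent.S25lib.Mod

variable {Y : Scheme.{u}}

/-- a unit multiple of a generator is a generator -/
theorem isGen_smul_of_isUnit {M : Y.Modules} {U : Y.Opens} {s : Γ(M, U)} (hs : IsGen M U s)
    {c : Γ(Y, U)} (hc : IsUnit c) : IsGen M U (c • s) := by
  intro V h
  have hcV : IsUnit (resO h c) := hc.map (Y.presheaf.map (homOfLE h).op).hom
  have key : (fun r : Γ(Y, V) => r • Mod.res M h (c • s)) =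
      (fun r : Γ(Y, V) => r • Mod.res M h s) ∘ (fun r : Γ(Y, V) => r * resO h c) := by
    funext r
    simp only [Function.comp_apply]
    rw [Mod.res_smul, mul_smul]
  rw [key]
  refine (hs V h).comp ?_
  obtain ⟨u, hu⟩ := hcV
  constructor
  · intro a b hab
    simp only at hab
    rw [← hu] at hab
    exact (Units.mul_left_inj u).1 hab
  · intro b
    refine ⟨b * ((u⁻¹ : (Γ(Y, V))ˣ) : Γ(Y, V)), ?_⟩
    simp only
    rw [← hu, mul_assoc, Units.inv_mul, mul_one]

variable [IsIntegral Y] [IsLocallyNoetherian Y]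

/-- **linearly equivalent divisors give isomorphic modules**: if `D_{N'} = D_N + div h`, there is an
isomorphism `N ≅ N'` which divides the coordinates of sections by `h` -/
theorem exists_iso_of_divAt_eq
    (hreg : ∀ y : Y, y = genericPoint Y ∨ IsDiscreteValuationRing (Y.presheaf.stalk y))
    {N N' : Y.Modules} (G : GenericGen N) (hN : LocGen N) (G' : GenericGen N') (hN' : LocGen N')
    (h : Y.functionField) (hh : h ≠ 0)
    (hdiv : ∀ P : PrimeDiv Y, G'.divAt hN' P = G.divAt hN P + ordAt P h) :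
    ∃ e : N ≅ N', ∀ (V : Y.Opens) (hV : genericPoint Y ∈ V) (τ : Γ(N, V)),
      G'.coordFF hV (e.hom.app V τ) = G.coordFF hV τ / h := by
  have hN₀ := hN
  have hN'₀ := hN'
  choose U hxU s hs using hN₀
  choose U' hxU' t ht using hN'₀
  set W : Y → Y.Opens := fun x => U x ⊓ U' x with hW
  have hxW : ∀ x, x ∈ W x := fun x => ⟨hxU x, hxU' x⟩
  have hη : ∀ x, genericPoint Y ∈ W x := fun x => genericPoint_mem (hxW x)
  -- the generators of `N` on `W x`
  set σ : ∀ x, Γ(N, W x) := fun x => Mod.res N inf_le_left (s x) with hσdef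
  have hσ : ∀ x, IsGen N (W x) (σ x) := fun x => (hs x).res inf_le_left
  set f : Y → Y.functionField := fun x => G.coordFF (hη x) (σ x) with hf
  have hf0 : ∀ x, f x ≠ 0 := fun x => G.coordFF_gen_ne_zero (hσ x) (hη x)
  have hordf : ∀ x (P : PrimeDiv Y), P.1 ∈ W x → ordAt P (f x) = - G.divAt hN P :=
    fun x P hP => G.ordAt_coordFF_gen hN (hσ x) P hP
  have hordfh : ∀ x (P : PrimeDiv Y), P.1 ∈ W x → ordAt P (f x / h) = - G'.divAt hN' P := by
    intro x P hP
    rw [div_eq_mul_inv, ordAt_mul P (hf0 x) (inv_ne_zero hh), CurvePlace.ordAt_inv, hordf x P hP,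
      hdiv P]
    ring
  -- the corresponding sections of `N'`
  have hex : ∀ x, ∃ σ' : Γ(N', W x), G'.coordFF (hη x) σ' = f x / h := by
    intro x
    rw [G'.exists_coordFF_eq_iff hN' hreg (hη x)]
    exact Or.inr fun P hP => (hordfh x P hP).ge
  choose σ' hσ' using hex
  -- they are generators
  have hgen' : ∀ x, IsGen N' (W x) (σ' x) := by
    intro x
    set τ := Mod.res N' (inf_le_right : W x ≤ U' x) (t x) with hτ
    have hτgen : IsGen N' (W x) τ := (ht x).res inf_le_right
    set c := hτgen.coord (le_refl (W x)) (σ' x) with hc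
    have hcτ : c • τ = σ' x := by
      have := hτgen.coord_smul (le_refl (W x)) (σ' x)
      rwa [Mod.res_self] at this
    set g := G'.coordFF (hη x) τ with hg
    have hg0 : g ≠ 0 := G'.coordFF_gen_ne_zero hτgen (hη x)
    have hcg : germFF (W x) (hη x) c * g = f x / h := by
      rw [← hσ' x, ← hcτ, G'.coordFF_smul]
    have hc0 : germFF (W x) (hη x) c ≠ 0 := by
      intro h0
      rw [h0, zero_mul] at hcg
      exact div_ne_zero (hf0 x) hh hcg.symm
    have hordc : ∀ P : PrimeDiv Y, P.1 ∈ W x → ordAt P (germFF (W x) (hη x) c) = 0 := by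
      intro P hP
      have h1 := congrArg (ordAt P) hcg
      rw [ordAt_mul P hc0 hg0, hordfh x P hP, G'.ordAt_coordFF_gen hN' hτgen P hP] at h1
      omega
    obtain ⟨c', hc'⟩ := (exists_germFF_eq_iff hreg (hη x) (germFF (W x) (hη x) c)⁻¹).2
      (Or.inr fun P hP => by rw [CurvePlace.ordAt_inv, hordc P hP, neg_zero])
    have hunit : IsUnit c := by
      refine IsUnit.of_mul_eq_one c' ?_
      apply germFF_injective _ (hη x)
      rw [map_mul, map_one, hc', mul_inv_cancel₀ hc0]
    rw [← hcτ]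
    exact isGen_smul_of_isUnit hτgen hunit
  -- the transition functions
  set r : ∀ x y, Γ(Y, W x ⊓ W y) := fun x y =>
    (hσ y).coord (inf_le_right : W x ⊓ W y ≤ W y)
      (Mod.res N (inf_le_left : W x ⊓ W y ≤ W x) (σ x)) with hrdef
  have hr : ∀ x y, Mod.res N (inf_le_left : W x ⊓ W y ≤ W x) (σ x) =
      r x y • Mod.res N (inf_le_right : W x ⊓ W y ≤ W y) (σ y) :=
    fun x y => ((hσ y).coord_smul _ _).symm
  have hηxy : ∀ x y, genericPoint Y ∈ W x ⊓ W y := fun x y => ⟨hη x, hη y⟩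
  have hrf : ∀ x y, f x = germFF (W x ⊓ W y) (hηxy x y) (r x y) * f y := by
    intro x y
    have h1 := congrArg (G.coordFF (hηxy x y)) (hr x y)
    rwa [G.coordFF_res (hη x) (hηxy x y), G.coordFF_smul, G.coordFF_res (hη y) (hηxy x y)] at h1
  have hr' : ∀ x y, Mod.res N' (inf_le_left : W x ⊓ W y ≤ W x) (σ' x) =
      r x y • Mod.res N' (inf_le_right : W x ⊓ W y ≤ W y) (σ' y) := by
    intro x y
    apply G'.coordFF_injective hN' (hηxy x y)
    rw [G'.coordFF_res (hη x) (hηxy x y), G'.coordFF_smul, G'.coordFF_res (hη y) (hηxy x y),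
      hσ' x, hσ' y, hrf x y, mul_div_assoc]
  have hcov : ⨆ x, W x = ⊤ := by
    rw [eq_top_iff]
    intro x _
    exact Opens.mem_iSup.2 ⟨x, hxW x⟩
  obtain ⟨e, he⟩ := nonempty_iso_of_same_trans W hcov σ hσ σ' hgen' r hr hr'
  refine ⟨e, fun V hV τ => ?_⟩
  -- compute on `V ⊓ W η`
  set x₀ := genericPoint Y with hx₀
  have hO : genericPoint Y ∈ V ⊓ W x₀ := ⟨hV, hη x₀⟩
  set a := (hσ x₀).coord (inf_le_right : V ⊓ W x₀ ≤ W x₀)
    (Mod.res N (inf_le_left : V ⊓ W x₀ ≤ V) τ) with ha
  have haτ : a • Mod.res N (inf_le_right : V ⊓ W x₀ ≤ W x₀) (σ x₀) =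
      Mod.res N (inf_le_left : V ⊓ W x₀ ≤ V) τ := (hσ x₀).coord_smul _ _
  have h1 : G.coordFF hV τ = germFF (V ⊓ W x₀) hO a * f x₀ := by
    rw [← G.coordFF_res hV hO inf_le_left τ, ← haτ, G.coordFF_smul, G.coordFF_res (hη x₀) hO]
  have h2 : Mod.res N' (inf_le_left : V ⊓ W x₀ ≤ V) (e.hom.app V τ) =
      a • Mod.res N' (inf_le_right : V ⊓ W x₀ ≤ W x₀) (σ' x₀) := by
    rw [← Mod.app_res, ← haτ, Scheme.Modules.Hom.app_smul, Mod.app_res, he x₀]
  rw [← G'.coordFF_res hV hO inf_le_left (e.hom.app V τ), h2, G'.coordFF_smul,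
    G'.coordFF_res (hη x₀) hO, hσ' x₀, h1, mul_div_assoc]

end Fermat.Agent.S25lib.Polar
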