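/-
S25lib / Polar / KBDict (helper9).
Adapter between helper7's `Hub/KB` (the Krichever condition in sections form, for a `Curve.ZChart`) and the
dictionary `Polar/DictCurve` (`TwoChart.cechMap`), over an algebraically closed field `K ⊇ k`:

* `twoChartOfZ c ε Z : TwoChart C` for a `Curve.ZChart ε.pt`; `exists_not_mem_U₂_Z`;
* `twoChartK c t ε Z : TwoChart C_K` := the two-chart data of `Z.baseChange c t ε`;
* `Kfun_eq_cechMap` : `Hub.Kfun Z t N = (twoChartK c t ε Z).cechMap _ N (-1)`, hence
  `kb_iff_cechMap`, `kSurj_iff_cechMap`;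
* `kb_iff` : `KB Z t N ↔ L(D_N - e_K) = 0 ∧ deg D_N = γ`;
* `kb_of_kSurj` : `deg D_N = γ → KSurj Z t N → KB Z t N`.
-/
import Mathlib
import Fermat.Agent.S25lib.Polar.OfPointChart
import Fermat.Agent.S25lib.Curve.ZChart
import Fermat.Agent.S25lib.Hub.KB

set_option autoImplicit false

noncomputable section

universe u

open AlgebraicGeometry CategoryTheory CategoryTheory.Limits TopologicalSpace AlgebraicCurve

namespace Fermat.Agent.S25lib.Polar

open Fermat.Agent.S18lib Fermat.Agent.S26lib Fermat.Agent.S26lib.Weil Fermat.Agent.S26lib.Aff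
  Fermat.Agent.S26lib.CechRR Fermat.Agent.S26lib.CurvePlace Fermat.Agent.S25lib.Mod
  Fermat.Agent.S25lib.Curve

section Curve

variable {k : Type u} [Field k] [IsAlgClosed k] {C : Scheme.{u}}
  (c : C ⟶ Spec (CommRingCat.of k)) [IsProper c] [SmoothOfRelativeDimension 1 c] [IsIntegral C]
  (ε : Prod.KPt c) (Z : ZChart ε.pt)

/-- the two-chart data of a `ZChart` -/
@[reducible] def twoChartOfZ : haveI := isLocallyNoetherian c; TwoChart C :=
  haveI := isLocallyNoetherian c
  { U₁ := Z.U₁
    U₂ := Z.U₂
    e := Pe c ε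
    mem₁_iff := Z.mem₁_iff
    mem₂ := Z.mem₂
    z := Z.z
    ord_e := Z.ordAt_z_Pe c ε
    ord_ne := Z.ordAt_z_of_ne c ε }

/-- the chart `U₂` (affine) is not the whole curve -/
theorem exists_not_mem_U₂_Z : ∃ P : (haveI := isLocallyNoetherian c; PrimeDiv C), P.1 ∉ Z.U₂ :=
  haveI := isLocallyNoetherian c
  exists_primeDiv_not_mem_of_isAffineOpen c (hreg c) (Pe c ε) Z.isAffineOpen₂

end Curve

section BaseChange

variable {k : Type u} [Field k] [IsAlgClosed k] {C : Scheme.{u}}
  (c : C ⟶ Spec (CommRingCat.of k)) [IsProper c] [SmoothOfRelativeDimension 1 c] [IsIntegral C]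
  {K : Type u} [Field K] [IsAlgClosed K] (t : Spec (CommRingCat.of K) ⟶ Spec (CommRingCat.of k))
  (ε : Prod.KPt c) (Z : ZChart ε.pt)

/-- the two-chart data of `C_K` obtained from a `ZChart` of `C` -/
@[reducible] def twoChartK :
    haveI := isIntegral_pullback c t
    haveI := isLocallyNoetherian (pullback.snd c t)
    TwoChart (pullback c t) :=
  haveI := isIntegral_pullback c t
  twoChartOfZ (pullback.snd c t) (ptK c t ε) (Z.baseChange c t ε)

theorem twoChartK_e :
    haveI := isIntegral_pullback c t
    haveI := isLocallyNoetherian (pullback.snd c t)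
    (twoChartK c t ε Z).e = PeK c t ε := rfl

theorem exists_not_mem_U₂_K :
    haveI := isIntegral_pullback c t
    haveI := isLocallyNoetherian (pullback.snd c t)
    ∃ P : PrimeDiv (pullback c t), P.1 ∉ (twoChartK c t ε Z).U₂ :=
  haveI := isIntegral_pullback c t
  exists_not_mem_U₂_Z (pullback.snd c t) (ptK c t ε) (Z.baseChange c t ε)

/-- **helper7's Krichever map is the Čech differential `K_{-1}`** -/
theorem Kfun_eq_cechMap (N : (pullback c t).Modules) :
    haveI := isIntegral_pullback c t
    haveI := isLocallyNoetherian (pullback.snd c t)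
    Hub.Kfun (c := c) Z t N =
      (twoChartK c t ε Z).cechMap (hreg (pullback.snd c t)) N (-1) := by
  haveI := isIntegral_pullback c t
  haveI := isLocallyNoetherian (pullback.snd c t)
  funext p
  exact ((twoChartK c t ε Z).cechMap_neg_one (hreg (pullback.snd c t)) N p).symm

theorem kb_iff_cechMap (N : (pullback c t).Modules) :
    haveI := isIntegral_pullback c t
    haveI := isLocallyNoetherian (pullback.snd c t)
    Hub.KB (c := c) Z t N ↔
      Function.Bijective ((twoChartK c t ε Z).cechMap (hreg (pullback.snd c t)) N (-1)) := by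
  unfold Hub.KB
  rw [Kfun_eq_cechMap c t ε Z N]
  exact Iff.rfl

theorem kSurj_iff_cechMap (N : (pullback c t).Modules) :
    haveI := isIntegral_pullback c t
    haveI := isLocallyNoetherian (pullback.snd c t)
    Hub.KSurj (c := c) Z t N ↔
      Function.Surjective ((twoChartK c t ε Z).cechMap (hreg (pullback.snd c t)) N (-1)) := by
  unfold Hub.KSurj
  rw [Kfun_eq_cechMap c t ε Z N]
  exact Iff.rfl

variable {γ : ℕ}
  (hF : haveI := isIntegral_pullback c t; letI := kAlgebraFF (pullback.snd c t)
    IsCurveOfGenus K (pullback c t).functionField γ)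
  {N : (pullback c t).Modules}
  (GN : haveI := isIntegral_pullback c t; GenericGen N) (hN : LocGen N)

include hF in
/-- **`KB` in terms of the divisor**: `KB Z t N ↔ L(D_N - e_K) = 0 ∧ deg D_N = γ` -/
theorem kb_iff :
    haveI := isIntegral_pullback c t
    haveI := isLocallyNoetherian (pullback.snd c t)
    letI := kAlgebraFF (pullback.snd c t)
    Hub.KB (c := c) Z t N ↔
      (riemannRochSpace (GN.divisor (pullback.snd c t) (hreg (pullback.snd c t)) hN +
          (-1 : ℤ) • Finsupp.single (placeOf (pullback.snd c t) (PeK c t ε)) 1) = ⊥ ∧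
        Divisor.degree (GN.divisor (pullback.snd c t) (hreg (pullback.snd c t)) hN) = γ) := by
  haveI := isIntegral_pullback c t
  haveI := isLocallyNoetherian (pullback.snd c t)
  letI := kAlgebraFF (pullback.snd c t)
  rw [kb_iff_cechMap c t ε Z N,
    GN.cechMap_bijective_iff (pullback.snd c t) (hreg (pullback.snd c t)) (twoChartK c t ε Z) hN hF
      (exists_not_mem_U₂_K c t ε Z) (-1)]
  have h : ∀ d : ℤ, d + -1 + 1 = (γ : ℤ) ↔ d = γ := fun d => by omega
  rw [h]
  exact Iff.rfl

include hF in
/-- **in degree `γ`, `H¹(N(-e)) = 0` implies `H⁰(N(-e)) = 0`** -/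
theorem kb_of_kSurj
    (hdeg : haveI := isIntegral_pullback c t
      haveI := isLocallyNoetherian (pullback.snd c t)
      letI := kAlgebraFF (pullback.snd c t)
      Divisor.degree (GN.divisor (pullback.snd c t) (hreg (pullback.snd c t)) hN) = γ)
    (hs : Hub.KSurj (c := c) Z t N) : Hub.KB (c := c) Z t N := by
  haveI := isIntegral_pullback c t
  haveI := isLocallyNoetherian (pullback.snd c t)
  letI := kAlgebraFF (pullback.snd c t)
  rw [kb_iff_cechMap c t ε Z N]
  rw [kSurj_iff_cechMap c t ε Z N] at hs
  refine GN.cechMap_bijective_of_surjective (pullback.snd c t) (hreg (pullback.snd c t))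
    (twoChartK c t ε Z) hN hF (exists_not_mem_U₂_K c t ε Z) (-1) ?_ hs
  rw [hdeg]
  ring

end BaseChange

end Fermat.Agent.S25lib.Polar
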