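/-
S25lib / Polar / TwistPt (helper9).
**The divisor of the twist by a rational point**, on the base change `C_K` (`K ⊇ k` algebraically closed):
for a `k`-point `ε'` of `C` with a `Curve.PointChart`, `ptCocycleK c t chart` is the pull-back to `C_K` of
helper7's cocycle `Hub.opCocycle chart` of `O(ε')`, and

* **`divAt_twist_ptCocycleK`** : `D_{𝒞.twist N} = D_N + [e'_K]`, `e'_K = PeK c t ε'`.
-/
import Mathlib
import Fermat.Agent.S25lib.Polar.KBDict
import Fermat.Agent.S25lib.Polar.TwistDiv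
import Fermat.Agent.S25lib.Hub.OPoint

set_option autoImplicit false

noncomputable section

universe u

open AlgebraicGeometry CategoryTheory CategoryTheory.Limits TopologicalSpace AlgebraicCurve

namespace Fermat.Agent.S25lib.Polar

open Fermat.Agent.S18lib Fermat.Agent.S26lib Fermat.Agent.S26lib.Weil Fermat.Agent.S26lib.Aff
  Fermat.Agent.S26lib.CechRR Fermat.Agent.S26lib.CurvePlace Fermat.Agent.S25lib.Mod
  Fermat.Agent.S25lib.Curve

variable {k : Type u} [Field k] [IsAlgClosed k] {C : Scheme.{u}}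
  (c : C ⟶ Spec (CommRingCat.of k)) [IsProper c] [SmoothOfRelativeDimension 1 c] [IsIntegral C]
  {K : Type u} [Field K] [IsAlgClosed K] (t : Spec (CommRingCat.of K) ⟶ Spec (CommRingCat.of k))
  {ε' : Prod.KPt c} (chart : PointChart c ε'.pt)

/-- the cocycle of `O(e'_K)` on `C_K` -/
def ptCocycleK : Cocycle (pullback c t) (ULift.{u} Bool) :=
  (Hub.opCocycle chart).pull (pullback.fst c t)

omit [IsAlgClosed k] [IsProper c] [SmoothOfRelativeDimension 1 c] [IsIntegral C] [IsAlgClosed K] in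
theorem mem_ptCocycleK_false_iff (y : ↥(pullback c t)) :
    y ∈ (ptCocycleK c t chart).U ⟨false⟩ ↔ y ≠ (ptK c t ε').pt := by
  show (pullback.fst c t) y ∈ chart.U₁ ↔ _
  rw [chart.mem₁_iff, Ne, fst_eq_iff c t ε']

omit [IsAlgClosed k] [IsProper c] [SmoothOfRelativeDimension 1 c] [IsIntegral C] [IsAlgClosed K] in
theorem ptK_mem_ptCocycleK_true : (ptK c t ε').pt ∈ (ptCocycleK c t chart).U ⟨true⟩ := by
  show (pullback.fst c t) (ptK c t ε').pt ∈ chart.U₂
  rw [fst_ptK_pt]
  exact chart.mem₂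

theorem generic_mem_ptCocycleK_false :
    haveI := isIntegral_pullback c t
    genericPoint ↥(pullback c t) ∈ (ptCocycleK c t chart).U ⟨false⟩ := by
  haveI := isIntegral_pullback c t
  rw [mem_ptCocycleK_false_iff]
  exact (pt_ne_genericPoint (pullback.snd c t) (ptK c t ε')).symm

theorem primeDiv_mem_ptCocycleK_false_iff
    (Q : haveI := isIntegral_pullback c t; haveI := isLocallyNoetherian (pullback.snd c t)
      PrimeDiv (pullback c t)) :
    Q.1 ∈ (ptCocycleK c t chart).U ⟨false⟩ ↔ Q ≠ PeK c t ε' := by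
  rw [mem_ptCocycleK_false_iff]
  constructor
  · rintro h rfl
    exact h rfl
  · intro h h'
    exact h (Subtype.ext h')

/-- the transition function `u ⟨false⟩ ⟨true⟩` of the cocycle is `π^♯ z` -/
theorem germFF_ptCocycleK_false_true :
    haveI := isIntegral_pullback c t
    germFF ((ptCocycleK c t chart).U ⟨false⟩ ⊓ (ptCocycleK c t chart).U ⟨true⟩)
        (⟨generic_mem_ptCocycleK_false c t chart,
          genericPoint_mem (ptK_mem_ptCocycleK_true c t chart)⟩ :
          genericPoint ↥(pullback c t) ∈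
            (ptCocycleK c t chart).U ⟨false⟩ ⊓ (ptCocycleK c t chart).U ⟨true⟩)
        ((ptCocycleK c t chart).u ⟨false⟩ ⟨true⟩) =
      germFF (ProdAff.box c t chart.U₂ ⊤) (ZChart.mem_box₂ c t ε' chart.toZChart)
        (ZChart.zK c t ε' chart.toZChart) := by
  haveI := isIntegral_pullback c t
  have h1 : (ptCocycleK c t chart).u ⟨false⟩ ⟨true⟩ =
      resO (preimage_mono (pullback.fst c t) (inf_le_right : chart.U₁ ⊓ chart.U₂ ≤ chart.U₂))
        ((pullback.fst c t).app chart.U₂ chart.z) := by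
    show (pullback.fst c t).app (chart.U₁ ⊓ chart.U₂)
      (resO (inf_le_right : chart.U₁ ⊓ chart.U₂ ≤ chart.U₂) chart.z) = _
    exact app_resO _ _ _
  have h2 : ZChart.zK c t ε' chart.toZChart =
      resO (ProdAff.box_le_fst c t chart.U₂ ⊤) ((pullback.fst c t).app chart.U₂ chart.z) := rfl
  rw [h1, h2]
  have e1 := germFF_res (preimage_mono (pullback.fst c t)
      (inf_le_right : chart.U₁ ⊓ chart.U₂ ≤ chart.U₂))
    (⟨generic_mem_ptCocycleK_false c t chart,
      genericPoint_mem (ptK_mem_ptCocycleK_true c t chart)⟩ :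
      genericPoint ↥(pullback c t) ∈ (pullback.fst c t) ⁻¹ᵁ (chart.U₁ ⊓ chart.U₂))
    ((pullback.fst c t).app chart.U₂ chart.z)
  have e2 := germFF_res (ProdAff.box_le_fst c t chart.U₂ ⊤)
    (ZChart.mem_box₂ c t ε' chart.toZChart) ((pullback.fst c t).app chart.U₂ chart.z)
  exact e1.trans e2.symm

open Classical in
/-- **`D_{𝒞.twist N} = D_N + e'_K`** for the cocycle `𝒞` of the `k`-point `ε'` -/
theorem divAt_twist_ptCocycleK {N : (pullback c t).Modules}
    (G : haveI := isIntegral_pullback c t; GenericGen N) (hN : LocGen N)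
    (Q : haveI := isIntegral_pullback c t; haveI := isLocallyNoetherian (pullback.snd c t)
      PrimeDiv (pullback c t)) :
    haveI := isIntegral_pullback c t
    haveI := isLocallyNoetherian (pullback.snd c t)
    (G.twist (ptCocycleK c t chart) ⟨false⟩ (generic_mem_ptCocycleK_false c t chart)).divAt
        (hN.twist (ptCocycleK c t chart)) Q =
      G.divAt hN Q + (if Q = PeK c t ε' then 1 else 0) := by
  haveI := isIntegral_pullback c t
  haveI := isLocallyNoetherian (pullback.snd c t)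
  set 𝒞 := ptCocycleK c t chart with h𝒞
  have hη := generic_mem_ptCocycleK_false c t chart
  by_cases hQ : Q = PeK c t ε'
  · rw [if_pos hQ]
    have hk : Q.1 ∈ 𝒞.U ⟨true⟩ := by
      rw [hQ]
      exact ptK_mem_ptCocycleK_true c t chart
    rw [G.divAt_twist 𝒞 ⟨false⟩ hη hN Q ⟨true⟩ hk]
    -- the two transition functions are inverse to each other
    have hswap := 𝒞.u_mul_swap ⟨true⟩ ⟨false⟩
    have hηtf : genericPoint ↥(pullback c t) ∈ 𝒞.U ⟨true⟩ ⊓ 𝒞.U ⟨false⟩ :=
      ⟨genericPoint_mem hk, hη⟩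
    have h2 := congrArg (germFF (𝒞.U ⟨true⟩ ⊓ 𝒞.U ⟨false⟩) hηtf) hswap
    rw [map_mul, map_one] at h2
    have h3 : germFF (𝒞.U ⟨true⟩ ⊓ 𝒞.U ⟨false⟩) hηtf
        (resO (le_inf inf_le_right inf_le_left : 𝒞.U ⟨true⟩ ⊓ 𝒞.U ⟨false⟩ ≤
          𝒞.U ⟨false⟩ ⊓ 𝒞.U ⟨true⟩) (𝒞.u ⟨false⟩ ⟨true⟩)) =
        germFF (ProdAff.box c t chart.U₂ ⊤) (ZChart.mem_box₂ c t ε' chart.toZChart)
          (ZChart.zK c t ε' chart.toZChart) := by
      rw [← germFF_ptCocycleK_false_true c t chart]
      exact germFF_res _ hηtf _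
    rw [h3] at h2
    have h4 : germFF (𝒞.U ⟨true⟩ ⊓ 𝒞.U ⟨false⟩) hηtf (𝒞.u ⟨true⟩ ⟨false⟩) =
        (germFF (ProdAff.box c t chart.U₂ ⊤) (ZChart.mem_box₂ c t ε' chart.toZChart)
          (ZChart.zK c t ε' chart.toZChart))⁻¹ := eq_inv_of_mul_eq_one_left h2
    have h5 : ordAt (PeK c t ε')
        (germFF (ProdAff.box c t chart.U₂ ⊤) (ZChart.mem_box₂ c t ε' chart.toZChart)
          (ZChart.zK c t ε' chart.toZChart)) = 1 := ZChart.ordAt_zK_Pe c t ε' chart.toZChart
    rw [h4, CurvePlace.ordAt_inv, hQ, h5]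
    ring
  · rw [if_neg hQ, add_zero]
    have hk : Q.1 ∈ 𝒞.U ⟨false⟩ := (primeDiv_mem_ptCocycleK_false_iff c t chart Q).2 hQ
    rw [G.divAt_twist 𝒞 ⟨false⟩ hη hN Q ⟨false⟩ hk]
    have h1 : 𝒞.u ⟨false⟩ ⟨false⟩ = 1 := 𝒞.u_self _
    rw [h1, map_one, CurvePlace.ordAt_one, sub_zero]

end Fermat.Agent.S25lib.Polar
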