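/-
S25lib / Polar / TwistList (helper9).
**The divisor of an iterated twist by rational points** (helper7's `Hub.twistByList`), over `C_K`.

* `listDivisor fC L` : the divisor `∑_{P ∈ L} P` of a list of points (with multiplicities),
  `listDivisor_placeOf`, `degree_listDivisor`, `GenericGen.divisor_eq_add_list`;
* `IsPtCocycle 𝒞 ε'` : the based cocycle `𝒞` is `Hub.opBased chart ne` for a `PointChart` at the `k`-point `ε'`;
* **`exists_genericGen_twistByList`** : for `l`, `pts` with `List.Forall₂ IsPtCocycle l pts` and a rigidified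
  bundle `M` on `C_K`: `D_{M(l)} = D_M + ∑_{ε' ∈ pts} e'_K`;
* `degree_twistByList` : `deg D_{M(l)} = deg D_M + pts.length`.
-/
import Mathlib
import Fermat.Agent.S25lib.Polar.TwistPt

set_option autoImplicit false

noncomputable section

universe u

open AlgebraicGeometry CategoryTheory CategoryTheory.Limits TopologicalSpace AlgebraicCurve

namespace Fermat.Agent.S25lib.Polar

open Fermat.Agent.S18lib Fermat.Agent.S26lib Fermat.Agent.S26lib.Weil Fermat.Agent.S26lib.Aff
  Fermat.Agent.S26lib.CechRR Fermat.Agent.S26lib.CurvePlace Fermat.Agent.S25lib.Mod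
  Fermat.Agent.S25lib.Curve

section General

variable {K : Type u} [Field K] {Y : Scheme.{u}} [IsIntegral Y] [IsLocallyNoetherian Y]
  (fC : Y ⟶ Spec (CommRingCat.of K)) [IsSeparated fC] [UniversallyClosed fC] [QuasiCompact fC]
  (hreg : ∀ c : Y, c = genericPoint Y ∨ IsDiscreteValuationRing (Y.presheaf.stalk c))

/-- the divisor `∑_{P ∈ L} P` of a list of points -/
def listDivisor (L : List (PrimeDiv Y)) : letI := kAlgebraFF fC; Divisor K Y.functionField :=
  letI := kAlgebraFF fC
  (L.map fun P => (Finsupp.single (placeOf fC P) (1 : ℤ) : Divisor K Y.functionField)).sum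

omit [QuasiCompact fC] in
open Classical in
theorem listDivisor_placeOf (L : List (PrimeDiv Y)) (Q : PrimeDiv Y) :
    listDivisor fC L (placeOf fC Q) = L.count Q := by
  let _ := kAlgebraFF fC
  induction L with
  | nil => simp [listDivisor]
  | cons P L ih =>
    have h1 : listDivisor fC (P :: L) =
        Finsupp.single (placeOf fC P) (1 : ℤ) + listDivisor fC L := by
      unfold listDivisor
      rw [List.map_cons, List.sum_cons]
    rw [h1, Finsupp.add_apply, ih, List.count_cons]
    by_cases hPQ : P = Q
    · subst hPQ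
      simp
      ring
    · have h2 : placeOf fC Q ≠ placeOf fC P := fun h => hPQ (placeOf_injective fC h).symm
      rw [Finsupp.single_eq_of_ne h2]
      simp [hPQ]

omit [IsSeparated fC] [QuasiCompact fC] in
theorem degree_listDivisor {γ : ℕ}
    (hF : letI := kAlgebraFF fC; IsCurveOfGenus K Y.functionField γ) (L : List (PrimeDiv Y)) :
    letI := kAlgebraFF fC
    Divisor.degree (listDivisor fC L) = L.length := by
  let _ := kAlgebraFF fC
  induction L with
  | nil => simp [listDivisor]
  | cons P L ih =>
    have h1 : listDivisor fC (P :: L) =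
        Finsupp.single (placeOf fC P) (1 : ℤ) + listDivisor fC L := by
      unfold listDivisor
      rw [List.map_cons, List.sum_cons]
    rw [h1, map_add, ih, Divisor.degree_single, hF.deg_eq_one]
    simp
    ring

open Classical in
/-- if the multiplicities of `N` are those of `M` plus the multiplicities of the list `L`, then
`D_N = D_M + ∑_{P ∈ L} P` -/
theorem GenericGen.divisor_eq_add_list {M N : Y.Modules} (G : GenericGen M) (hM : LocGen M)
    (GN : GenericGen N) (hN : LocGen N) (L : List (PrimeDiv Y))
    (h : ∀ Q, GN.divAt hN Q = G.divAt hM Q + L.count Q) :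
    letI := kAlgebraFF fC
    GN.divisor fC hreg hN = G.divisor fC hreg hM + listDivisor fC L := by
  let _ := kAlgebraFF fC
  ext v
  obtain ⟨P, rfl⟩ := placeOf_surjective fC hreg v
  rw [Finsupp.add_apply, GN.divisor_placeOf fC hreg hN P, G.divisor_placeOf fC hreg hM P,
    listDivisor_placeOf, h]

end General

section CK

variable {k : Type u} [Field k] [IsAlgClosed k] {C : Scheme.{u}}
  (c : C ⟶ Spec (CommRingCat.of k)) [IsProper c] [SmoothOfRelativeDimension 1 c] [IsIntegral C]
  (ε : Prod.KPt c)
  {K : Type u} [Field K] [IsAlgClosed K] (t : Spec (CommRingCat.of K) ⟶ Spec (CommRingCat.of k))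

/-- the based cocycle `𝒞` is the cocycle of `O(ε')` of a `PointChart` at the `k`-point `ε'` -/
def IsPtCocycle (𝒞 : Hub.BasedCocycle c ε (ULift.{u} Bool)) (ε' : Prod.KPt c) : Prop :=
  ∃ (P : C) (chart : PointChart c P) (ne : ∀ y : Spec (CommRingCat.of k), ε.1.base y ≠ P),
    ε'.pt = P ∧ 𝒞 = Hub.opBased chart ne

open Classical in
/-- **the divisor of an iterated twist by rational points**: `D_{M(l)} = D_M + ∑_{ε' ∈ pts} e'_K` -/
theorem exists_genericGen_twistByList {l : List (Hub.BasedCocycle c ε (ULift.{u} Bool))}
    {pts : List (Prod.KPt c)} (h : List.Forall₂ (IsPtCocycle c ε) l pts) (M : RLB c ε t)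
    (G : haveI := isIntegral_pullback c t; GenericGen M.L) :
    haveI := isIntegral_pullback c t
    haveI := isLocallyNoetherian (pullback.snd c t)
    ∃ G' : GenericGen (Hub.twistByList l M).L, ∀ Q : PrimeDiv (pullback c t),
      G'.divAt (locGen_of_isInvertible (Hub.twistByList l M).isInvertible) Q =
        G.divAt (locGen_of_isInvertible M.isInvertible) Q + (pts.map (PeK c t)).count Q := by
  haveI := isIntegral_pullback c t
  haveI := isLocallyNoetherian (pullback.snd c t)
  induction h with
  | nil => exact ⟨G, fun Q => by simp [Hub.twistByList_nil]⟩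
  | @cons 𝒞 ε' l pts h₁ h₂ ih =>
    obtain ⟨G', hG'⟩ := ih
    obtain ⟨P, chart, ne, rfl, rfl⟩ := h₁
    refine ⟨(G'.twist (ptCocycleK c t chart) ⟨false⟩ (generic_mem_ptCocycleK_false c t chart) :
      GenericGen ((ptCocycleK c t chart).twist (Hub.twistByList l M).L)), ?_⟩
    intro Q
    have h3 := divAt_twist_ptCocycleK c t chart G'
      (locGen_of_isInvertible (Hub.twistByList l M).isInvertible) Q
    rw [List.map_cons, List.count_cons]
    refine h3.trans ?_
    rw [hG' Q]
    by_cases hQ : Q = PeK c t ε'
    · subst hQ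
      simp
      ring
    · have hQ' : ¬ PeK c t ε' = Q := fun h => hQ h.symm
      simp [hQ, hQ']

end CK

end Fermat.Agent.S25lib.Polar
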