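/-
S25lib / Polar / TwistDiv (helper9).
**The divisor of a twist** `c.twist N` (helper7's `Mod/Twist*`) of a locally generated module by a cocycle,
in the language of `Polar/Dict`:

* `G.twist c j₀ hj₀ : GenericGen (c.twist N)` (generic generator `tgen j₀ s₀`);
* `coordFF_twist_tgen` : `coordFF (tgen k s) = coordFF s * u k j₀`;
* **`divAt_twist`** : `D_{c.twist N}(P) = D_N(P) - ord_P (u k j₀)` for any `k` with `P ∈ U k`;
* for the cocycle `Cocycle.ofUnit` of a unit on `U₁ ⊓ U₂` and for the point cocycle `T.cocycle` of a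
  `TwoChart`: **`divAt_twist_cocycle : D_{𝒞_e.twist N} = D_N + e`**.
-/
import Mathlib
import Fermat.Agent.S25lib.Polar.DictCurve
import Fermat.Agent.S25lib.Mod.TwistGen
import Fermat.Agent.S25lib.Mod.TwoOpen
import Fermat.Agent.S25lib.Mod.TwistInv

set_option autoImplicit false

noncomputable section

universe u

open AlgebraicGeometry CategoryTheory TopologicalSpace

namespace Fermat.Agent.S25lib.Polar

open Fermat.Agent.S26lib Fermat.Agent.S26lib.Weil Fermat.Agent.S26lib.Aff Fermat.Agent.S25lib.Mod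

variable {Y : Scheme.{u}} [IsIntegral Y] {N : Y.Modules}

namespace GenericGen

variable (G : GenericGen N) {ι : Type u} (c : Cocycle Y ι) (j₀ : ι) (hj₀ : genericPoint Y ∈ c.U j₀)

/-- the generic generator of a twist -/
def twist : GenericGen (c.twist N) where
  U₀ := G.U₀ ⊓ c.U j₀
  mem := ⟨G.mem, hj₀⟩
  s₀ := c.tgen N j₀ G.s₀
  gen := c.isGen_tgen N j₀ G.gen

/-- the coordinate of the generator `tgen k s` of the twist -/
theorem coordFF_twist_tgen {W : Y.Opens} (k : ι) (s : Γ(N, W)) (hW : genericPoint Y ∈ W)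
    (hk : genericPoint Y ∈ c.U k) :
    (G.twist c j₀ hj₀).coordFF (⟨hW, hk⟩ : genericPoint Y ∈ W ⊓ c.U k) (c.tgen N k s) =
      G.coordFF hW s * germFF (c.U k ⊓ c.U j₀) (⟨hk, hj₀⟩ : genericPoint Y ∈ c.U k ⊓ c.U j₀)
        (c.u k j₀) := by
  set ρ := G.gen.coord (inf_le_right : W ⊓ G.U₀ ≤ G.U₀)
    (Mod.res N (inf_le_left : W ⊓ G.U₀ ≤ W) s) with hρ
  have hρs : Mod.res N (inf_le_left : W ⊓ G.U₀ ≤ W) s =
      ρ • Mod.res N (inf_le_right : W ⊓ G.U₀ ≤ G.U₀) G.s₀ := (G.gen.coord_smul _ _).symm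
  have hO : genericPoint Y ∈ (W ⊓ c.U k) ⊓ (G.U₀ ⊓ c.U j₀) := ⟨⟨hW, hk⟩, ⟨G.mem, hj₀⟩⟩
  have h1 := c.res_tgen N k j₀ s G.s₀ ρ hρs
  have h2 : (G.twist c j₀ hj₀).coordFF (⟨hW, hk⟩ : genericPoint Y ∈ W ⊓ c.U k) (c.tgen N k s) =
      germFF ((W ⊓ c.U k) ⊓ (G.U₀ ⊓ c.U j₀)) hO
        (resO (le_inf (inf_le_left.trans inf_le_left) (inf_le_right.trans inf_le_left) :
            (W ⊓ c.U k) ⊓ (G.U₀ ⊓ c.U j₀) ≤ W ⊓ G.U₀) ρ *
          resO (le_inf (inf_le_left.trans inf_le_right) (inf_le_right.trans inf_le_right) :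
            (W ⊓ c.U k) ⊓ (G.U₀ ⊓ c.U j₀) ≤ c.U k ⊓ c.U j₀) (c.u k j₀)) :=
    (G.twist c j₀ hj₀).coordFF_eq_of_res (⟨hW, hk⟩ : genericPoint Y ∈ W ⊓ c.U k) (c.tgen N k s)
      inf_le_left inf_le_right hO _ h1
  rw [h2, map_mul]
  congr 1
  · exact germFF_res _ hO ρ
  · exact germFF_res _ hO (c.u k j₀)

variable [IsLocallyNoetherian Y]

/-- **the divisor of a twist**: `D_{c.twist N}(P) = D_N(P) - ord_P (u k j₀)` for any index `k` with
`P ∈ U k` -/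
theorem divAt_twist (hN : LocGen N) (P : PrimeDiv Y) (k : ι) (hk : P.1 ∈ c.U k) :
    (G.twist c j₀ hj₀).divAt (hN.twist c) P =
      G.divAt hN P - ordAt P (germFF (c.U k ⊓ c.U j₀)
        (⟨genericPoint_mem hk, hj₀⟩ : genericPoint Y ∈ c.U k ⊓ c.U j₀) (c.u k j₀)) := by
  obtain ⟨W, hPW, s, hs⟩ := hN P.1
  have hgen := c.isGen_tgen N k hs
  have hPWk : P.1 ∈ W ⊓ c.U k := ⟨hPW, hk⟩
  have h1 := (G.twist c j₀ hj₀).ordAt_coordFF_gen (hN.twist c) hgen P hPWk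
  have h2 := G.coordFF_twist_tgen c j₀ hj₀ k s (genericPoint_mem hPW) (genericPoint_mem hk)
  have hu0 : germFF (c.U k ⊓ c.U j₀)
      (⟨genericPoint_mem hk, hj₀⟩ : genericPoint Y ∈ c.U k ⊓ c.U j₀) (c.u k j₀) ≠ 0 := by
    intro h0
    have := (G.twist c j₀ hj₀).coordFF_gen_ne_zero hgen (genericPoint_mem hPWk)
    apply this
    rw [show (G.twist c j₀ hj₀).coordFF (genericPoint_mem hPWk) (c.tgen N k s) = _ from h2, h0,
      mul_zero]
  have h3 : ordAt P ((G.twist c j₀ hj₀).coordFF (genericPoint_mem hPWk) (c.tgen N k s)) =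
      ordAt P (G.coordFF (genericPoint_mem hPW) s) + ordAt P (germFF (c.U k ⊓ c.U j₀)
        (⟨genericPoint_mem hk, hj₀⟩ : genericPoint Y ∈ c.U k ⊓ c.U j₀) (c.u k j₀)) := by
    rw [show (G.twist c j₀ hj₀).coordFF (genericPoint_mem hPWk) (c.tgen N k s) = _ from h2]
    exact ordAt_mul P (G.coordFF_gen_ne_zero hs _) hu0
  have h4 := G.ordAt_coordFF_gen hN hs P hPW
  omega

/-- **the divisor of the twist by the inverse cocycle**: `D_{c⁻¹.twist N}(P) = D_N(P) + ord_P (u k j₀)` -/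
theorem divAt_twist_inv (hN : LocGen N) (P : PrimeDiv Y) (k : ι) (hk : P.1 ∈ c.U k) :
    (G.twist c.inv j₀ hj₀).divAt (hN.twist c.inv) P =
      G.divAt hN P + ordAt P (germFF (c.U k ⊓ c.U j₀)
        (⟨genericPoint_mem hk, hj₀⟩ : genericPoint Y ∈ c.U k ⊓ c.U j₀) (c.u k j₀)) := by
  have hη : genericPoint Y ∈ c.U k ⊓ c.U j₀ := ⟨genericPoint_mem hk, hj₀⟩
  rw [G.divAt_twist c.inv j₀ hj₀ hN P k hk]
  have h1 : germFF (c.inv.U k ⊓ c.inv.U j₀)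
      (⟨genericPoint_mem hk, hj₀⟩ : genericPoint Y ∈ c.inv.U k ⊓ c.inv.U j₀) (c.inv.u k j₀) =
      (germFF (c.U k ⊓ c.U j₀) hη (c.u k j₀))⁻¹ := by
    have h2 := congrArg (germFF (c.U k ⊓ c.U j₀) hη) (c.u_mul_swap k j₀)
    rw [map_mul, map_one] at h2
    exact eq_inv_of_mul_eq_one_right h2
  rw [h1, CurvePlace.ordAt_inv]
  ring

end GenericGen

/-! ### the cocycle of a point -/

section Point

variable [IsLocallyNoetherian Y]
  (hreg : ∀ c : Y, c = genericPoint Y ∨ IsDiscreteValuationRing (Y.presheaf.stalk c))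
  (T : TwoChart Y)

theorem TwoChart.sup_eq : T.U₁ ⊔ T.U₂ = ⊤ := by
  rw [eq_top_iff]
  intro y _
  by_cases hy : y = T.e.1
  · exact Or.inr (hy ▸ T.mem₂)
  · exact Or.inl ((T.mem₁_iff y).2 hy)

/-- **the cocycle `𝒞_e` of the point `e`** (`O(e)`): `gen₁ = z • gen₂` on `U₁ ⊓ U₂` -/
def TwoChart.cocycle : Cocycle Y (ULift.{u} Bool) :=
  Cocycle.ofUnit T.sup_eq ((T.unit hreg : (Γ(Y, T.U₁ ⊓ T.U₂))ˣ) : Γ(Y, T.U₁ ⊓ T.U₂))
    (((T.unit hreg)⁻¹ : (Γ(Y, T.U₁ ⊓ T.U₂))ˣ) : Γ(Y, T.U₁ ⊓ T.U₂)) (Units.mul_inv _)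

theorem TwoChart.cocycle_U_false : (T.cocycle hreg).U ⟨false⟩ = T.U₁ := rfl

theorem TwoChart.cocycle_U_true : (T.cocycle hreg).U ⟨true⟩ = T.U₂ := rfl

open Classical in
/-- **`D_{𝒞_e.twist N} = D_N + e`** -/
theorem GenericGen.divAt_twist_cocycle (G : GenericGen N) (hN : LocGen N) (P : PrimeDiv Y) :
    (G.twist (T.cocycle hreg) ⟨false⟩ T.generic_mem₁).divAt (hN.twist (T.cocycle hreg)) P =
      G.divAt hN P + (if P = T.e then 1 else 0) := by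
  by_cases hPe : P = T.e
  · rw [if_pos hPe]
    have hk : P.1 ∈ (T.cocycle hreg).U ⟨true⟩ := by
      rw [hPe]
      exact T.mem₂
    rw [G.divAt_twist (T.cocycle hreg) ⟨false⟩ T.generic_mem₁ hN P ⟨true⟩ hk]
    have h1 : germFF ((T.cocycle hreg).U ⟨true⟩ ⊓ (T.cocycle hreg).U ⟨false⟩)
        (⟨genericPoint_mem hk, T.generic_mem₁⟩ :
          genericPoint Y ∈ (T.cocycle hreg).U ⟨true⟩ ⊓ (T.cocycle hreg).U ⟨false⟩)
        ((T.cocycle hreg).u ⟨true⟩ ⟨false⟩) = T.ζ ^ (-1 : ℤ) := by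
      have h2 := T.germFF_unit_zpow hreg (-1)
      rw [zpow_neg_one] at h2
      rw [← h2]
      exact germFF_res (le_inf inf_le_right inf_le_left : T.U₂ ⊓ T.U₁ ≤ T.U₁ ⊓ T.U₂)
        (⟨T.generic_mem₂, T.generic_mem₁⟩ : genericPoint Y ∈ T.U₂ ⊓ T.U₁) _
    rw [h1, CurvePlace.ordAt_zpow, hPe, show T.ζ = germFF T.U₂ T.mem₂ T.z from rfl, T.ord_e]
    ring
  · rw [if_neg hPe, add_zero]
    have hk : P.1 ∈ (T.cocycle hreg).U ⟨false⟩ :=
      (T.mem₁_iff P.1).2 fun h => hPe (Subtype.ext h)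
    rw [G.divAt_twist (T.cocycle hreg) ⟨false⟩ T.generic_mem₁ hN P ⟨false⟩ hk]
    have h1 : (T.cocycle hreg).u ⟨false⟩ ⟨false⟩ = 1 := (T.cocycle hreg).u_self _
    rw [h1, map_one, CurvePlace.ordAt_one, sub_zero]

open Classical in
/-- **`D_{𝒞_e⁻¹.twist N} = D_N - e`** -/
theorem GenericGen.divAt_twist_cocycle_inv (G : GenericGen N) (hN : LocGen N) (P : PrimeDiv Y) :
    (G.twist (T.cocycle hreg).inv ⟨false⟩ T.generic_mem₁).divAt (hN.twist (T.cocycle hreg).inv) P =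
      G.divAt hN P - (if P = T.e then 1 else 0) := by
  by_cases hPe : P = T.e
  · rw [if_pos hPe]
    have hk : P.1 ∈ (T.cocycle hreg).U ⟨true⟩ := by
      rw [hPe]
      exact T.mem₂
    rw [G.divAt_twist_inv (T.cocycle hreg) ⟨false⟩ T.generic_mem₁ hN P ⟨true⟩ hk]
    have h1 : germFF ((T.cocycle hreg).U ⟨true⟩ ⊓ (T.cocycle hreg).U ⟨false⟩)
        (⟨genericPoint_mem hk, T.generic_mem₁⟩ :
          genericPoint Y ∈ (T.cocycle hreg).U ⟨true⟩ ⊓ (T.cocycle hreg).U ⟨false⟩)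
        ((T.cocycle hreg).u ⟨true⟩ ⟨false⟩) = T.ζ ^ (-1 : ℤ) := by
      have h2 := T.germFF_unit_zpow hreg (-1)
      rw [zpow_neg_one] at h2
      rw [← h2]
      exact germFF_res (le_inf inf_le_right inf_le_left : T.U₂ ⊓ T.U₁ ≤ T.U₁ ⊓ T.U₂)
        (⟨T.generic_mem₂, T.generic_mem₁⟩ : genericPoint Y ∈ T.U₂ ⊓ T.U₁) _
    rw [h1, CurvePlace.ordAt_zpow, hPe, show T.ζ = germFF T.U₂ T.mem₂ T.z from rfl, T.ord_e]
    ring
  · rw [if_neg hPe, sub_zero]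
    have hk : P.1 ∈ (T.cocycle hreg).U ⟨false⟩ :=
      (T.mem₁_iff P.1).2 fun h => hPe (Subtype.ext h)
    rw [G.divAt_twist_inv (T.cocycle hreg) ⟨false⟩ T.generic_mem₁ hN P ⟨false⟩ hk]
    have h1 : (T.cocycle hreg).u ⟨false⟩ ⟨false⟩ = 1 := (T.cocycle hreg).u_self _
    rw [h1, map_one, CurvePlace.ordAt_one, add_zero]

end Point

end Fermat.Agent.S25lib.Polar
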