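/-
S25lib / Polar / DegIso (helper9).
**The degree of an invertible module on a curve is well defined**:

* `GenericGen.coordFF_change` : change of the generic generator multiplies the coordinates by a rational function;
* `GenericGen.divAt_change` : `D_{G₂} = D_{G₁} - div h`;
* `GenericGen.map e G` : transport of a generic generator along an isomorphism, `divAt_map`;
* **`degree_divisor_eq_of_iso`** : `N ≅ N'` implies `deg D_G = deg D_{G'}` for any generic generators;
* `degOf fC hreg N : ℤ` (the degree, `0` if `N` is not locally generated), `degOf_eq`, `degOf_congr`,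
  `degOf_unit`.
-/
import Mathlib
import Fermat.Agent.S25lib.Polar.DictCurve
import Fermat.Agent.S25lib.Mod.Triv

set_option autoImplicit false

noncomputable section

universe u

open AlgebraicGeometry CategoryTheory TopologicalSpace AlgebraicCurve

namespace Fermat.Agent.S25lib.Polar

open Fermat.Agent.S18lib Fermat.Agent.S26lib Fermat.Agent.S26lib.Weil Fermat.Agent.S26lib.Aff
  Fermat.Agent.S26lib.CechRR Fermat.Agent.S26lib.CurvePlace Fermat.Agent.S25lib.Mod

/-- a locally generated module on an integral scheme has a generic generator -/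
theorem nonempty_genericGen {Y : Scheme.{u}} [IsIntegral Y] {N : Y.Modules} (hN : LocGen N) :
    Nonempty (GenericGen N) := by
  obtain ⟨U, hU, s, hs⟩ := hN (genericPoint Y)
  exact ⟨⟨U, hU, s, hs⟩⟩

section Change

variable {Y : Scheme.{u}} [IsIntegral Y] {N : Y.Modules}

/-- **change of the generic generator** -/
theorem GenericGen.coordFF_change (G₁ G₂ : GenericGen N) {V : Y.Opens}
    (hV : genericPoint Y ∈ V) (σ : Γ(N, V)) :
    G₂.coordFF hV σ = G₁.coordFF hV σ * G₂.coordFF G₁.mem G₁.s₀ := by
  have hW : genericPoint Y ∈ V ⊓ G₁.U₀ := ⟨hV, G₁.mem⟩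
  have e1 : G₁.gen.coord (inf_le_right : V ⊓ G₁.U₀ ≤ G₁.U₀) (Mod.res N inf_le_left σ) •
      Mod.res N inf_le_right G₁.s₀ = Mod.res N (inf_le_left : V ⊓ G₁.U₀ ≤ V) σ :=
    G₁.gen.coord_smul _ _
  rw [← G₂.coordFF_res hV hW inf_le_left σ, ← e1, G₂.coordFF_smul,
    G₂.coordFF_res G₁.mem hW inf_le_right G₁.s₀]
  rfl

/-- transport of a generic generator along an isomorphism -/
def GenericGen.map {N' : Y.Modules} (e : N ≅ N') (G : GenericGen N) : GenericGen N' where
  U₀ := G.U₀
  mem := G.mem
  s₀ := e.hom.app G.U₀ G.s₀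
  gen := G.gen.map_iso e

theorem GenericGen.coordFF_map {N' : Y.Modules} (e : N ≅ N') (G : GenericGen N) {V : Y.Opens}
    (hV : genericPoint Y ∈ V) (σ : Γ(N, V)) :
    (G.map e).coordFF hV (e.hom.app V σ) = G.coordFF hV σ := by
  have hW : genericPoint Y ∈ V ⊓ G.U₀ := ⟨hV, G.mem⟩
  refine (G.map e).coordFF_eq_of_res hV _ inf_le_left inf_le_right hW
    (G.gen.coord (inf_le_right : V ⊓ G.U₀ ≤ G.U₀) (Mod.res N inf_le_left σ)) ?_
  show Mod.res N' _ (e.hom.app V σ) = _ • Mod.res N' _ (e.hom.app G.U₀ G.s₀)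
  rw [← Mod.app_res, ← Mod.app_res, ← Scheme.Modules.Hom.app_smul, G.gen.coord_smul]

variable [IsLocallyNoetherian Y]

/-- **`D_{G₂} = D_{G₁} - div h`**, `h` the coordinate of the first generator in the second -/
theorem GenericGen.divAt_change (G₁ G₂ : GenericGen N) (hN : LocGen N) (P : PrimeDiv Y) :
    G₂.divAt hN P = G₁.divAt hN P - ordAt P (G₂.coordFF G₁.mem G₁.s₀) := by
  obtain ⟨U, hPU, s, hs⟩ := hN P.1
  have h1 := G₁.ordAt_coordFF_gen hN hs P hPU
  have h2 := G₂.ordAt_coordFF_gen hN hs P hPU
  rw [G₁.coordFF_change G₂ (genericPoint_mem hPU) s,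
    ordAt_mul P (G₁.coordFF_gen_ne_zero hs _) (G₂.coordFF_gen_ne_zero G₁.gen G₁.mem)] at h2
  omega

theorem GenericGen.divAt_map {N' : Y.Modules} (e : N ≅ N') (G : GenericGen N) (hN : LocGen N)
    (hN' : LocGen N') (P : PrimeDiv Y) : (G.map e).divAt hN' P = G.divAt hN P := by
  obtain ⟨U, hPU, s, hs⟩ := hN P.1
  have h1 := G.ordAt_coordFF_gen hN hs P hPU
  have h2 := (G.map e).ordAt_coordFF_gen hN' (hs.map_iso e) P hPU
  rw [G.coordFF_map e (genericPoint_mem hPU) s] at h2
  omega

end Change

section Degree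

variable {K : Type u} [Field K] {Y : Scheme.{u}} [IsIntegral Y] [IsLocallyNoetherian Y]
  (fC : Y ⟶ Spec (CommRingCat.of K)) [IsSeparated fC] [UniversallyClosed fC] [QuasiCompact fC]
  (hreg : ∀ c : Y, c = genericPoint Y ∨ IsDiscreteValuationRing (Y.presheaf.stalk c))
  {γ : ℕ} (hF : letI := kAlgebraFF fC; IsCurveOfGenus K Y.functionField γ)

include hF in
/-- the degree does not depend on the generic generator -/
theorem GenericGen.degree_divisor_change {N : Y.Modules} (G₁ G₂ : GenericGen N) (hN : LocGen N) :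
    letI := kAlgebraFF fC
    Divisor.degree (G₂.divisor fC hreg hN) = Divisor.degree (G₁.divisor fC hreg hN) := by
  let _ := kAlgebraFF fC
  haveI := hF.hasPrincipalDivisors
  have h0 : G₂.coordFF G₁.mem G₁.s₀ ≠ 0 := G₂.coordFF_gen_ne_zero G₁.gen G₁.mem
  obtain ⟨Df, hDf, hDf0⟩ := HasPrincipalDivisors.exists_divisor (K := K) _ h0
  have h1 : G₂.divisor fC hreg hN = G₁.divisor fC hreg hN - Df := by
    ext v
    obtain ⟨P, rfl⟩ := placeOf_surjective fC hreg v
    rw [Finsupp.sub_apply, G₂.divisor_placeOf fC hreg hN P, G₁.divisor_placeOf fC hreg hN P,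
      hDf, ord_placeOf, G₁.divAt_change G₂ hN P]
  rw [h1, map_sub, hDf0, sub_zero]

include hF in
/-- **the degree is invariant under isomorphisms** -/
theorem degree_divisor_eq_of_iso {N N' : Y.Modules} (e : N ≅ N') (G : GenericGen N)
    (G' : GenericGen N') (hN : LocGen N) (hN' : LocGen N') :
    letI := kAlgebraFF fC
    Divisor.degree (G'.divisor fC hreg hN') = Divisor.degree (G.divisor fC hreg hN) := by
  let _ := kAlgebraFF fC
  rw [(G.map e).degree_divisor_change fC hreg hF G' hN']
  congr 1
  ext v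
  obtain ⟨P, rfl⟩ := placeOf_surjective fC hreg v
  rw [(G.map e).divisor_placeOf fC hreg hN' P, G.divisor_placeOf fC hreg hN P,
    G.divAt_map e hN hN' P]

open Classical in
/-- **the degree of a locally generated module** (`0` if the module is not locally generated) -/
def degOf (N : Y.Modules) : ℤ :=
  letI := kAlgebraFF fC
  if h : LocGen N then
    Divisor.degree ((Classical.choice (nonempty_genericGen h)).divisor fC hreg h)
  else 0

include hF in
theorem degOf_eq {N : Y.Modules} (G : GenericGen N) (hN : LocGen N) :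
    letI := kAlgebraFF fC
    degOf fC hreg N = Divisor.degree (G.divisor fC hreg hN) := by
  let _ := kAlgebraFF fC
  unfold degOf
  rw [dif_pos hN]
  exact G.degree_divisor_change fC hreg hF _ hN

include hF in
theorem degOf_congr {N N' : Y.Modules} (e : N ≅ N') (hN : LocGen N) :
    degOf fC hreg N' = degOf fC hreg N := by
  let _ := kAlgebraFF fC
  have hN' : LocGen N' := fun x => by
    obtain ⟨U, hU, s, hs⟩ := hN x
    exact ⟨U, hU, _, hs.map_iso e⟩
  obtain ⟨G⟩ := nonempty_genericGen hN
  obtain ⟨G'⟩ := nonempty_genericGen hN'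
  rw [degOf_eq fC hreg hF G hN, degOf_eq fC hreg hF G' hN']
  exact degree_divisor_eq_of_iso fC hreg hF e G G' hN hN'

/-- the generic generator `1` of the structure sheaf -/
def genericGenUnit : GenericGen (unitM Y) where
  U₀ := ⊤
  mem := trivial
  s₀ := oneU ⊤
  gen := isGen_oneU ⊤

theorem locGen_unitM : LocGen (unitM Y) := fun _ => ⟨⊤, trivial, oneU ⊤, isGen_oneU ⊤⟩

include hF in
/-- the structure sheaf has degree `0` -/
theorem degOf_unit : degOf fC hreg (unitM Y) = 0 := by
  let _ := kAlgebraFF fC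
  rw [degOf_eq fC hreg hF genericGenUnit locGen_unitM]
  have h0 : genericGenUnit.divisor fC hreg locGen_unitM = (0 : Divisor K Y.functionField) := by
    ext v
    obtain ⟨P, rfl⟩ := placeOf_surjective fC hreg v
    rw [genericGenUnit.divisor_placeOf fC hreg locGen_unitM P]
    exact genericGenUnit.divAt_eq_zero locGen_unitM P trivial
  rw [h0, map_zero]

end Degree

end Fermat.Agent.S25lib.Polar
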