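/-
S25lib / Polar / LayerFields (helper9).
**The fields `degG` (K3) and `coverE` (COVER) of helper7's `Hub.KBLayer`**, reduced to

* `PDeg c` : (P-Deg) a bundle on `C_K` (`K ⊇ k` algebraically closed) which is algebraically equivalent to
  zero has degree `0`;
* `UniformGenus c γ` : every `C_K` has genus `γ`.

Results (`l`, `pts` with `List.Forall₂ (IsPtCocycle c ε) l pts`):
* `isAlgEquivZero_of_inP` : over a field, `InP M → IsAlgEquivZero (pullback.snd c t) M.L`;
* **`degG_of`** : `pts.length = γ → InP M → Hub.DegG Z t (Hub.twistByList l M).L`;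
* **`coverE_of`** : for `M M'` in the cut over `K = K̄` there is `pts` (distinct, `≠ ε`, of length `γ`) such that
  `KB` holds for `M(l)`, `M'(l)` for every `l` over `pts`.
-/
import Mathlib
import Fermat.Agent.S25lib.Polar.TwistList
import Fermat.Agent.S25lib.Polar.DegIso

set_option autoImplicit false

noncomputable section

universe u

open AlgebraicGeometry CategoryTheory CategoryTheory.Limits TopologicalSpace AlgebraicCurve
  AlgebraicGeometry.RelPicard NeronModelInfra GoodReductionJacobian

namespace Fermat.Agent.S25lib.Polar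

open Fermat.Agent.S18lib Fermat.Agent.S26lib Fermat.Agent.S26lib.Weil Fermat.Agent.S26lib.Aff
  Fermat.Agent.S26lib.CechRR Fermat.Agent.S26lib.CurvePlace Fermat.Agent.S25lib.Mod
  Fermat.Agent.S25lib.Curve

section Defs

variable {k : Type u} [Field k] [IsAlgClosed k] {C : Scheme.{u}}
  (c : C ⟶ Spec (CommRingCat.of k)) [IsProper c] [SmoothOfRelativeDimension 1 c] [IsIntegral C]

/-- **(P-Deg)**: over an algebraically closed field `K ⊇ k`, an invertible module on `C_K` which is
algebraically equivalent to zero has degree `0` -/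
def PDeg : Prop :=
  ∀ (K : Type u) [Field K] [IsAlgClosed K]
    (t : Spec (CommRingCat.of K) ⟶ Spec (CommRingCat.of k)) (N : (pullback c t).Modules)
    (hN : Scheme.Modules.IsInvertible N), IsAlgEquivZero (pullback.snd c t) N →
    haveI := isIntegral_pullback c t
    haveI := isLocallyNoetherian (pullback.snd c t)
    letI := kAlgebraFF (pullback.snd c t)
    ∀ G : GenericGen N, Divisor.degree (G.divisor (pullback.snd c t) (hreg (pullback.snd c t))
      (locGen_of_isInvertible hN)) = 0

/-- every base change `C_K` (`K ⊇ k` algebraically closed) has genus `γ` -/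
def UniformGenus (γ : ℕ) : Prop :=
  ∀ (K : Type u) [Field K] [IsAlgClosed K]
    (t : Spec (CommRingCat.of K) ⟶ Spec (CommRingCat.of k)),
    haveI := isIntegral_pullback c t
    letI := kAlgebraFF (pullback.snd c t)
    IsCurveOfGenus K (pullback c t).functionField γ

end Defs

section InP

variable {k : Type u} [Field k] {C : Scheme.{u}} {c : C ⟶ Spec (CommRingCat.of k)}
  {ε : SchemeHomOver (𝟙 (Spec (CommRingCat.of k))) c}
  {K : Type u} [Field K] [IsAlgClosed K] {t : Spec (CommRingCat.of K) ⟶ Spec (CommRingCat.of k)}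

/-- over an algebraically closed field, a bundle of the cut is algebraically equivalent to zero -/
theorem isAlgEquivZero_of_inP (M : RLB c ε t) (hM : InP M) :
    IsAlgEquivZero (pullback.snd c t) M.L := by
  have h1 := hM K (𝟙 (Spec (CommRingCat.of K)))
  let e : pullback c t ⟶ pullback (pullback.snd c t) (𝟙 (Spec (CommRingCat.of K))) :=
    pullback.lift (𝟙 _) (pullback.snd c t) (by rw [Category.id_comp, Category.comp_id])
  have he : e ≫ fibreAt c t (𝟙 (Spec (CommRingCat.of K))) = pullback.snd c t :=
    pullback.lift_snd _ _ _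
  have hfst : e ≫ pullback.fst (pullback.snd c t) (𝟙 (Spec (CommRingCat.of K))) = 𝟙 _ :=
    pullback.lift_fst _ _ _
  refine IsAlgEquivZero.of_iso ?_ (h1.pullback e he)
  exact (Scheme.Modules.pullbackComp _ _).app M.L ≪≫
    (Scheme.Modules.pullbackCongr hfst).app M.L ≪≫
    (Scheme.Modules.pullbackId _).app M.L

end InP

section Fields

variable {k : Type u} [Field k] [IsAlgClosed k] {C : Scheme.{u}}
  (c : C ⟶ Spec (CommRingCat.of k)) [IsProper c] [SmoothOfRelativeDimension 1 c] [IsIntegral C]
  (ε : Prod.KPt c) (Z : ZChart ε.pt) {γ : ℕ}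

open Classical in
/-- the degree of an iterated twist by rational points -/
theorem exists_genericGen_twistByList_degree
    {K : Type u} [Field K] [IsAlgClosed K] (t : Spec (CommRingCat.of K) ⟶ Spec (CommRingCat.of k))
    (hF : haveI := isIntegral_pullback c t; letI := kAlgebraFF (pullback.snd c t)
      IsCurveOfGenus K (pullback c t).functionField γ)
    {l : List (Hub.BasedCocycle c ε (ULift.{u} Bool))}
    {pts : List (Prod.KPt c)} (h : List.Forall₂ (IsPtCocycle c ε) l pts) (M : RLB c ε t)
    (G : haveI := isIntegral_pullback c t; GenericGen M.L) :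
    haveI := isIntegral_pullback c t
    haveI := isLocallyNoetherian (pullback.snd c t)
    letI := kAlgebraFF (pullback.snd c t)
    ∃ G' : GenericGen (Hub.twistByList l M).L,
      (∀ Q : PrimeDiv (pullback c t),
        G'.divAt (locGen_of_isInvertible (Hub.twistByList l M).isInvertible) Q =
          G.divAt (locGen_of_isInvertible M.isInvertible) Q + (pts.map (PeK c t)).count Q) ∧
      Divisor.degree (G'.divisor (pullback.snd c t) (hreg (pullback.snd c t))
          (locGen_of_isInvertible (Hub.twistByList l M).isInvertible)) =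
        Divisor.degree (G.divisor (pullback.snd c t) (hreg (pullback.snd c t))
          (locGen_of_isInvertible M.isInvertible)) + pts.length := by
  haveI := isIntegral_pullback c t
  haveI := isLocallyNoetherian (pullback.snd c t)
  letI := kAlgebraFF (pullback.snd c t)
  obtain ⟨G', hG'⟩ := exists_genericGen_twistByList c ε t h M G
  refine ⟨G', hG', ?_⟩
  rw [G.divisor_eq_add_list (pullback.snd c t) (hreg (pullback.snd c t))
    (locGen_of_isInvertible M.isInvertible) G'
    (locGen_of_isInvertible (Hub.twistByList l M).isInvertible) (pts.map (PeK c t)) hG',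
    map_add, degree_listDivisor (pullback.snd c t) hF, List.length_map]

/-- **(K3)**: in the cut, after a twist by `γ` rational points, `H¹(N_x(-e)) = 0` implies
`H⁰(N_x(-e)) = 0` on every geometric fibre -/
theorem degG_of (hP : PDeg c) (hγ : UniformGenus c γ)
    {l : List (Hub.BasedCocycle c ε (ULift.{u} Bool))}
    {pts : List (Prod.KPt c)} (h : List.Forall₂ (IsPtCocycle c ε) l pts) (hlen : pts.length = γ)
    {T : Scheme.{u}} (t : T ⟶ Spec (CommRingCat.of k)) (M : RLB c ε t) (hM : InP M) :
    Hub.DegG Z t (Hub.twistByList l M).L := by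
  intro K _ _ x hs
  haveI := isIntegral_pullback c (x ≫ t)
  haveI := isLocallyNoetherian (pullback.snd c (x ≫ t))
  letI := kAlgebraFF (pullback.snd c (x ≫ t))
  let ψ : SchemeHomOver (x ≫ t) t := ⟨x, rfl⟩
  have hM' : InP (M.pullbackAlong ψ) := FibrewiseAlgEquivZero.pullback ψ hM
  obtain ⟨e1⟩ := Hub.twistByList_pullbackAlong l ψ M
  obtain ⟨G⟩ := nonempty_genericGen (locGen_of_isInvertible (M.pullbackAlong ψ).isInvertible)
  have hdeg0 := hP K (x ≫ t) (M.pullbackAlong ψ).L (M.pullbackAlong ψ).isInvertible
    (isAlgEquivZero_of_inP _ hM') G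
  obtain ⟨G', -, hG'⟩ := exists_genericGen_twistByList_degree c ε (x ≫ t) (hγ K (x ≫ t)) h
    (M.pullbackAlong ψ) G
  rw [hdeg0, zero_add, hlen] at hG'
  have hs' : Hub.KSurj Z (x ≫ t) (Hub.twistByList l (M.pullbackAlong ψ)).L := hs.congr e1
  have hkb := kb_of_kSurj c (x ≫ t) ε Z (hγ K (x ≫ t)) G'
    (locGen_of_isInvertible (Hub.twistByList l (M.pullbackAlong ψ)).isInvertible) hG' hs'
  exact hkb.congr e1.symm

/-- the cocycles of a list of rational points different from the base point -/
theorem exists_forall₂_isPtCocycle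
    (pts : List (Prod.KPt c)) (hne : ∀ ε' ∈ pts, ε' ≠ ε) :
    ∃ l : List (Hub.BasedCocycle c ε (ULift.{u} Bool)), List.Forall₂ (IsPtCocycle c ε) l pts := by
  induction pts with
  | nil => exact ⟨[], List.Forall₂.nil⟩
  | cons ε' pts ih =>
    obtain ⟨l, hl⟩ := ih fun ε'' h => hne ε'' (List.mem_cons_of_mem _ h)
    obtain ⟨chart⟩ := nonempty_pointChart c ε'
    have ne : ∀ y : Spec (CommRingCat.of k), ε.1.base y ≠ ε'.pt := by
      intro y hy
      apply hne ε' List.mem_cons_self
      apply Prod.KPt.ext_pt
      have : y = Prod.KPt.o k := Subsingleton.elim _ _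
      rw [this] at hy
      exact hy.symm
    exact ⟨Hub.opBased chart ne :: l, List.Forall₂.cons ⟨ε'.pt, chart, ne, rfl, rfl⟩ hl⟩

open Classical in
/-- **(COVER), for finite families of arbitrary degrees**: for finitely many rigidified bundles
`M i` on `C_K` there are `γ` distinct rational points `≠ ε` such that, after the twist by these
points, the differentials `K_{-1-deg M i}` are all bijective -/
theorem exists_pts_cechMap_bijective
    (K : Type u) [Field K] [IsAlgClosed K] (t : Spec (CommRingCat.of K) ⟶ Spec (CommRingCat.of k))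
    (hF : haveI := isIntegral_pullback c t; letI := kAlgebraFF (pullback.snd c t)
      IsCurveOfGenus K (pullback c t).functionField γ)
    {ι : Type*} [Finite ι] (Mf : ι → RLB c ε t)
    (Gf : haveI := isIntegral_pullback c t; ∀ i, GenericGen (Mf i).L) :
    haveI := isIntegral_pullback c t
    haveI := isLocallyNoetherian (pullback.snd c t)
    letI := kAlgebraFF (pullback.snd c t)
    ∃ pts : List (Prod.KPt c), pts.length = γ ∧ pts.Nodup ∧ (∀ ε' ∈ pts, ε' ≠ ε) ∧
      ∀ l : List (Hub.BasedCocycle c ε (ULift.{u} Bool)),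
        List.Forall₂ (IsPtCocycle c ε) l pts → ∀ i,
        Function.Bijective ((twoChartK c t ε Z).cechMap (hreg (pullback.snd c t))
          (Hub.twistByList l (Mf i)).L
          (-1 - Divisor.degree ((Gf i).divisor (pullback.snd c t) (hreg (pullback.snd c t))
            (locGen_of_isInvertible (Mf i).isInvertible)))) := by
  haveI := isIntegral_pullback c t
  haveI := isLocallyNoetherian (pullback.snd c t)
  letI := kAlgebraFF (pullback.snd c t)
  obtain ⟨Q, hQmem, hQT, hQcard, hQ⟩ := exists_cover_family_deg (pullback.snd c t)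
    (hreg (pullback.snd c t)) hF (twoChartK c t ε Z) Gf
    (fun i => locGen_of_isInvertible (Mf i).isInvertible) (infinite_range_PeK c t)
    {PeK c t ε}
  have hinj := PeK_injective c t
  set E : Finset (Prod.KPt c) := Q.preimage (PeK c t) hinj.injOn with hE
  have hEcard : E.card = γ := by
    rw [← hQcard, hE, Finset.card_preimage]
    congr 1
    ext P
    rw [Finset.mem_filter]
    exact ⟨fun h => h.1, fun h => ⟨h, hQmem h⟩⟩
  have hmemE : ∀ ε', ε' ∈ E.toList ↔ PeK c t ε' ∈ Q := by
    intro ε'
    rw [Finset.mem_toList, hE, Finset.mem_preimage]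
  have hnodup : (E.toList.map (PeK c t)).Nodup := (Finset.nodup_toList E).map hinj
  have hmem_map : ∀ P, P ∈ E.toList.map (PeK c t) ↔ P ∈ Q := by
    intro P
    rw [List.mem_map]
    constructor
    · rintro ⟨ε', hε', rfl⟩
      exact (hmemE ε').1 hε'
    · intro hP
      obtain ⟨ε', rfl⟩ := hQmem hP
      exact ⟨ε', (hmemE ε').2 hP, rfl⟩
  refine ⟨E.toList, by rw [Finset.length_toList, hEcard], Finset.nodup_toList E, ?_, ?_⟩
  · intro ε' hε' h
    rw [hmemE] at hε'
    exact Finset.disjoint_left.1 hQT hε' (by rw [h]; exact Finset.mem_singleton_self _)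
  · intro l hl i
    obtain ⟨G'', hG''⟩ := exists_genericGen_twistByList c ε t hl (Mf i) (Gf i)
    exact hQ i G'' (locGen_of_isInvertible (Hub.twistByList l (Mf i)).isInvertible)
      (fun P hP => by
        rw [hG'' P, List.count_eq_one_of_mem hnodup ((hmem_map P).2 hP)]
        rfl)
      (fun P hP => by
        rw [hG'' P, List.count_eq_zero_of_not_mem (fun h => hP ((hmem_map P).1 h))]
        simp)

/-- **(COVER), for pairs**: two bundles of the cut over an algebraically closed field satisfy the
Krichever condition after a common twist by `γ` distinct rational points `≠ ε` -/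
theorem coverE_of (hP : PDeg c) (hγ : UniformGenus c γ)
    (K : Type u) [Field K] [IsAlgClosed K] (t : Spec (CommRingCat.of K) ⟶ Spec (CommRingCat.of k))
    (M M' : RLB c ε t) (hM : InP M) (hM' : InP M') :
    ∃ pts : List (Prod.KPt c), pts.length = γ ∧ pts.Nodup ∧ (∀ ε' ∈ pts, ε' ≠ ε) ∧
      ∀ l : List (Hub.BasedCocycle c ε (ULift.{u} Bool)),
        List.Forall₂ (IsPtCocycle c ε) l pts →
        Hub.KB Z t (Hub.twistByList l M).L ∧ Hub.KB Z t (Hub.twistByList l M').L := by
  haveI := isIntegral_pullback c t
  haveI := isLocallyNoetherian (pullback.snd c t)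
  letI := kAlgebraFF (pullback.snd c t)
  obtain ⟨G⟩ := nonempty_genericGen (locGen_of_isInvertible M.isInvertible)
  obtain ⟨G'⟩ := nonempty_genericGen (locGen_of_isInvertible M'.isInvertible)
  have hdeg := hP K t M.L M.isInvertible (isAlgEquivZero_of_inP _ hM) G
  have hdeg' := hP K t M'.L M'.isInvertible (isAlgEquivZero_of_inP _ hM') G'
  -- the family `(M, M')`
  let Mf : Bool → RLB c ε t := fun b => cond b M M'
  let Gf : ∀ b, GenericGen (Mf b).L :=
    fun b => Bool.rec (motive := fun b => GenericGen (Mf b).L) G' G b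
  obtain ⟨pts, hlen, hnd, hne, hpts⟩ := exists_pts_cechMap_bijective c ε Z K t (hγ K t) Mf Gf
  refine ⟨pts, hlen, hnd, hne, fun l hl => ⟨?_, ?_⟩⟩
  · have hb := hpts l hl true
    have hd : Divisor.degree ((Gf true).divisor (pullback.snd c t) (hreg (pullback.snd c t))
        (locGen_of_isInvertible (Mf true).isInvertible)) = 0 := hdeg
    rw [hd, sub_zero] at hb
    exact (kb_iff_cechMap c t ε Z _).2 hb
  · have hb := hpts l hl false
    have hd : Divisor.degree ((Gf false).divisor (pullback.snd c t) (hreg (pullback.snd c t))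
        (locGen_of_isInvertible (Mf false).isInvertible)) = 0 := hdeg'
    rw [hd, sub_zero] at hb
    exact (kb_iff_cechMap c t ε Z _).2 hb

end Fields

end Fermat.Agent.S25lib.Polar
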