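/-
S25lib / Polar / Effective (helper9).
Riemann's inequality in the form used for the surjectivity of `C^γ → J` (function-field form):

* `exists_points_of_effective` : an effective divisor of degree `n` is a sum of `n` places
  (with repetitions), `A = ∑_{i < n} P i`;
* **`exists_effective_of_degree_zero`** : for `deg D = 0` and a place `e` there are `f ≠ 0` and places
  `P 0, …, P (γ-1)` with `D + γ e + div f = ∑ P i`, i.e. `D ∼ ∑ P i - γ e`.
-/
import Fermat.Agent.S25lib.Polar.GenPos

set_option autoImplicit false

noncomputable section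

namespace Fermat.Agent.S25lib.Polar

open AlgebraicCurve Fermat.Agent.S18lib Fermat.Agent.S18lib.Cech Fermat.Agent.S26lib.CechRR

variable {K F : Type*} [Field K] [Field F] [Algebra K F]

variable {γ : ℕ} (hF : IsCurveOfGenus K F γ)
include hF

open Classical in
/-- an effective divisor of degree `n` is a sum of `n` places -/
theorem exists_points_of_effective (n : ℕ) (A : Divisor K F) (h0 : ∀ v, 0 ≤ A v)
    (hdeg : Divisor.degree A = n) :
    ∃ P : Fin n → Place K F, ∀ v, A v = ((Finset.univ.filter fun i => P i = v).card : ℤ) := by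
  induction n generalizing A with
  | zero =>
    have hA : A = 0 := eq_zero_of_nonneg_of_degree_eq_zero
      (fun v => by rw [hF.deg_eq_one v]; exact Nat.one_pos) h0 (by simpa using hdeg)
    refine ⟨Fin.elim0, fun v => ?_⟩
    rw [hA]
    simp
  | succ n ih =>
    -- a place in the support
    obtain ⟨v₀, hv₀⟩ : ∃ v₀, 0 < A v₀ := by
      by_contra hcon
      push Not at hcon
      have hA : A = 0 := by
        ext v
        exact le_antisymm (hcon v) (h0 v)
      rw [hA, map_zero] at hdeg
      have : (0 : ℤ) = ((n + 1 : ℕ) : ℤ) := hdeg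
      omega
    set A' : Divisor K F := A - Finsupp.single v₀ 1 with hA'
    have h0' : ∀ v, 0 ≤ A' v := by
      intro v
      rw [hA', Finsupp.sub_apply, Finsupp.single_apply]
      by_cases hv : v₀ = v
      · rw [if_pos hv, ← hv]
        omega
      · rw [if_neg hv, sub_zero]
        exact h0 v
    have hdeg' : Divisor.degree A' = n := by
      rw [hA', map_sub, hdeg, Divisor.degree_single, hF.deg_eq_one v₀]
      push_cast
      ring
    obtain ⟨P', hP'⟩ := ih A' h0' hdeg'
    refine ⟨Fin.cons v₀ P', fun v => ?_⟩
    have hAv : A v = A' v + (if v₀ = v then 1 else 0) := by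
      rw [hA', Finsupp.sub_apply, Finsupp.single_apply]
      ring
    rw [hAv, hP' v, Finset.card_filter, Finset.card_filter, Fin.sum_univ_succ]
    simp only [Fin.cons_zero, Fin.cons_succ]
    push_cast
    ring

open Classical in
/-- **Riemann**: a divisor `D` of degree `0` is linearly equivalent to `∑_{i < γ} P i - γ e`:
there are `f ≠ 0` and places `P i` with `D + γ e + div f = ∑ P i`. -/
theorem exists_effective_of_degree_zero {D : Divisor K F} (hdeg : Divisor.degree D = 0)
    (e : Place K F) :
    ∃ f : F, f ≠ 0 ∧ ∃ P : Fin γ → Place K F, ∀ v,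
      D v + (γ : ℤ) * (if v = e then 1 else 0) + v.ord f =
        ((Finset.univ.filter fun i => P i = v).card : ℤ) := by
  set E : Divisor K F := D + (γ : ℤ) • Finsupp.single e 1 with hE
  have hdegE : Divisor.degree E = γ := by
    rw [hE, map_add, map_zsmul, hdeg, Divisor.degree_single, hF.deg_eq_one e]
    simp
  -- Riemann's inequality
  have hriem := hF.riemann_le E
  rw [hdegE] at hriem
  have hpos : 0 < Module.finrank K (riemannRochSpace E) := by
    have : (1 : ℤ) ≤ Module.finrank K (riemannRochSpace E) := by linarith
    exact_mod_cast this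
  have hne : riemannRochSpace E ≠ ⊥ := by
    intro h
    rw [h, finrank_bot] at hpos
    exact lt_irrefl _ hpos
  obtain ⟨f, hfE, hf0⟩ := (Submodule.ne_bot_iff _).mp hne
  haveI := hF.hasPrincipalDivisors
  obtain ⟨Df, hDf, hDf0⟩ := HasPrincipalDivisors.exists_divisor (K := K) f hf0
  have hA0 : ∀ v, 0 ≤ (E + Df) v := by
    intro v
    rw [Finsupp.add_apply, hDf v]
    have := (mem_riemannRochSpace_iff.1 hfE v).resolve_left hf0
    omega
  have hAdeg : Divisor.degree (E + Df) = γ := by
    rw [map_add, hdegE, hDf0, add_zero]
  obtain ⟨P, hP⟩ := exists_points_of_effective hF γ (E + Df) hA0 hAdeg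
  refine ⟨f, hf0, P, fun v => ?_⟩
  rw [← hP v, Finsupp.add_apply, hDf v, hE, Finsupp.add_apply, Finsupp.smul_apply,
    Finsupp.single_apply]
  simp only [smul_eq_mul, eq_comm]

end Fermat.Agent.S25lib.Polar
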