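/-
S25lib / Polar / Surj (helper9).
The surjectivity input for `C^γ → J` (helper5's `AllFibresK`), on a proper regular curve `Y` over an
algebraically closed field, in the language of `Polar/Dict`:

* `GenericGen.exists_points_linEquiv` : a locally generated module `M` of degree `0` has
  `D_M + γ e + div h = ∑_{i < γ} P i` for suitable points `P i` and a rational function `h ≠ 0`;
* **`GenericGen.exists_points_iso`** : hence `M ≅ N'` for EVERY locally generated `N'` with
  `D_{N'} = ∑ P i - γ e` (e.g. the iterated twist of `O` by the point cocycles).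
-/
import Mathlib
import Fermat.Agent.S25lib.Polar.DictCurve
import Fermat.Agent.S25lib.Polar.IsoOfDiv
import Fermat.Agent.S25lib.Polar.Effective

set_option autoImplicit false

noncomputable section

universe u

open AlgebraicGeometry CategoryTheory TopologicalSpace AlgebraicCurve

namespace Fermat.Agent.S25lib.Polar

open Fermat.Agent.S18lib Fermat.Agent.S26lib Fermat.Agent.S26lib.Weil Fermat.Agent.S26lib.Aff
  Fermat.Agent.S26lib.CechRR Fermat.Agent.S26lib.CurvePlace Fermat.Agent.S25lib.Mod

variable {K : Type u} [Field K] {Y : Scheme.{u}} [IsIntegral Y] [IsLocallyNoetherian Y]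
  (fC : Y ⟶ Spec (CommRingCat.of K)) [IsSeparated fC] [UniversallyClosed fC] [QuasiCompact fC]
  (hreg : ∀ c : Y, c = genericPoint Y ∨ IsDiscreteValuationRing (Y.presheaf.stalk c))
  {γ : ℕ} (hF : letI := kAlgebraFF fC; IsCurveOfGenus K Y.functionField γ)
  {M : Y.Modules} (G : GenericGen M) (hM : LocGen M)

open Classical in
include hF in
/-- **Riemann**: a module of degree `0` is `O(∑ P i - γ e)` up to linear equivalence -/
theorem GenericGen.exists_points_linEquiv
    (hdeg : letI := kAlgebraFF fC; Divisor.degree (G.divisor fC hreg hM) = 0) (e : PrimeDiv Y) :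
    ∃ h : Y.functionField, h ≠ 0 ∧ ∃ P : Fin γ → PrimeDiv Y, ∀ Q : PrimeDiv Y,
      G.divAt hM Q + (γ : ℤ) * (if Q = e then 1 else 0) + ordAt Q h =
        ((Finset.univ.filter fun i => P i = Q).card : ℤ) := by
  let _ := kAlgebraFF fC
  obtain ⟨h, hh, P', hP'⟩ := exists_effective_of_degree_zero hF hdeg (placeOf fC e)
  refine ⟨h, hh, fun i => (placeEquiv fC hreg).symm (P' i), fun Q => ?_⟩
  have h1 := hP' (placeOf fC Q)
  rw [G.divisor_placeOf fC hreg hM, ord_placeOf] at h1
  have h2 : (if placeOf fC Q = placeOf fC e then (1 : ℤ) else 0) = if Q = e then 1 else 0 := by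
    by_cases hQe : Q = e
    · rw [if_pos hQe, if_pos (by rw [hQe])]
    · rw [if_neg hQe, if_neg (fun h => hQe (placeOf_injective fC h))]
  rw [h2] at h1
  rw [h1]
  congr 2
  ext i
  simp only [Finset.mem_filter, Finset.mem_univ, true_and]
  constructor
  · intro hi
    rw [hi, ← placeEquiv_apply fC hreg, Equiv.symm_apply_apply]
  · intro hi
    rw [← hi, ← placeEquiv_apply fC hreg, Equiv.apply_symm_apply]

open Classical in
include hF in
/-- **every module of degree `0` is `O(∑_{i<γ} P i - γ e)`**: there are points `P i` such that `M` is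
isomorphic to EVERY locally generated module `N'` with `D_{N'} = ∑ P i - γ e`. -/
theorem GenericGen.exists_points_iso
    (hdeg : letI := kAlgebraFF fC; Divisor.degree (G.divisor fC hreg hM) = 0) (e : PrimeDiv Y) :
    ∃ P : Fin γ → PrimeDiv Y, ∀ {N' : Y.Modules} (G' : GenericGen N') (hN' : LocGen N'),
      (∀ Q : PrimeDiv Y, G'.divAt hN' Q =
        ((Finset.univ.filter fun i => P i = Q).card : ℤ) - (γ : ℤ) * (if Q = e then 1 else 0)) →
      Nonempty (M ≅ N') := by
  obtain ⟨h, hh, P, hP⟩ := G.exists_points_linEquiv fC hreg hF hM hdeg e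
  refine ⟨P, fun G' hN' hdiv => ?_⟩
  obtain ⟨e', -⟩ := exists_iso_of_divAt_eq hreg G hM G' hN' h hh (fun Q => by
    rw [hdiv Q, ← hP Q]
    ring)
  exact ⟨e'⟩

end Fermat.Agent.S25lib.Polar
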