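/-
S25lib / Polar / Spread (helper9).
**Bijectivity of the Čech differential `K_n` spreads out from a geometric fibre**: for a rigidified bundle `M`
on `C ×_k S`, `S` affine integral, if `K_n` of the fibre at a geometric point `ψ` is bijective, there is
`f ∈ Γ(S, ⊤)`, `f(ψ) ≠ 0`, such that `K_n` of the fibre at every geometric point `χ` with `f(χ) ≠ 0` is bijective
(helper4's constructor `AffBC/Pack` + helper3's `Krich/Deg` + `Polar/KmapDict`).
-/
import Mathlib
import Fermat.Agent.S25lib.Polar.KmapDict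
import Fermat.Agent.S25lib.AffBC.Pack

set_option autoImplicit false

noncomputable section

universe u

open AlgebraicGeometry CategoryTheory CategoryTheory.Limits TopologicalSpace AlgebraicCurve
  AlgebraicGeometry.RelPicard NeronModelInfra GoodReductionJacobian

namespace Fermat.Agent.S25lib.Polar

open Fermat.Agent.S18lib Fermat.Agent.S26lib Fermat.Agent.S26lib.Weil Fermat.Agent.S26lib.Aff
  Fermat.Agent.S26lib.CechRR Fermat.Agent.S26lib.CurvePlace Fermat.Agent.S25lib.Mod
  Fermat.Agent.S25lib.Curve Fermat.Agent.S25lib.AffBC Fermat.Agent.S26lib.ProdAff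

section

variable {k : Type u} [Field k] [IsAlgClosed k] {C : Scheme.{u}}
  (c : C ⟶ Spec (CommRingCat.of k)) [IsProper c] [SmoothOfRelativeDimension 1 c] [IsIntegral C]
  (ε : Prod.KPt c) (P : PointChart c ε.pt)

/-- a non-zero element of `Γ(Spec F, ⊤)`, `F` a field, is a unit -/
theorem isUnit_of_ne_zero_specTop {F : Type u} [Field F] {a : Γ(Spec (CommRingCat.of F), ⊤)}
    (ha : a ≠ 0) : IsUnit a := by
  have hfield : IsField Γ(Spec (CommRingCat.of F), ⊤) :=
    MulEquiv.isField (Field.toIsField F)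
      (Scheme.ΓSpecIso (CommRingCat.of F)).commRingCatIsoToRingEquiv.toMulEquiv
  obtain ⟨b, hb⟩ := hfield.mul_inv_cancel ha
  exact IsUnit.of_mul_eq_one b hb

/-- **bijectivity of `K_n` spreads out from a geometric fibre** -/
theorem exists_elt_cechMap_bijective {S : Scheme.{u}} [IsAffine S] [IsIntegral S]
    {s' : S ⟶ Spec (CommRingCat.of k)} (M : RLB c ε s') (n : ℤ)
    {K : Type u} [Field K] [IsAlgClosed K]
    {t₀ : Spec (CommRingCat.of K) ⟶ Spec (CommRingCat.of k)} (ψ : SchemeHomOver t₀ s')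
    (hb : haveI := isIntegral_pullback c t₀
      haveI := isLocallyNoetherian (pullback.snd c t₀)
      Function.Bijective ((twoChartK c t₀ ε P.toZChart).cechMap (hreg (pullback.snd c t₀))
        (pullN c ψ M.L) n)) :
    ∃ f : Γ(S, ⊤), (ψ.1.appLE ⊤ ⊤ le_top).hom f ≠ 0 ∧
      ∀ {K' : Type u} [Field K'] [IsAlgClosed K']
        {t₁ : Spec (CommRingCat.of K') ⟶ Spec (CommRingCat.of k)} (χ : SchemeHomOver t₁ s'),
        (χ.1.appLE ⊤ ⊤ le_top).hom f ≠ 0 →
        haveI := isIntegral_pullback c t₁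
        haveI := isLocallyNoetherian (pullback.snd c t₁)
        Function.Bijective ((twoChartK c t₁ ε P.toZChart).cechMap (hreg (pullback.snd c t₁))
          (pullN c χ M.L) n) := by
  have hzreg : IsSMulRegular Γ(C, P.U₂) P.z := ZChart.isSMulRegular_z c ε P.toZChart
  obtain ⟨σ₀, -, hfilt, -, N₀, hN₀⟩ := exists_pack ε M P hzreg (isAffineOpen_top S)
  have hb₀ := (cechMap_bijective_iff_Kmap c t₀ ε P.toZChart (pullN c ψ M.L)
    (M.isInvertible.pullback _) n).1 hb
  obtain ⟨f, hf0, hf, h0⟩ := exists_elt_of_fibre_box M.L M.isInvertible P.isAffineOpen₁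
    P.isAffineOpen₂ P.z (ZAdapt.pointChart_le₁ P) (isAffineOpen_top S) σ₀ hfilt hN₀ ψ le_top hb₀
  refine ⟨f, hf0, fun {K'} _ _ {t₁} χ hχ => ?_⟩
  have hu : IsUnit ((χ.1.appLE ⊤ ⊤ le_top).hom f) := isUnit_of_ne_zero_specTop hχ
  have h1 := bijective_of_isUnit_box M.L M.isInvertible P.isAffineOpen₁ P.isAffineOpen₂ P.z
    (ZAdapt.pointChart_le₁ P) (isAffineOpen_top S) σ₀ hfilt χ le_top (isAffineOpen_top _) f hf
    hu h0
  exact (cechMap_bijective_iff_Kmap c t₁ ε P.toZChart (pullN c χ M.L)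
    (M.isInvertible.pullback _) n).2 h1

end

end Fermat.Agent.S25lib.Polar
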