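/-
S25lib / Polar / PDeg (helper9).
**(P-Deg)**: over an algebraically closed field `K ⊇ k`, an invertible module on `C_K` which is algebraically
equivalent to zero has degree `0`.

* `range_subset_basicOpen_iff` : a field-valued point lies in `D(f)` iff `f` does not vanish at it;
* **`degOf_locally_constant`** : in a family over an affine integral `K`-scheme the degree of the fibres at the
  `K`-points is locally constant (the hypothesis `hLC` of helper2's `Glue.pdeg_formal`): rigidifying correction
  (helper7), general position at one point (`exists_pts_cechMap_bijective`), spreading out (`Polar/Spread`),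
  and the dictionary (`cechMap_bijective_iff`) at the nearby points;
* **`pdeg c : PDeg c`**.
-/
import Mathlib
import Fermat.Agent.S25lib.Polar.Spread
import Fermat.Agent.S25lib.Polar.LayerFields
import Fermat.Agent.S25lib.Glue.PDeg
import Fermat.Agent.S25lib.Hub.Rigidify

set_option autoImplicit false

noncomputable section

universe u

open AlgebraicGeometry CategoryTheory CategoryTheory.Limits TopologicalSpace AlgebraicCurve
  AlgebraicGeometry.RelPicard NeronModelInfra GoodReductionJacobian

namespace Fermat.Agent.S25lib.Polar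

open Fermat.Agent.S18lib Fermat.Agent.S26lib Fermat.Agent.S26lib.Weil Fermat.Agent.S26lib.Aff
  Fermat.Agent.S26lib.CechRR Fermat.Agent.S26lib.CurvePlace Fermat.Agent.S25lib.Mod
  Fermat.Agent.S25lib.Curve Fermat.Agent.S25lib.AffBC Fermat.Agent.S26lib.ProdAff

/-- a field-valued point lies in `D(f)` iff `f` does not vanish at it -/
theorem range_subset_basicOpen_iff {S : Scheme.{u}} {F : Type u} [Field F]
    (q : Spec (CommRingCat.of F) ⟶ S) (f : Γ(S, ⊤)) :
    Set.range q.base ⊆ (S.basicOpen f : Set S) ↔ (q.appLE ⊤ ⊤ le_top).hom f ≠ 0 := by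
  rw [Glue.range_base_subset_iff]
  have h1 := Scheme.basicOpen_appLE q ⊤ ⊤ le_top f
  have h2 : q.base (IsLocalRing.closedPoint F) ∈ (S.basicOpen f : Set S) ↔
      IsLocalRing.closedPoint F ∈
        (Spec (CommRingCat.of F)).basicOpen ((q.appLE ⊤ ⊤ le_top).hom f) := by
    show _ ↔ IsLocalRing.closedPoint F ∈
      (Spec (CommRingCat.of F)).basicOpen (q.appLE ⊤ ⊤ le_top f)
    rw [h1]
    exact ⟨fun h => ⟨trivial, h⟩, fun h => h.2⟩
  rw [h2]
  constructor
  · intro h h0
    rw [h0, Scheme.basicOpen_zero] at h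
    exact h
  · intro h
    rw [Scheme.basicOpen_of_isUnit _ (isUnit_of_ne_zero_specTop h)]
    trivial

section

variable {k : Type u} [Field k] [IsAlgClosed k] {C : Scheme.{u}}
  (c : C ⟶ Spec (CommRingCat.of k)) [IsProper c] [SmoothOfRelativeDimension 1 c] [IsIntegral C]
  {K : Type u} [Field K] [IsAlgClosed K] (t₀ : Spec (CommRingCat.of K) ⟶ Spec (CommRingCat.of k))

/-- **the degree of the fibres of a family over an affine integral `K`-scheme is locally constant
on the `K`-points** -/
theorem degOf_locally_constant (ε : Prod.KPt c) {S : Scheme.{u}} [IsAffine S] [IsIntegral S]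
    (s : S ⟶ Spec (CommRingCat.of K)) (N : (pullback c (s ≫ t₀)).Modules)
    (hN : Scheme.Modules.IsInvertible N)
    (p : Spec (CommRingCat.of K) ⟶ S) (hp : p ≫ s = 𝟙 _) :
    haveI := isIntegral_pullback c t₀
    haveI := isLocallyNoetherian (pullback.snd c t₀)
    ∃ W : S.Opens, Set.range p.base ⊆ (W : Set S) ∧
      ∀ (q : Spec (CommRingCat.of K) ⟶ S) (hq : q ≫ s = 𝟙 _), Set.range q.base ⊆ (W : Set S) →
        degOf (pullback.snd c t₀) (hreg (pullback.snd c t₀))
            ((Scheme.Modules.pullback (baseChangeSnd c (Glue.kptOver t₀ s q hq))).obj N) =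
          degOf (pullback.snd c t₀) (hreg (pullback.snd c t₀))
            ((Scheme.Modules.pullback (baseChangeSnd c (Glue.kptOver t₀ s p hp))).obj N) := by
  haveI := isIntegral_pullback c t₀
  haveI := isLocallyNoetherian (pullback.snd c t₀)
  letI := kAlgebraFF (pullback.snd c t₀)
  obtain ⟨γ, hF⟩ := exists_genus (pullback.snd c t₀)
  obtain ⟨P⟩ := nonempty_pointChart c ε
  obtain ⟨M, hMfib⟩ := Hub.exists_rlb_fibrewise_iso (c := c) (ε := ε) (s ≫ t₀) N hN
  -- the fibre at `p`
  obtain ⟨Gp⟩ := nonempty_genericGen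
    (locGen_of_isInvertible (M.pullbackAlong (Glue.kptOver t₀ s p hp)).isInvertible)
  obtain ⟨δ, hδ⟩ : ∃ δ : ℤ, δ = Divisor.degree (Gp.divisor (pullback.snd c t₀)
    (hreg (pullback.snd c t₀))
    (locGen_of_isInvertible (M.pullbackAlong (Glue.kptOver t₀ s p hp)).isInvertible)) := ⟨_, rfl⟩
  obtain ⟨pts, hlen, -, hne, hpts⟩ := exists_pts_cechMap_bijective c ε P.toZChart K t₀ hF
    (fun _ : Unit => M.pullbackAlong (Glue.kptOver t₀ s p hp)) (fun _ => Gp)
  obtain ⟨l, hl⟩ := exists_forall₂_isPtCocycle c ε pts hne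
  have hb := hpts l hl ()
  rw [← hδ] at hb
  -- the twisted family
  obtain ⟨e1⟩ := Hub.twistByList_pullbackAlong l (Glue.kptOver t₀ s p hp) M
  have hb' : Function.Bijective ((twoChartK c t₀ ε P.toZChart).cechMap
      (hreg (pullback.snd c t₀)) (pullN c (Glue.kptOver t₀ s p hp) (Hub.twistByList l M).L)
      (-1 - δ)) :=
    (twoChartK c t₀ ε P.toZChart).cechMap_bijective_congr (hreg (pullback.snd c t₀)) e1.symm _ hb
  obtain ⟨f, hf0, hf⟩ := exists_elt_cechMap_bijective c ε P (Hub.twistByList l M) (-1 - δ)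
    (Glue.kptOver t₀ s p hp) hb'
  -- the degree at the points of `D(f)`
  have key : ∀ (q : Spec (CommRingCat.of K) ⟶ S) (hq : q ≫ s = 𝟙 _),
      (q.appLE ⊤ ⊤ le_top).hom f ≠ 0 →
      degOf (pullback.snd c t₀) (hreg (pullback.snd c t₀))
        ((Scheme.Modules.pullback (baseChangeSnd c (Glue.kptOver t₀ s q hq))).obj N) = δ := by
    intro q hq hfq
    have hbq := hf (Glue.kptOver t₀ s q hq) hfq
    obtain ⟨e2⟩ := Hub.twistByList_pullbackAlong l (Glue.kptOver t₀ s q hq) M
    have hbq' := (twoChartK c t₀ ε P.toZChart).cechMap_bijective_congr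
      (hreg (pullback.snd c t₀)) e2 _ hbq
    obtain ⟨Gq⟩ := nonempty_genericGen
      (locGen_of_isInvertible (M.pullbackAlong (Glue.kptOver t₀ s q hq)).isInvertible)
    obtain ⟨Gq', -, hdeg⟩ := exists_genericGen_twistByList_degree c ε t₀ hF hl
      (M.pullbackAlong (Glue.kptOver t₀ s q hq)) Gq
    have h3 := (Gq'.cechMap_bijective_iff (pullback.snd c t₀) (hreg (pullback.snd c t₀))
      (twoChartK c t₀ ε P.toZChart)
      (locGen_of_isInvertible
        (Hub.twistByList l (M.pullbackAlong (Glue.kptOver t₀ s q hq))).isInvertible) hF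
      (exists_not_mem_U₂_K c t₀ ε P.toZChart) (-1 - δ)).1 hbq'
    obtain ⟨eN⟩ := hMfib K t₀ (Glue.kptOver t₀ s q hq)
    rw [degOf_congr (pullback.snd c t₀) (hreg (pullback.snd c t₀)) hF eN
      (locGen_of_isInvertible (M.pullbackAlong (Glue.kptOver t₀ s q hq)).isInvertible),
      degOf_eq (pullback.snd c t₀) (hreg (pullback.snd c t₀)) hF Gq
      (locGen_of_isInvertible (M.pullbackAlong (Glue.kptOver t₀ s q hq)).isInvertible)]
    have h4 := h3.2
    rw [hdeg, hlen] at h4
    linarith
  refine ⟨S.basicOpen f, (range_subset_basicOpen_iff p f).2 hf0, fun q hq hqW => ?_⟩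
  rw [key q hq ((range_subset_basicOpen_iff q f).1 hqW), key p hp hf0]

/-- **(P-Deg)** -/
theorem pdeg : PDeg c := by
  intro K _ _ t N hN hL
  haveI := isIntegral_pullback c t
  haveI := isLocallyNoetherian (pullback.snd c t)
  letI := kAlgebraFF (pullback.snd c t)
  intro G
  obtain ⟨γ, hF⟩ := exists_genus (pullback.snd c t)
  haveI := infinite_kPt c
  obtain ⟨ε⟩ : Nonempty (Prod.KPt c) := inferInstance
  have h := Glue.pdeg_formal c t (degOf (pullback.snd c t) (hreg (pullback.snd c t)))
    (fun N N' hN e => (degOf_congr (pullback.snd c t) (hreg (pullback.snd c t)) hF e.some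
      (locGen_of_isInvertible hN)).symm)
    (fun S _ _ s _ N hN p hp => degOf_locally_constant c t ε s N hN p hp) N hL
  rw [degOf_eq (pullback.snd c t) (hreg (pullback.snd c t)) hF G (locGen_of_isInvertible hN)] at h
  rw [h]
  exact degOf_unit (pullback.snd c t) (hreg (pullback.snd c t)) hF

end

end Fermat.Agent.S25lib.Polar
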