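/-
S25lib / Polar / UGenus (helper9).
**The genus does not change under extension of the algebraically closed base field**:
`exists_uniformGenus c : ∃ γ, UniformGenus c γ`  (`γ` = the genus of `C ×_k k`).

Proof: on `C_k = pullback c (𝟙 _)` the bundle `O(E)`, `E` = `γ` general rational points, satisfies the Krichever
condition `K_{-1}` bijective; bijectivity spreads to the base change `C_K` (`Polar/Spread` over `S = Spec k`),
where the dictionary reads `deg O(E_K) = γ_K`; but `deg O(E_K) = |E| = γ`.
-/
import Mathlib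
import Fermat.Agent.S25lib.Polar.Spread
import Fermat.Agent.S25lib.Polar.LayerFields

set_option autoImplicit false

noncomputable section

universe u

open AlgebraicGeometry CategoryTheory CategoryTheory.Limits TopologicalSpace AlgebraicCurve
  AlgebraicGeometry.RelPicard NeronModelInfra GoodReductionJacobian

namespace Fermat.Agent.S25lib.Polar

open Fermat.Agent.S18lib Fermat.Agent.S26lib Fermat.Agent.S26lib.Weil Fermat.Agent.S26lib.Aff
  Fermat.Agent.S26lib.CechRR Fermat.Agent.S26lib.CurvePlace Fermat.Agent.S25lib.Mod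
  Fermat.Agent.S25lib.Curve Fermat.Agent.S25lib.AffBC Fermat.Agent.S26lib.ProdAff

section

variable {k : Type u} [Field k] [IsAlgClosed k] {C : Scheme.{u}}
  (c : C ⟶ Spec (CommRingCat.of k)) [IsProper c] [SmoothOfRelativeDimension 1 c] [IsIntegral C]

/-- the degree of the structure sheaf of `C_K` is `0`, for any generic generator -/
theorem degree_divisor_of_iso_unit {K : Type u} [Field K] [IsAlgClosed K]
    (t : Spec (CommRingCat.of K) ⟶ Spec (CommRingCat.of k)) {γ : ℕ}
    (hF : haveI := isIntegral_pullback c t; letI := kAlgebraFF (pullback.snd c t)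
      IsCurveOfGenus K (pullback c t).functionField γ)
    {N : (pullback c t).Modules} (e : N ≅ unitM (pullback c t))
    (G : haveI := isIntegral_pullback c t; GenericGen N) (hN : LocGen N) :
    haveI := isIntegral_pullback c t
    haveI := isLocallyNoetherian (pullback.snd c t)
    letI := kAlgebraFF (pullback.snd c t)
    Divisor.degree (G.divisor (pullback.snd c t) (hreg (pullback.snd c t)) hN) = 0 := by
  haveI := isIntegral_pullback c t
  haveI := isLocallyNoetherian (pullback.snd c t)
  letI := kAlgebraFF (pullback.snd c t)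
  rw [← degOf_eq (pullback.snd c t) (hreg (pullback.snd c t)) hF G hN,
    ← degOf_congr (pullback.snd c t) (hreg (pullback.snd c t)) hF e hN]
  exact degOf_unit (pullback.snd c t) (hreg (pullback.snd c t)) hF

/-- **the genus of `C_K` does not depend on `K`** -/
theorem exists_uniformGenus : ∃ γ : ℕ, UniformGenus c γ := by
  haveI := isIntegral_pullback c (𝟙 (Spec (CommRingCat.of k)))
  haveI := isLocallyNoetherian (pullback.snd c (𝟙 (Spec (CommRingCat.of k))))
  obtain ⟨γ, hF⟩ := exists_genus (pullback.snd c (𝟙 (Spec (CommRingCat.of k))))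
  refine ⟨γ, fun K _ _ t => ?_⟩
  haveI := isIntegral_pullback c t
  haveI := isLocallyNoetherian (pullback.snd c t)
  obtain ⟨γK, hFK⟩ := exists_genus (pullback.snd c t)
  suffices h : γK = γ by
    rw [← h]
    exact hFK
  haveI := infinite_kPt c
  obtain ⟨ε⟩ : Nonempty (Prod.KPt c) := inferInstance
  obtain ⟨P⟩ := nonempty_pointChart c ε
  -- the structure sheaf of `C_k`
  obtain ⟨M, hMdef⟩ : ∃ M : RLB c ε (𝟙 (Spec (CommRingCat.of k))),
    M = RigidifiedLineBundle.unit (𝟙 (Spec (CommRingCat.of k))) := ⟨_, rfl⟩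
  have eM : M.L ≅ unitM (pullback c (𝟙 (Spec (CommRingCat.of k)))) := by
    rw [hMdef]
    exact Iso.refl _
  obtain ⟨G₀⟩ := nonempty_genericGen (locGen_of_isInvertible M.isInvertible)
  have hδ := degree_divisor_of_iso_unit c (𝟙 (Spec (CommRingCat.of k))) hF eM G₀
    (locGen_of_isInvertible M.isInvertible)
  obtain ⟨pts, hlen, -, hne, hpts⟩ := exists_pts_cechMap_bijective c ε P.toZChart k
    (𝟙 (Spec (CommRingCat.of k))) hF (fun _ : Unit => M) (fun _ => G₀)
  obtain ⟨l, hl⟩ := exists_forall₂_isPtCocycle c ε pts hne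
  have hb := hpts l hl ()
  rw [hδ, sub_zero] at hb
  -- the fibre of the constant family at the identity point
  let ψ₀ : SchemeHomOver (𝟙 (Spec (CommRingCat.of k))) (𝟙 (Spec (CommRingCat.of k))) :=
    ⟨𝟙 _, Category.id_comp _⟩
  have e₀ : pullN c ψ₀ (Hub.twistByList l M).L ≅ (Hub.twistByList l M).L :=
    (Scheme.Modules.pullbackCongr (baseChangeSnd_id c (𝟙 (Spec (CommRingCat.of k))))).app _ ≪≫
      (Scheme.Modules.pullbackId _).app _
  have hb' := (twoChartK c (𝟙 (Spec (CommRingCat.of k))) ε P.toZChart).cechMap_bijective_congr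
    (hreg (pullback.snd c (𝟙 (Spec (CommRingCat.of k))))) e₀.symm _ hb
  obtain ⟨f, hf0, hf⟩ := exists_elt_cechMap_bijective c ε P (Hub.twistByList l M) (-1) ψ₀ hb'
  -- `f` is a unit
  have hfne : f ≠ 0 := by
    rintro rfl
    exact hf0 (map_zero _)
  have hfu : IsUnit f := isUnit_of_ne_zero_specTop hfne
  -- the fibre at `t`
  let χ : SchemeHomOver t (𝟙 (Spec (CommRingCat.of k))) := ⟨t, Category.comp_id t⟩
  have hχ : (χ.1.appLE ⊤ ⊤ le_top).hom f ≠ 0 := by
    have hu : IsUnit ((χ.1.appLE ⊤ ⊤ le_top).hom f) := hfu.map _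
    have hnt : Nontrivial Γ(Spec (CommRingCat.of K), ⊤) := by
      have e := (Scheme.ΓSpecIso (CommRingCat.of K)).commRingCatIsoToRingEquiv
      exact e.toEquiv.nontrivial
    exact hu.ne_zero
  have hbK := hf χ hχ
  obtain ⟨e2⟩ := Hub.twistByList_pullbackAlong l χ M
  have hbK' := (twoChartK c t ε P.toZChart).cechMap_bijective_congr
    (hreg (pullback.snd c t)) e2 _ hbK
  obtain ⟨GK⟩ := nonempty_genericGen (locGen_of_isInvertible (M.pullbackAlong χ).isInvertible)
  have eMK : (M.pullbackAlong χ).L ≅ unitM (pullback c t) :=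
    (Scheme.Modules.pullback (baseChangeSnd c χ)).mapIso eM ≪≫ Scheme.Modules.pullbackUnitIso _
  have hδK := degree_divisor_of_iso_unit c t hFK eMK GK
    (locGen_of_isInvertible (M.pullbackAlong χ).isInvertible)
  obtain ⟨GK', -, hdeg⟩ := exists_genericGen_twistByList_degree c ε t hFK hl (M.pullbackAlong χ) GK
  have h3 := (GK'.cechMap_bijective_iff (pullback.snd c t) (hreg (pullback.snd c t))
    (twoChartK c t ε P.toZChart)
    (locGen_of_isInvertible (Hub.twistByList l (M.pullbackAlong χ)).isInvertible) hFK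
    (exists_not_mem_U₂_K c t ε P.toZChart) (-1)).1 hbK'
  have h4 := h3.2
  rw [hdeg, hδK, hlen] at h4
  have h5 : ((γ : ℕ) : ℤ) = γK := by linarith
  exact_mod_cast h5.symm

end

end Fermat.Agent.S25lib.Polar
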