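/-
S25lib / Polar / GenusC (helper9).
**The genus of `C` itself is the uniform genus of its base changes**:
`isCurveOfGenus_of_uniformGenus : UniformGenus c γ → IsCurveOfGenus k C.functionField γ` and
`exists_genus_uniform c : ∃ γ, IsCurveOfGenus k C.functionField γ ∧ UniformGenus c γ`.

Proof: `H¹(O) = Γ(U₁ ⊓ U₂) ⧸ (Γ(U₁) + Γ(U₂))` has dimension the genus, both for a point chart of `C` and
for its base change to `pullback c (𝟙 _)`; the two quotients are identified by the ring isomorphisms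
`(pullback.fst c (𝟙 _)).appLE`.
-/
import Mathlib
import Fermat.Agent.S25lib.Polar.KBDict
import Fermat.Agent.S25lib.Polar.UGenus

set_option autoImplicit false

noncomputable section

universe u

open AlgebraicGeometry CategoryTheory CategoryTheory.Limits TopologicalSpace AlgebraicCurve
  AlgebraicGeometry.RelPicard NeronModelInfra GoodReductionJacobian

namespace Fermat.Agent.S25lib.Polar

open Fermat.Agent.S18lib Fermat.Agent.S26lib Fermat.Agent.S26lib.Weil Fermat.Agent.S26lib.Aff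
  Fermat.Agent.S26lib.CechRR Fermat.Agent.S26lib.CurvePlace Fermat.Agent.S25lib.Mod
  Fermat.Agent.S25lib.Curve Fermat.Agent.S26lib.ProdAff

section General

/-- for an isomorphism of schemes, `appLE` onto the exact preimage is bijective -/
theorem bijective_appLE_of_isIso {X Y : Scheme.{u}} (φ : Y ⟶ X) [IsIso φ] (U : X.Opens)
    (V : Y.Opens) (h : V = φ ⁻¹ᵁ U) : Function.Bijective (φ.appLE U V h.le).hom := by
  subst h
  have : φ.appLE U (φ ⁻¹ᵁ U) le_rfl = φ.app U := (Scheme.Hom.app_eq_appLE φ).symm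
  rw [this]
  exact ConcreteCategory.bijective_of_isIso (φ.app U)

/-- the range of a ring homomorphism containing the constants, as a submodule -/
def rangeSub {k R₁ R : Type*} [CommSemiring k] [CommRing R₁] [CommRing R] [Algebra k R]
    (r : R₁ →+* R) (hr : ∀ a : k, ∃ a₁ : R₁, r a₁ = algebraMap k R a) : Submodule k R where
  carrier := Set.range r
  add_mem' := by
    rintro _ _ ⟨x, rfl⟩ ⟨y, rfl⟩
    exact ⟨x + y, map_add _ _ _⟩
  zero_mem' := ⟨0, map_zero _⟩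
  smul_mem' := by
    rintro a _ ⟨x, rfl⟩
    obtain ⟨a₁, ha₁⟩ := hr a
    exact ⟨a₁ * x, by rw [map_mul, ha₁, Algebra.smul_def]⟩

theorem mem_rangeSub {k R₁ R : Type*} [CommSemiring k] [CommRing R₁] [CommRing R] [Algebra k R]
    (r : R₁ →+* R) (hr : ∀ a : k, ∃ a₁ : R₁, r a₁ = algebraMap k R a) (x : R) :
    x ∈ rangeSub r hr ↔ ∃ a : R₁, r a = x := Iff.rfl

/-- restriction commutes with the constants -/
theorem resO_constHomOpen {k : Type u} [Field k] {X : Scheme.{u}}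
    (f : X ⟶ Spec (CommRingCat.of k)) {U V : X.Opens} (h : V ≤ U) (a : k) :
    resO h ((P5a.constHomOpen f U).hom a) = (P5a.constHomOpen f V).hom a := by
  have h1 : P5a.constHomOpen f U ≫ X.presheaf.map (homOfLE h).op = P5a.constHomOpen f V := by
    unfold P5a.constHomOpen
    rw [Category.assoc, Scheme.Hom.appLE_map]
  exact congrArg (fun ψ => ψ.hom a) h1

/-- `appLE` commutes with restrictions -/
theorem resO_appLE {X Y : Scheme.{u}} (φ : Y ⟶ X) {U U' : X.Opens} {V V' : Y.Opens}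
    (e : V ≤ φ ⁻¹ᵁ U) (e' : V' ≤ φ ⁻¹ᵁ U') (hU : U' ≤ U) (hV : V' ≤ V) (a : Γ(X, U)) :
    resO hV ((φ.appLE U V e).hom a) = (φ.appLE U' V' e').hom (resO hU a) := by
  have h1 : φ.appLE U V e ≫ Y.presheaf.map (homOfLE hV).op =
      X.presheaf.map (homOfLE hU).op ≫ φ.appLE U' V' e' := by
    rw [Scheme.Hom.appLE_map, Scheme.Hom.map_appLE]
  exact congrArg (fun ψ => ψ.hom a) h1

end General

section Main

variable {k : Type u} [Field k] [IsAlgClosed k] {C : Scheme.{u}}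
  (c : C ⟶ Spec (CommRingCat.of k)) [IsProper c] [SmoothOfRelativeDimension 1 c] [IsIntegral C]

/-- **the genus of `C` is the genus of `pullback c t` for an isomorphism `t`** -/
theorem genus_eq_of_isIso (t : Spec (CommRingCat.of k) ⟶ Spec (CommRingCat.of k)) (ht : t = 𝟙 _)
    {γ γ' : ℕ}
    (hF : haveI := isIntegral_pullback c t; letI := kAlgebraFF (pullback.snd c t)
      IsCurveOfGenus k (pullback c t).functionField γ)
    (hF' : letI := kAlgebraFF c; IsCurveOfGenus k C.functionField γ') : γ' = γ := by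
  have hln := isLocallyNoetherian c
  haveI := infinite_kPt c
  obtain ⟨ε⟩ : Nonempty (Prod.KPt c) := inferInstance
  obtain ⟨P⟩ := nonempty_pointChart c ε
  haveI := isIntegral_pullback c t
  haveI := isLocallyNoetherian (pullback.snd c t)
  haveI : IsIso (pullback.fst c t) := by
    rw [ht]
    infer_instance
  have hφ : pullback.fst c t ≫ c = pullback.snd c t := by
    rw [pullback.condition, ht, Category.comp_id]
  obtain ⟨Z, hZ⟩ : ∃ Z : ZChart ε.pt, Z = P.toZChart := ⟨_, rfl⟩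
  obtain ⟨TK, hTK⟩ : ∃ TK : TwoChart (pullback c t), TK = twoChartK c t ε Z := ⟨_, rfl⟩
  have hV₁ : TK.U₁ = pullback.fst c t ⁻¹ᵁ P.U₁ := by
    rw [hTK, hZ]
    apply le_antisymm
    · intro y hy
      exact ((ProdAff.mem_box_iff c t P.U₁ ⊤ y).1 hy).1
    · intro y hy
      exact (ProdAff.mem_box_iff c t P.U₁ ⊤ y).2 ⟨hy, trivial⟩
  have hV₂ : TK.U₂ = pullback.fst c t ⁻¹ᵁ P.U₂ := by
    rw [hTK, hZ]
    apply le_antisymm
    · intro y hy
      exact ((ProdAff.mem_box_iff c t P.U₂ ⊤ y).1 hy).1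
    · intro y hy
      exact (ProdAff.mem_box_iff c t P.U₂ ⊤ y).2 ⟨hy, trivial⟩
  have hV₁₂ : TK.U₁ ⊓ TK.U₂ = pullback.fst c t ⁻¹ᵁ (P.U₁ ⊓ P.U₂) := by
    rw [hV₁, hV₂]
    rfl
  -- the three ring isomorphisms
  have hb₁ := bijective_appLE_of_isIso (pullback.fst c t) P.U₁ TK.U₁ hV₁
  have hb₂ := bijective_appLE_of_isIso (pullback.fst c t) P.U₂ TK.U₂ hV₂
  have hb₁₂ := bijective_appLE_of_isIso (pullback.fst c t) (P.U₁ ⊓ P.U₂) (TK.U₁ ⊓ TK.U₂) hV₁₂
  -- the algebra structures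
  letI algC : Algebra k Γ(C, P.U₁ ⊓ P.U₂) := (P5a.constHomOpen c (P.U₁ ⊓ P.U₂)).hom.toAlgebra
  letI algY : Algebra k Γ(pullback c t, TK.U₁ ⊓ TK.U₂) :=
    (P5a.constHomOpen (pullback.snd c t) (TK.U₁ ⊓ TK.U₂)).hom.toAlgebra
  -- the submodules on `C`
  let A' : Submodule k Γ(C, P.U₁ ⊓ P.U₂) :=
    rangeSub (C.presheaf.map (homOfLE (inf_le_left : P.U₁ ⊓ P.U₂ ≤ P.U₁)).op).hom
      (fun a => ⟨(P5a.constHomOpen c P.U₁).hom a, resO_constHomOpen c inf_le_left a⟩)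
  let B' : Submodule k Γ(C, P.U₁ ⊓ P.U₂) :=
    rangeSub (C.presheaf.map (homOfLE (inf_le_right : P.U₁ ⊓ P.U₂ ≤ P.U₂)).op).hom
      (fun a => ⟨(P5a.constHomOpen c P.U₂).hom a, resO_constHomOpen c inf_le_right a⟩)
  have hA' : ∀ x, x ∈ A' ↔ ∃ a : Γ(C, P.U₁), resO inf_le_left a = x := fun x => Iff.rfl
  have hB' : ∀ x, x ∈ B' ↔ ∃ b : Γ(C, P.U₂), resO inf_le_right b = x := fun x => Iff.rfl
  obtain ⟨hfin', hrank'⟩ := finrank_h1_zero_pointChart c ε P hF' A' B' hA' hB'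
  -- the submodules on `pullback c t`
  let A'' : Submodule k Γ(pullback c t, TK.U₁ ⊓ TK.U₂) :=
    rangeSub ((pullback c t).presheaf.map (homOfLE (inf_le_left : TK.U₁ ⊓ TK.U₂ ≤ TK.U₁)).op).hom
      (fun a => ⟨(P5a.constHomOpen (pullback.snd c t) TK.U₁).hom a,
        resO_constHomOpen (pullback.snd c t) inf_le_left a⟩)
  let B'' : Submodule k Γ(pullback c t, TK.U₁ ⊓ TK.U₂) :=
    rangeSub ((pullback c t).presheaf.map (homOfLE (inf_le_right : TK.U₁ ⊓ TK.U₂ ≤ TK.U₂)).op).hom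
      (fun a => ⟨(P5a.constHomOpen (pullback.snd c t) TK.U₂).hom a,
        resO_constHomOpen (pullback.snd c t) inf_le_right a⟩)
  have hA'' : ∀ x, x ∈ A'' ↔ ∃ a : Γ(pullback c t, TK.U₁), resO inf_le_left a = x :=
    fun x => Iff.rfl
  have hB'' : ∀ x, x ∈ B'' ↔ ∃ b : Γ(pullback c t, TK.U₂), resO inf_le_right b = x :=
    fun x => Iff.rfl
  have hU₂K : ∃ Q : PrimeDiv (pullback c t), Q.1 ∉ TK.U₂ := by
    rw [hTK]
    exact exists_not_mem_U₂_K c t ε Z
  have hsmul : ∀ (a : k) (x : Γ(pullback c t, TK.U₁ ⊓ TK.U₂)),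
      germFF (TK.U₁ ⊓ TK.U₂) TK.generic_mem₁₂ (a • x) =
        (kToFF (pullback.snd c t)).hom a * germFF (TK.U₁ ⊓ TK.U₂) TK.generic_mem₁₂ x := by
    intro a x
    have : Nonempty (TK.U₁ ⊓ TK.U₂ : (pullback c t).Opens) := ⟨⟨_, TK.generic_mem₁₂⟩⟩
    rw [Algebra.smul_def, map_mul]
    congr 1
    have h := P5a.constHomOpen_germ (pullback.snd c t) (TK.U₁ ⊓ TK.U₂)
    exact congrArg (fun φ => φ.hom a) h
  obtain ⟨hfin, hrank⟩ := TK.finrank_quotient_O_zero (pullback.snd c t)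
    (hreg (pullback.snd c t)) hF hU₂K hsmul A'' B'' hA'' hB''
  -- the linear equivalence
  let Ψ : Γ(C, P.U₁ ⊓ P.U₂) ≃ₗ[k] Γ(pullback c t, TK.U₁ ⊓ TK.U₂) :=
    { RingEquiv.ofBijective _ hb₁₂ with
      map_smul' := fun a x => by
        show ((pullback.fst c t).appLE (P.U₁ ⊓ P.U₂) (TK.U₁ ⊓ TK.U₂) hV₁₂.le).hom (a • x) =
          a • ((pullback.fst c t).appLE (P.U₁ ⊓ P.U₂) (TK.U₁ ⊓ TK.U₂) hV₁₂.le).hom x
        rw [Algebra.smul_def, Algebra.smul_def, map_mul]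
        congr 1
        have h := constHomOpen_appLE (pullback.snd c t) c (pullback.fst c t) hφ (P.U₁ ⊓ P.U₂)
          (TK.U₁ ⊓ TK.U₂) hV₁₂.le
        exact congrArg (fun φ => φ.hom a) h }
  have hΨ : ∀ x, Ψ x =
      ((pullback.fst c t).appLE (P.U₁ ⊓ P.U₂) (TK.U₁ ⊓ TK.U₂) hV₁₂.le).hom x := fun x => rfl
  have hmapA : A'.map (Ψ : Γ(C, P.U₁ ⊓ P.U₂) →ₗ[k] Γ(pullback c t, TK.U₁ ⊓ TK.U₂)) = A'' := by
    ext x
    rw [Submodule.mem_map, hA'']
    constructor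
    · rintro ⟨y, hy, rfl⟩
      obtain ⟨a, rfl⟩ := (hA' y).1 hy
      refine ⟨((pullback.fst c t).appLE P.U₁ TK.U₁ hV₁.le).hom a, ?_⟩
      rw [resO_appLE (pullback.fst c t) hV₁.le hV₁₂.le inf_le_left inf_le_left a]
      rfl
    · rintro ⟨a', rfl⟩
      obtain ⟨a, rfl⟩ := hb₁.2 a'
      refine ⟨resO inf_le_left a, (hA' _).2 ⟨a, rfl⟩, ?_⟩
      rw [resO_appLE (pullback.fst c t) hV₁.le hV₁₂.le inf_le_left inf_le_left a]
      rfl
  have hmapB : B'.map (Ψ : Γ(C, P.U₁ ⊓ P.U₂) →ₗ[k] Γ(pullback c t, TK.U₁ ⊓ TK.U₂)) = B'' := by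
    ext x
    rw [Submodule.mem_map, hB'']
    constructor
    · rintro ⟨y, hy, rfl⟩
      obtain ⟨a, rfl⟩ := (hB' y).1 hy
      refine ⟨((pullback.fst c t).appLE P.U₂ TK.U₂ hV₂.le).hom a, ?_⟩
      rw [resO_appLE (pullback.fst c t) hV₂.le hV₁₂.le inf_le_right inf_le_right a]
      rfl
    · rintro ⟨a', rfl⟩
      obtain ⟨a, rfl⟩ := hb₂.2 a'
      refine ⟨resO inf_le_right a, (hB' _).2 ⟨a, rfl⟩, ?_⟩
      rw [resO_appLE (pullback.fst c t) hV₂.le hV₁₂.le inf_le_right inf_le_right a]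
      rfl
  have hmap : (A' ⊔ B').map (Ψ : Γ(C, P.U₁ ⊓ P.U₂) →ₗ[k] Γ(pullback c t, TK.U₁ ⊓ TK.U₂)) =
      A'' ⊔ B'' := by
    rw [Submodule.map_sup, hmapA, hmapB]
  have e := Submodule.Quotient.equiv (A' ⊔ B') (A'' ⊔ B'') Ψ hmap
  rw [← hrank', ← hrank]
  exact e.finrank_eq

/-- **the uniform genus of the base changes is the genus of `C` itself** -/
theorem isCurveOfGenus_of_uniformGenus {γ : ℕ} (hγ : UniformGenus c γ) :
    letI := kAlgebraFF c
    IsCurveOfGenus k C.functionField γ := by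
  obtain ⟨γ', hF'⟩ := exists_genus c
  have h := genus_eq_of_isIso c (𝟙 (Spec (CommRingCat.of k))) rfl
    (hγ k (𝟙 (Spec (CommRingCat.of k)))) hF'
  rw [← h]
  exact hF'

/-- **there is a `γ` which is at the same time the genus of `C` and the uniform genus of its base
changes** -/
theorem exists_genus_uniform :
    ∃ γ : ℕ, (letI := kAlgebraFF c; IsCurveOfGenus k C.functionField γ) ∧ UniformGenus c γ := by
  obtain ⟨γ, hγ⟩ := exists_uniformGenus c
  exact ⟨γ, isCurveOfGenus_of_uniformGenus c hγ, hγ⟩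

/-- `finrank_h1_pointChart` (`H¹(C, O(-e))`) with the uniform genus -/
theorem finrank_h1_pointChart_of_uniformGenus (ε : Prod.KPt c) (T : PointChart c ε.pt) {γ : ℕ}
    (hγ : UniformGenus c γ) :
    letI : Algebra k Γ(C, T.U₁ ⊓ T.U₂) := (P5a.constHomOpen c (T.U₁ ⊓ T.U₂)).hom.toAlgebra
    ∀ (A' B' : Submodule k Γ(C, T.U₁ ⊓ T.U₂)),
      (∀ x, x ∈ A' ↔ ∃ a : Γ(C, T.U₁), resO inf_le_left a = x) →
      (∀ x, x ∈ B' ↔ ∃ b : Γ(C, T.U₂), resO inf_le_right (T.z * b) = x) →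
      Module.Finite k (Γ(C, T.U₁ ⊓ T.U₂) ⧸ (A' ⊔ B')) ∧
        Module.finrank k (Γ(C, T.U₁ ⊓ T.U₂) ⧸ (A' ⊔ B')) = γ :=
  finrank_h1_pointChart c ε T (isCurveOfGenus_of_uniformGenus c hγ)

end Main

end Fermat.Agent.S25lib.Polar
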