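/-
S25lib / Polar / KmapDict (helper9).
**The Čech differential `K_n` of `Polar/DictCurve` is the differential `Kmap ι L n` of the two-chart complex** of
helper4's constructor (`AffBC/Krich`), over `T = Spec K`, `K ⊇ k` algebraically closed, for EVERY `n : ℤ`
(`AffBC/KFun.bijective_kfun_iff` is the case `n = -1`).

* `bijective_Kmap_bL_iff` (pure algebra): for `ρ₂ : W₂ → V` injective, `Kmap ι (bL z (range ρ₂)) n` is bijective
  iff `(w, l) ↦ ι w + z⁻ⁿ • ρ₂ l` is;
* **`cechMap_bijective_iff_Kmap`** : `Bijective ((twoChartK c t ε Z).cechMap _ N n) ↔ Bijective (Kmap ι L n)`.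
-/
import Mathlib
import Fermat.Agent.S25lib.Polar.KBDict
import Fermat.Agent.S25lib.AffBC.KFun

set_option autoImplicit false

noncomputable section

universe u

open AlgebraicGeometry CategoryTheory CategoryTheory.Limits TopologicalSpace AlgebraicCurve

namespace Fermat.Agent.S25lib.Polar

open Fermat.Agent.S18lib Fermat.Agent.S26lib Fermat.Agent.S26lib.Weil Fermat.Agent.S26lib.Aff
  Fermat.Agent.S26lib.CechRR Fermat.Agent.S26lib.CurvePlace Fermat.Agent.S25lib.Mod
  Fermat.Agent.S25lib.Curve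

section Algebra

open Fermat.Agent.S25lib.Krich

variable {R : Type*} [CommRing R] {S : Type*} [CommRing S] [Algebra R S]
  {V : Type*} [AddCommGroup V] [Module R V] [Module S V] [IsScalarTower R S V]
  {W : Type*} [AddCommGroup W] [Module R W] {W₂ : Type*} [AddCommGroup W₂] [Module R W₂]

theorem mem_bL_range_iff (ρ₂ : W₂ →ₗ[R] V) (z : Sˣ) (n : ℤ) (v : V) :
    v ∈ bL z (LinearMap.range ρ₂) n ↔ ∃ l : W₂, v = ((z ^ (-n) : Sˣ) : S) • ρ₂ l := by
  rw [mem_bL]
  constructor
  · rintro ⟨l, hl⟩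
    exact ⟨l, by rw [hl, zpow_neg_smul_zpow_smul]⟩
  · rintro ⟨l, rfl⟩
    exact ⟨l, by rw [zpow_smul_zpow_neg_smul]⟩

/-- **the differential of the complex in sections form** -/
theorem bijective_Kmap_bL_iff (ι : W →ₗ[R] V) (ρ₂ : W₂ →ₗ[R] V)
    (hρ₂ : Function.Injective ρ₂) (z : Sˣ) (n : ℤ) :
    Function.Bijective (Kmap ι (bL z (LinearMap.range ρ₂)) n) ↔
      Function.Bijective (fun p : W × W₂ => ι p.1 + ((z ^ (-n) : Sˣ) : S) • ρ₂ p.2) := by
  constructor
  · rintro ⟨hi, hs⟩
    rw [← LinearMap.ker_eq_bot, ker_Kmap] at hi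
    rw [Kmap_surjective_iff] at hs
    constructor
    · rintro ⟨w, l⟩ ⟨w', l'⟩ h
      simp only at h
      have h1 : ι (w - w') = ((z ^ (-n) : Sˣ) : S) • ρ₂ (l' - l) := by
        rw [map_sub, map_sub, smul_sub, sub_eq_sub_iff_add_eq_add]
        rw [h, add_comm]
      have h2 : w - w' ∈ H0 ι (bL z (LinearMap.range ρ₂)) n := by
        rw [mem_H0, mem_bL_range_iff]
        exact ⟨_, h1⟩
      rw [hi, Submodule.mem_bot, sub_eq_zero] at h2
      have h3 : ((z ^ (-n) : Sˣ) : S) • ρ₂ (l' - l) = 0 := by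
        rw [← h1, h2, sub_self, map_zero]
      have h4 : ρ₂ (l' - l) = 0 := by
        have := congrArg (fun v => ((z ^ n : Sˣ) : S) • v) h3
        simp only [smul_zero] at this
        rwa [zpow_smul_zpow_neg_smul] at this
      have h5 : l' - l = 0 := hρ₂ (h4.trans (map_zero _).symm)
      rw [sub_eq_zero] at h5
      rw [h2, h5]
    · intro v
      have hv : v ∈ LinearMap.range ι ⊔ bL z (LinearMap.range ρ₂) n := by rw [hs]; trivial
      obtain ⟨_, ⟨w, rfl⟩, v₁, hv₁, rfl⟩ := Submodule.mem_sup.mp hv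
      obtain ⟨l, rfl⟩ := (mem_bL_range_iff ρ₂ z n _).mp hv₁
      exact ⟨(w, l), rfl⟩
  · rintro ⟨hi, hs⟩
    constructor
    · rw [← LinearMap.ker_eq_bot, ker_Kmap, eq_bot_iff]
      intro w hw
      rw [mem_H0, mem_bL_range_iff] at hw
      obtain ⟨l, hl⟩ := hw
      have h1 : (fun p : W × W₂ => ι p.1 + ((z ^ (-n) : Sˣ) : S) • ρ₂ p.2) (w, -l) =
          (fun p : W × W₂ => ι p.1 + ((z ^ (-n) : Sˣ) : S) • ρ₂ p.2) (0, 0) := by
        simp only [map_neg, smul_neg, map_zero, smul_zero, add_zero]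
        rw [hl, add_neg_cancel]
      exact congrArg Prod.fst (hi h1)
    · rw [Kmap_surjective_iff, eq_top_iff]
      intro v _
      obtain ⟨⟨w, l⟩, rfl⟩ := hs v
      exact Submodule.add_mem_sup ⟨w, rfl⟩ ((mem_bL_range_iff ρ₂ z n _).mpr ⟨l, rfl⟩)

end Algebra

section Congr

variable {Y : Scheme.{u}} [IsIntegral Y] [IsLocallyNoetherian Y]
  (hreg : ∀ c : Y, c = genericPoint Y ∨ IsDiscreteValuationRing (Y.presheaf.stalk c))
  (T : TwoChart Y)

/-- the Čech differential is natural in the module -/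
theorem TwoChart.cechMap_map {N N' : Y.Modules} (φ : N ⟶ N') (n : ℤ)
    (p : Γ(N, T.U₁) × Γ(N, T.U₂)) :
    φ.app _ (T.cechMap hreg N n p) = T.cechMap hreg N' n (φ.app _ p.1, φ.app _ p.2) := by
  unfold TwoChart.cechMap
  rw [map_add, Mod.app_res, Scheme.Modules.Hom.app_smul, Mod.app_res]

/-- bijectivity of the Čech differential is invariant under isomorphisms -/
theorem TwoChart.cechMap_bijective_congr {N N' : Y.Modules} (α : N ≅ N') (n : ℤ)
    (h : Function.Bijective (T.cechMap hreg N n)) : Function.Bijective (T.cechMap hreg N' n) := by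
  have hb : ∀ U : Y.Opens, Function.Bijective (α.hom.app U) :=
    fun U => Mod.bijective_app_of_iso α U
  have hcomm : (fun p => T.cechMap hreg N' n p) ∘
      (fun p : Γ(N, T.U₁) × Γ(N, T.U₂) =>
        ((α.hom.app _ p.1, α.hom.app _ p.2) : Γ(N', T.U₁) × Γ(N', T.U₂))) =
      (α.hom.app _) ∘ T.cechMap hreg N n := by
    funext p
    exact (T.cechMap_map hreg α.hom n p).symm
  have h1 : Function.Bijective
      (fun p : Γ(N, T.U₁) × Γ(N, T.U₂) =>
        ((α.hom.app _ p.1, α.hom.app _ p.2) : Γ(N', T.U₁) × Γ(N', T.U₂))) :=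
    Function.bijective_iff_has_inverse.mpr
      ⟨fun q => ((Equiv.ofBijective _ (hb _)).symm q.1, (Equiv.ofBijective _ (hb _)).symm q.2),
        fun p => Prod.ext ((Equiv.ofBijective _ (hb _)).symm_apply_apply p.1)
          ((Equiv.ofBijective _ (hb _)).symm_apply_apply p.2),
        fun q => Prod.ext ((Equiv.ofBijective _ (hb _)).apply_symm_apply q.1)
          ((Equiv.ofBijective _ (hb _)).apply_symm_apply q.2)⟩
  have h2 : Function.Bijective ((α.hom.app _) ∘ T.cechMap hreg N n) := (hb _).comp h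
  rw [← hcomm] at h2
  exact (Function.Bijective.of_comp_iff _ h1).mp h2

end Congr

section Geom

open Fermat.Agent.S25lib.AffBC Fermat.Agent.S26lib.ProdAff

variable {k : Type u} [Field k] [IsAlgClosed k] {C : Scheme.{u}}
  (c : C ⟶ Spec (CommRingCat.of k)) [IsProper c] [SmoothOfRelativeDimension 1 c] [IsIntegral C]
  {K : Type u} [Field K] [IsAlgClosed K] (t : Spec (CommRingCat.of K) ⟶ Spec (CommRingCat.of k))
  (ε : Prod.KPt c) (Z : ZChart ε.pt)

omit [IsAlgClosed k] [IsProper c] [SmoothOfRelativeDimension 1 c] [IsIntegral C] in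
theorem basicOpen_z_le_U₁ {e : C} (Z : ZChart e) : C.basicOpen Z.z ≤ Z.U₁ := by
  rw [← Z.inf_eq]
  exact inf_le_left

/-- the local parameter is a non-zero-divisor on `U₂` -/
theorem ZChart.isSMulRegular_z : IsSMulRegular Γ(C, Z.U₂) Z.z := by
  haveI : Nonempty (Z.U₂ : C.Opens) := ⟨⟨ε.pt, Z.mem₂⟩⟩
  haveI : IsDomain Γ(C, Z.U₂) := inferInstance
  intro a b hab
  exact mul_left_cancel₀ (Z.z_ne_zero c ε) hab

/-- the unit `z` of the two-chart data, restricted to the box `D(z) × K` -/
theorem resO_unit_zpow (n : ℤ) :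
    haveI := isIntegral_pullback c t
    haveI := isLocallyNoetherian (pullback.snd c t)
    ∀ (hge : box c t (C.basicOpen Z.z) ⊤ ≤ (twoChartK c t ε Z).U₁ ⊓ (twoChartK c t ε Z).U₂),
    resO hge (Units.val (((twoChartK c t ε Z).unit (hreg (pullback.snd c t))) ^ n)) =
      Units.val ((zUnit (c := c) (t := t) Z.z ⊤) ^ n) := by
  haveI := isIntegral_pullback c t
  haveI := isLocallyNoetherian (pullback.snd c t)
  intro hge
  set ρ : Γ(pullback c t, (twoChartK c t ε Z).U₁ ⊓ (twoChartK c t ε Z).U₂) →*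
      Γ(pullback c t, box c t (C.basicOpen Z.z) ⊤) :=
    ((pullback c t).presheaf.map (homOfLE hge).op).hom.toMonoidHom with hρ
  have h1 : Units.map ρ ((twoChartK c t ε Z).unit (hreg (pullback.snd c t))) =
      zUnit (c := c) (t := t) Z.z ⊤ := by
    apply Units.ext
    rw [Units.coe_map, zUnit_val, ← boxRes_fstφ_z]
    show resO hge (resO (inf_le_right : box c t Z.U₁ ⊤ ⊓ box c t Z.U₂ ⊤ ≤ box c t Z.U₂ ⊤)
      (ZChart.zK c t ε Z)) = _
    rw [resO_resO]
    rfl
  have h2 : ρ (Units.val (((twoChartK c t ε Z).unit (hreg (pullback.snd c t))) ^ n)) =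
      Units.val (Units.map ρ (((twoChartK c t ε Z).unit (hreg (pullback.snd c t))) ^ n)) :=
    (Units.coe_map ρ _).symm
  show ρ _ = _
  rw [h2, map_zpow, h1]

/-- **the Čech differential `K_n` of the dictionary is the differential of the two-chart
complex**, for every `n` -/
theorem cechMap_bijective_iff_Kmap (N : (pullback c t).Modules)
    (hN : Scheme.Modules.IsInvertible N) (n : ℤ) :
    haveI := isIntegral_pullback c t
    haveI := isLocallyNoetherian (pullback.snd c t)
    Function.Bijective ((twoChartK c t ε Z).cechMap (hreg (pullback.snd c t)) N n) ↔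
      Function.Bijective (Krich.Kmap
        (BoxSec.res (N := N) (T' := (⊤ : (Spec (CommRingCat.of K)).Opens))
          (basicOpen_z_le_U₁ Z))
        (Krich.bL (zUnit (c := c) (t := t) Z.z ⊤) (kL0 N Z.z ⊤)) n) := by
  haveI := isIntegral_pullback c t
  haveI := isLocallyNoetherian (pullback.snd c t)
  have hinj := BoxSec.res_injective_of_regular (N := N)
    (T' := (⊤ : (Spec (CommRingCat.of K)).Opens)) hN Z.isAffineOpen₂ (isAffineOpen_top _)
    (ZChart.isSMulRegular_z c ε Z)
  have hE : (twoChartK c t ε Z).U₁ ⊓ (twoChartK c t ε Z).U₂ = box c t (C.basicOpen Z.z) ⊤ :=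
    box_inf_eq (c := c) (t := t) Z.z Z.inf_eq
  unfold kL0
  rw [bijective_Kmap_bL_iff _ _ hinj]
  -- the transport between the two descriptions of the intersection
  have hτ : Function.Bijective (Mod.res N hE.ge) := by
    refine Function.bijective_iff_has_inverse.mpr ⟨Mod.res N hE.le, fun x => ?_, fun x => ?_⟩
    · rw [Mod.res_res, Mod.res_self]
    · rw [Mod.res_res, Mod.res_self]
  have key : (Mod.res N hE.ge) ∘ ((twoChartK c t ε Z).cechMap (hreg (pullback.snd c t)) N n) =
      fun p : BoxSec N Z.U₁ (⊤ : (Spec (CommRingCat.of K)).Opens) ×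
          BoxSec N Z.U₂ (⊤ : (Spec (CommRingCat.of K)).Opens) =>
        BoxSec.res (basicOpen_z_le_U₁ Z) p.1 +
          (((zUnit (c := c) (t := t) Z.z ⊤) ^ (-n) :
            (Γ(pullback c t, box c t (C.basicOpen Z.z) ⊤))ˣ) :
            Γ(pullback c t, box c t (C.basicOpen Z.z) ⊤)) •
            BoxSec.res (C.basicOpen_le Z.z) p.2 := by
    funext p
    show Mod.res N hE.ge ((twoChartK c t ε Z).cechMap (hreg (pullback.snd c t)) N n p) = _
    unfold TwoChart.cechMap
    rw [Mod.res_add, Mod.res_res, Mod.res_smul, Mod.res_res, resO_unit_zpow c t ε Z (-n) hE.ge]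
    rfl
  rw [← key]
  exact (Function.Bijective.of_comp_iff' hτ _).symm

end Geom

end Fermat.Agent.S25lib.Polar
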